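import Fermat.Statements.S51

set_option autoImplicit false
open WeierstrassCurve WeierstrassCurve.Affine WeierstrassCurve.Affine.Point

namespace Fermat.Agent.S51.Assembly

/-- Interface of the 3-side: a Galois-stable line in `E[3]` gives a rational root of `Ψ₃`. -/
def ThreeShape : Prop :=
  ∀ E : WeierstrassCurve ℚ, E.Δ ≠ 0 →
    ¬ GaloisRepIsIrreducible (K := AlgebraicClosure ℚ) ℚ E 3 →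
    ∃ x₀ : ℚ, 3 * x₀ ^ 4 + E.b₂ * x₀ ^ 3 + 3 * E.b₄ * x₀ ^ 2 + 3 * E.b₆ * x₀ + E.b₈ = 0

/-- Interface of the 5-side: a Galois-stable line in `E[5]` gives `x₁ = x(P)`, `x₂ = x(2P)` with
rational symmetric functions and the two duplication relations. -/
def FiveShape : Prop :=
  ∀ E : WeierstrassCurve ℚ, E.Δ ≠ 0 →
    ¬ GaloisRepIsIrreducible (K := AlgebraicClosure ℚ) ℚ E 5 →
    ∃ (x₁ x₂ : AlgebraicClosure ℚ) (e₁ e₂ : ℚ), x₁ ≠ x₂ ∧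
      x₁ + x₂ = (e₁ : AlgebraicClosure ℚ) ∧ x₁ * x₂ = (e₂ : AlgebraicClosure ℚ) ∧
      4 * x₁ ^ 3 + (E.b₂ : AlgebraicClosure ℚ) * x₁ ^ 2 + 2 * (E.b₄ : AlgebraicClosure ℚ) * x₁
        + (E.b₆ : AlgebraicClosure ℚ) ≠ 0 ∧
      4 * x₂ ^ 3 + (E.b₂ : AlgebraicClosure ℚ) * x₂ ^ 2 + 2 * (E.b₄ : AlgebraicClosure ℚ) * x₂
        + (E.b₆ : AlgebraicClosure ℚ) ≠ 0 ∧
      x₁ ^ 4 - (E.b₄ : AlgebraicClosure ℚ) * x₁ ^ 2 - 2 * (E.b₆ : AlgebraicClosure ℚ) * x₁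
          - (E.b₈ : AlgebraicClosure ℚ) =
        x₂ * (4 * x₁ ^ 3 + (E.b₂ : AlgebraicClosure ℚ) * x₁ ^ 2
          + 2 * (E.b₄ : AlgebraicClosure ℚ) * x₁ + (E.b₆ : AlgebraicClosure ℚ)) ∧
      x₂ ^ 4 - (E.b₄ : AlgebraicClosure ℚ) * x₂ ^ 2 - 2 * (E.b₆ : AlgebraicClosure ℚ) * x₂
          - (E.b₈ : AlgebraicClosure ℚ) =
        x₁ * (4 * x₂ ^ 3 + (E.b₂ : AlgebraicClosure ℚ) * x₂ ^ 2
          + 2 * (E.b₄ : AlgebraicClosure ℚ) * x₂ + (E.b₆ : AlgebraicClosure ℚ))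

/-- Interface of the identities (B): field algebra over `AlgebraicClosure ℚ` with rational
`b`-invariants. -/
def IdentShape : Prop :=
  ∀ (b₂ b₄ b₆ b₈ : ℚ), 4 * b₈ = b₂ * b₆ - b₄ ^ 2 →
  ∀ (x₁ x₂ : AlgebraicClosure ℚ) (e₁ e₂ x₀ : ℚ), x₁ ≠ x₂ →
    x₁ + x₂ = (e₁ : AlgebraicClosure ℚ) → x₁ * x₂ = (e₂ : AlgebraicClosure ℚ) →
    4 * x₁ ^ 3 + (b₂ : AlgebraicClosure ℚ) * x₁ ^ 2 + 2 * (b₄ : AlgebraicClosure ℚ) * x₁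
      + (b₆ : AlgebraicClosure ℚ) ≠ 0 →
    x₁ ^ 4 - (b₄ : AlgebraicClosure ℚ) * x₁ ^ 2 - 2 * (b₆ : AlgebraicClosure ℚ) * x₁
        - (b₈ : AlgebraicClosure ℚ) =
      x₂ * (4 * x₁ ^ 3 + (b₂ : AlgebraicClosure ℚ) * x₁ ^ 2
        + 2 * (b₄ : AlgebraicClosure ℚ) * x₁ + (b₆ : AlgebraicClosure ℚ)) →
    x₂ ^ 4 - (b₄ : AlgebraicClosure ℚ) * x₂ ^ 2 - 2 * (b₆ : AlgebraicClosure ℚ) * x₂
        - (b₈ : AlgebraicClosure ℚ) =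
      x₁ * (4 * x₂ ^ 3 + (b₂ : AlgebraicClosure ℚ) * x₂ ^ 2
        + 2 * (b₄ : AlgebraicClosure ℚ) * x₂ + (b₆ : AlgebraicClosure ℚ)) →
    3 * x₀ ^ 4 + b₂ * x₀ ^ 3 + 3 * b₄ * x₀ ^ 2 + 3 * b₆ * x₀ + b₈ = 0 →
    ∃ w π ζ : ℚ,
      (b₂ ^ 2 - 24 * b₄) ^ 3 * (w - 11) =
        (w ^ 2 - 12 * w + 16) ^ 3 * (-b₂ ^ 2 * b₈ - 8 * b₄ ^ 3 - 27 * b₆ ^ 2 + 9 * b₂ * b₄ * b₆) ∧
      ζ ^ 2 = (1 - 4 * π) * (w ^ 2 + 4) ∧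
      (1 - 3 * π) * w + (1 - π) * ζ + 6 * π ^ 2 = 0

/-- Interface of the Diophantine endgame (C)+(F). -/
def FinalShape : Prop :=
  ∀ (c4 Δ : ℤ), Δ ≠ 0 → (∀ p : ℕ, p.Prime → (p : ℤ) ∣ Δ → ¬ (p : ℤ) ∣ c4) →
  ∀ (w π ζ : ℚ), (c4 : ℚ) ^ 3 * (w - 11) = (w ^ 2 - 12 * w + 16) ^ 3 * (Δ : ℚ) →
    ζ ^ 2 = (1 - 4 * π) * (w ^ 2 + 4) → (1 - 3 * π) * w + (1 - π) * ζ + 6 * π ^ 2 = 0 → False

/-- The frozen statement S51 from the four interfaces. -/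
theorem s51_of_parts (three : ThreeShape) (five : FiveShape) (ident : IdentShape)
    (final : FinalShape) (W : WeierstrassCurve ℤ) (hΔ : W.Δ ≠ 0) (hW : W.IsSemistableModel) :
    W.ModRepIsIrreducible 3 ∨ W.ModRepIsIrreducible 5 := by
  by_contra hcon
  rw [not_or] at hcon
  obtain ⟨h3, h5⟩ := hcon
  set E : WeierstrassCurve ℚ := W.map (Int.castRingHom ℚ) with hE
  have hEΔ : E.Δ = (W.Δ : ℚ) := by rw [hE, WeierstrassCurve.map_Δ]; rfl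
  have hEc₄ : E.c₄ = (W.c₄ : ℚ) := by rw [hE, WeierstrassCurve.map_c₄]; rfl
  have hEΔ0 : E.Δ ≠ 0 := by rw [hEΔ]; exact_mod_cast hΔ
  obtain ⟨x₀, hx₀⟩ := three E hEΔ0 h3
  obtain ⟨x₁, x₂, e₁, e₂, hne, he₁, he₂, hg₁, -, hR1, hR2⟩ := five E hEΔ0 h5
  obtain ⟨w, π, ζ, hj, h1, h2⟩ :=
    ident E.b₂ E.b₄ E.b₆ E.b₈ E.b_relation x₁ x₂ e₁ e₂ x₀ hne he₁ he₂ hg₁ hR1 hR2 hx₀
  refine final W.c₄ W.Δ hΔ hW w π ζ ?_ h1 h2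
  have hc : E.c₄ = E.b₂ ^ 2 - 24 * E.b₄ := rfl
  have hd : E.Δ = -E.b₂ ^ 2 * E.b₈ - 8 * E.b₄ ^ 3 - 27 * E.b₆ ^ 2 + 9 * E.b₂ * E.b₄ * E.b₆ := rfl
  rw [← hEc₄, ← hEΔ, hc, hd]
  exact hj

end Fermat.Agent.S51.Assembly
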