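import Mathlib

set_option autoImplicit false

namespace Fermat.Agent.S51.FiveIdent

open Polynomial WeierstrassCurve WeierstrassCurve.Affine

section Field

variable {F : Type*} [Field F] (W : WeierstrassCurve.Affine F)

/-- value of `Ψ₂Sq` -/
def gX (x : F) : F := 4 * x ^ 3 + W.b₂ * x ^ 2 + 2 * W.b₄ * x + W.b₆

/-- value of `Φ₂` -/
def phiX (x : F) : F := x ^ 4 - W.b₄ * x ^ 2 - 2 * W.b₆ * x - W.b₈

/-- value of `Ψ₃` -/
def psi3X (x : F) : F := 3 * x ^ 4 + W.b₂ * x ^ 3 + 3 * W.b₄ * x ^ 2 + 3 * W.b₆ * x + W.b₈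

/-- value of `preΨ₄` -/
def pre4X (x : F) : F :=
  2 * x ^ 6 + W.b₂ * x ^ 5 + 5 * W.b₄ * x ^ 4 + 10 * W.b₆ * x ^ 3 + 10 * W.b₈ * x ^ 2 +
    (W.b₂ * W.b₈ - W.b₄ * W.b₆) * x + (W.b₄ * W.b₈ - W.b₆ ^ 2)

/-- value of `preΨ' 5` -/
def psi5X (x : F) : F := pre4X W x * gX W x ^ 2 - psi3X W x ^ 3

lemma psi3X_eq (x : F) : psi3X W x = x * gX W x - phiX W x := by
  unfold psi3X gX phiX; ring

lemma ident1 (x : F) :
    4 * phiX W x ^ 3 + W.b₂ * phiX W x ^ 2 * gX W x + 2 * W.b₄ * phiX W x * gX W x ^ 2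
      + W.b₆ * gX W x ^ 3 = pre4X W x ^ 2 := by
  unfold phiX gX pre4X
  simp only [WeierstrassCurve.b₂, WeierstrassCurve.b₄, WeierstrassCurve.b₆, WeierstrassCurve.b₈]
  ring

lemma ident2 (x : F) :
    phiX W x ^ 4 - W.b₄ * phiX W x ^ 2 * gX W x ^ 2 - 2 * W.b₆ * phiX W x * gX W x ^ 3
      - W.b₈ * gX W x ^ 4 - x * gX W x * pre4X W x ^ 2 = - psi3X W x * psi5X W x := by
  unfold psi5X psi3X phiX gX pre4X
  simp only [WeierstrassCurve.b₂, WeierstrassCurve.b₄, WeierstrassCurve.b₆, WeierstrassCurve.b₈]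
  ring

end Field

end Fermat.Agent.S51.FiveIdent
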