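import Mathlib
import Fermat.Prelude.Def_FLTPrelim_GaloisRep
import Fermat.Agent.Lib.TorsionFinite
import Fermat.Agent.S51.FiveIdent
import Fermat.Agent.S51.Assembly

set_option autoImplicit false

namespace Fermat.Agent.S51.Five

open Polynomial WeierstrassCurve WeierstrassCurve.Affine
open Fermat.Agent.Lib.TorsionFinite Fermat.Agent.S51.FiveIdent

section Field

variable {F : Type*} [Field F] {W : WeierstrassCurve.Affine F}

lemma hasX_neg {P : W.Point} {x : F} (h : HasX W P x) : HasX W (-P) x := by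
  obtain ⟨y, hy, rfl⟩ := h
  exact ⟨_, _, Point.neg_some hy⟩

lemma eq_or_eq_neg_of_hasX {P Q : W.Point} {x : F} (hP : HasX W P x) (hQ : HasX W Q x) :
    Q = P ∨ Q = -P := by
  obtain ⟨y, hy, rfl⟩ := hP
  obtain ⟨y', hy', rfl⟩ := hQ
  exact (Point.X_eq_iff (h₁ := hy') (h₂ := hy)).mp rfl

lemma gX_div (a c : F) (hc : c ≠ 0) :
    gX W (a / c) * c ^ 3 = 4 * a ^ 3 + W.b₂ * a ^ 2 * c + 2 * W.b₄ * a * c ^ 2 + W.b₆ * c ^ 3 := by
  unfold gX
  field_simp

lemma phiX_div (a c : F) (hc : c ≠ 0) :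
    phiX W (a / c) * c ^ 4 = a ^ 4 - W.b₄ * a ^ 2 * c ^ 2 - 2 * W.b₆ * a * c ^ 3 - W.b₈ * c ^ 4 := by
  unfold phiX
  field_simp

/-- a point with `g = 0` and `ψ₃ = 0` would be singular -/
lemma not_gX_psi3X {P : W.Point} {x : F} (h : HasX W P x) (hg : gX W x = 0)
    (h3 : psi3X W x = 0) : False := by
  obtain ⟨y, hy, rfl⟩ := h
  have heq := (W.equation_iff x y).mp hy.1
  have hu : 2 * y + W.a₁ * x + W.a₃ = 0 := by
    have : (2 * y + W.a₁ * x + W.a₃) ^ 2 = 0 := by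
      rw [← hg]
      simp only [gX, WeierstrassCurve.b₂, WeierstrassCurve.b₄, WeierstrassCurve.b₆]
      linear_combination (4 : F) * heq
    exact pow_eq_zero_iff (two_ne_zero) |>.mp this
  have hpx : W.a₁ * y - (3 * x ^ 2 + 2 * W.a₂ * x + W.a₄) = 0 := by
    have : (W.a₁ * y - (3 * x ^ 2 + 2 * W.a₂ * x + W.a₄)) ^ 2 = 0 := by
      have h3' := h3
      simp only [psi3X, WeierstrassCurve.b₂, WeierstrassCurve.b₄, WeierstrassCurve.b₆,
        WeierstrassCurve.b₈] at h3'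
      linear_combination (-1 : F) * h3' +
        (W.a₁ * (W.a₁ * y - (3 * x ^ 2 + 2 * W.a₂ * x + W.a₄)) +
          (2 * y + W.a₁ * x + W.a₃) * (3 * x + W.a₂)) * hu
        - (12 * x + W.a₁ ^ 2 + 4 * W.a₂) * heq
    exact pow_eq_zero_iff (two_ne_zero) |>.mp this
  rcases ((W.nonsingular_iff' x y).mp hy).2 with h' | h'
  · exact h' hpx
  · exact h' hu

variable [DecidableEq F]

lemma hasX_double' {P : W.Point} {x : F} (h : HasX W P x) (h2 : P + P ≠ 0) :
    gX W x ≠ 0 ∧ HasX W (P + P) (phiX W x / gX W x) := hasX_double h h2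

lemma add_self_eq_zero_iff {P : W.Point} {x : F} (h : HasX W P x) :
    P + P = 0 ↔ gX W x = 0 := by
  constructor
  · intro h2
    obtain ⟨y, hy, rfl⟩ := h
    by_contra hg
    have hne : y ≠ W.negY x y := by
      intro hEq
      apply hg
      have heq := (W.equation_iff x y).mp hy.1
      have : gX W x = (y - W.negY x y) ^ 2 := by
        simp only [gX, WeierstrassCurve.b₂, WeierstrassCurve.b₄, WeierstrassCurve.b₆, negY]
        linear_combination (-4 : F) * heq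
      rw [this, ← hEq, sub_self]
      ring
    rw [Point.add_self_of_Y_ne hne] at h2
    exact Point.some_ne_zero _ h2
  · intro hg
    by_contra h2
    exact (hasX_double' h h2).1 hg

lemma three_nsmul_of_psi3X {P : W.Point} {x : F} (h : HasX W P x) (h3 : psi3X W x = 0)
    (hg : gX W x ≠ 0) : 3 • P = 0 := by
  have h2 : P + P ≠ 0 := fun h2 => hg ((add_self_eq_zero_iff h).mp h2)
  have hd := (hasX_double' h h2).2
  have hx : phiX W x / gX W x = x := by
    rw [div_eq_iff hg]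
    have := psi3X_eq W x
    rw [h3] at this
    linear_combination this
  rw [hx] at hd
  rcases eq_or_eq_neg_of_hasX h hd with h' | h'
  · exfalso
    exact h.ne_zero (by simpa using h')
  · have : 3 • P = P + P + P := by rw [succ_nsmul, two_nsmul]
    rw [this, h']
    simp

lemma psi3X_of_three_nsmul {P : W.Point} {x : F} (h : HasX W P x) (h3 : 3 • P = 0) :
    psi3X W x = 0 := by
  have h2' : P + P = -P := by
    have : P + P + P = 0 := by rw [← h3, succ_nsmul, two_nsmul]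
    exact eq_neg_of_add_eq_zero_left this
  have h2 : P + P ≠ 0 := by
    rw [h2']
    exact neg_ne_zero.mpr h.ne_zero
  obtain ⟨hg, hd⟩ := hasX_double' h h2
  rw [h2'] at hd
  have := HasX.unique hd (hasX_neg h)
  rw [psi3X_eq]
  rw [div_eq_iff hg] at this
  linear_combination -this

lemma five_nsmul_eq {P : W.Point} : 5 • P = ((P + P) + (P + P)) + P := by
  rw [show (5 : ℕ) = 2 + 2 + 1 from rfl, add_nsmul, add_nsmul, one_nsmul, two_nsmul]

/-- structure of a point of exact order `5` in terms of the `x`-coordinates of `P` and `2P`. -/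
lemma five_point_structure {P : W.Point} {x₁ : F} (h : HasX W P x₁) (h5 : 5 • P = 0) :
    gX W x₁ ≠ 0 ∧ HasX W (P + P) (phiX W x₁ / gX W x₁) ∧ gX W (phiX W x₁ / gX W x₁) ≠ 0 ∧
      phiX W (phiX W x₁ / gX W x₁) = x₁ * gX W (phiX W x₁ / gX W x₁) ∧
      x₁ ≠ phiX W x₁ / gX W x₁ := by
  rw [five_nsmul_eq] at h5
  have h2 : P + P ≠ 0 := by
    intro h2
    rw [h2] at h5
    simp at h5
    exact h.ne_zero h5
  obtain ⟨hg1, hd⟩ := hasX_double' h h2
  have h4 : (P + P) + (P + P) ≠ 0 := by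
    intro h4
    rw [h4] at h5
    simp at h5
    exact h.ne_zero h5
  obtain ⟨hg2, hd4⟩ := hasX_double' hd h4
  have h4' : (P + P) + (P + P) = -P := eq_neg_of_add_eq_zero_left h5
  rw [h4'] at hd4
  have hx := HasX.unique hd4 (hasX_neg h)
  refine ⟨hg1, hd, hg2, ?_, ?_⟩
  · rw [div_eq_iff hg2] at hx
    exact hx
  · intro hxx
    rw [← hxx] at hd
    rcases eq_or_eq_neg_of_hasX h hd with h' | h'
    · exact h.ne_zero (by simpa using h')
    · rw [h'] at h4'
      have : -P = 0 := by simpa using h4'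
      exact h.ne_zero (neg_eq_zero.mp this)

lemma psi5X_of_five_nsmul {P : W.Point} {x : F} (h : HasX W P x) (h5 : 5 • P = 0) :
    psi5X W x = 0 := by
  obtain ⟨hg1, hd, hg2, hrel, hne⟩ := five_point_structure h h5
  have e1 := gX_div (W := W) (phiX W x) (gX W x) hg1
  have e2 := phiX_div (W := W) (phiX W x) (gX W x) hg1
  have i1 := ident1 W x
  have i2 := ident2 W x
  have hprod : psi3X W x * psi5X W x = 0 := by
    have e3 : phiX W (phiX W x / gX W x) * gX W x ^ 4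
        = x * gX W x * (gX W (phiX W x / gX W x) * gX W x ^ 3) := by
      rw [hrel]; ring
    rw [e1, e2, i1] at e3
    linear_combination i2 - e3
  rcases mul_eq_zero.mp hprod with h3 | h5'
  · exfalso
    have h3P : 3 • P = 0 := three_nsmul_of_psi3X h h3 hg1
    have h2P : P + P = 0 := by
      have e : 5 • P = 3 • P + (P + P) := by
        rw [show (5 : ℕ) = 3 + 2 from rfl, add_nsmul, two_nsmul]
      rw [e, h3P, zero_add] at h5
      exact h5
    exact hg1 ((add_self_eq_zero_iff h).mp h2P)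
  · exact h5'

lemma five_nsmul_of_psi5X {P : W.Point} {x : F} (h : HasX W P x) (h5 : psi5X W x = 0) :
    5 • P = 0 := by
  have hg : gX W x ≠ 0 := by
    intro hg0
    have h3 : psi3X W x = 0 := by
      have : psi3X W x ^ 3 = 0 := by
        have := h5
        unfold psi5X at this
        rw [hg0] at this
        linear_combination -this
      exact pow_eq_zero_iff (by norm_num) |>.mp this
    exact not_gX_psi3X h hg0 h3
  have h2 : P + P ≠ 0 := fun h2 => hg ((add_self_eq_zero_iff h).mp h2)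
  obtain ⟨-, hd⟩ := hasX_double' h h2
  have e1 := gX_div (W := W) (phiX W x) (gX W x) hg
  have e2 := phiX_div (W := W) (phiX W x) (gX W x) hg
  have i1 := ident1 W x
  have i2 := ident2 W x
  rw [i1] at e1
  have hpre : pre4X W x ≠ 0 := by
    intro hpre
    have h3 : psi3X W x = 0 := by
      have : psi3X W x ^ 3 = 0 := by
        have := h5
        unfold psi5X at this
        rw [hpre] at this
        linear_combination -this
      exact pow_eq_zero_iff (by norm_num) |>.mp this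
    have h3P : 3 • P = 0 := three_nsmul_of_psi3X h h3 hg
    have hg2 : gX W (phiX W x / gX W x) = 0 := by
      rw [hpre] at e1
      have : gX W (phiX W x / gX W x) * gX W x ^ 3 = 0 := by rw [e1]; ring
      rcases mul_eq_zero.mp this with h' | h'
      · exact h'
      · exact absurd (pow_eq_zero_iff (by norm_num) |>.mp h') hg
    have h4P : (P + P) + (P + P) = 0 := (add_self_eq_zero_iff hd).mpr hg2
    have : P = 0 := by
      have e : (P + P) + (P + P) = 3 • P + P := by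
        rw [succ_nsmul, two_nsmul]; abel
      rw [e, h3P, zero_add] at h4P
      exact h4P
    exact h.ne_zero this
  have hg2 : gX W (phiX W x / gX W x) ≠ 0 := by
    intro hg2
    rw [hg2, zero_mul] at e1
    exact hpre (pow_eq_zero_iff (by norm_num) |>.mp e1.symm)
  have h4 : (P + P) + (P + P) ≠ 0 := fun h4 => hg2 ((add_self_eq_zero_iff hd).mp h4)
  obtain ⟨-, hd4⟩ := hasX_double' hd h4
  have hx : phiX W (phiX W x / gX W x) / gX W (phiX W x / gX W x) = x := by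
    rw [div_eq_iff hg2]
    have hg4 : gX W x ^ 4 ≠ 0 := pow_ne_zero 4 hg
    apply mul_right_cancel₀ hg4
    rw [e2]
    have e3 : x * gX W (phiX W x / gX W x) * gX W x ^ 4
        = x * gX W x * (gX W (phiX W x / gX W x) * gX W x ^ 3) := by ring
    rw [e3, e1]
    rw [h5, mul_zero] at i2
    linear_combination i2
  rw [hx] at hd4
  rw [five_nsmul_eq]
  rcases eq_or_eq_neg_of_hasX h hd4 with h' | h'
  · exfalso
    have h3P : 3 • P = 0 := by
      have e : (P + P) + (P + P) = 3 • P + P := by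
        rw [succ_nsmul, two_nsmul]; abel
      rw [e] at h'
      simpa using h'
    have h3 := psi3X_of_three_nsmul h h3P
    have : pre4X W x * gX W x ^ 2 = 0 := by
      have := h5
      unfold psi5X at this
      rw [h3] at this
      linear_combination this
    rcases mul_eq_zero.mp this with h'' | h''
    · exact hpre h''
    · exact hg (pow_eq_zero_iff (by norm_num) |>.mp h'')
  · rw [h']
    simp

end Field

section AlgClosed

variable {F : Type*} [Field F] [DecidableEq F] (W : WeierstrassCurve.Affine F)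

omit [DecidableEq F] in
lemma preΨ'_five_eq : W.preΨ' 5 = W.preΨ₄ * W.Ψ₂Sq ^ 2 - W.Ψ₃ ^ 3 := by
  have := W.preΨ'_odd 0
  simpa using this

omit [DecidableEq F] in
lemma eval_preΨ'_five (x : F) : (W.preΨ' 5).eval x = psi5X W x := by
  rw [preΨ'_five_eq]
  simp only [psi5X, pre4X, gX, psi3X, WeierstrassCurve.preΨ₄, WeierstrassCurve.Ψ₂Sq,
    WeierstrassCurve.Ψ₃, eval_sub, eval_mul, eval_pow, eval_add, eval_C, eval_X, eval_ofNat]

omit [DecidableEq F] in
lemma exists_hasX_of_ne_zero {W : WeierstrassCurve.Affine F} {P : W.Point} (h : P ≠ 0) :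
    ∃ x, HasX W P x := by
  rcases P with _ | ⟨x, y, hy⟩
  · exact absurd rfl h
  · exact ⟨x, y, hy, rfl⟩

lemma exists_five_torsion [IsAlgClosed F] [CharZero F] (hΔ : W.Δ ≠ 0) :
    ∃ P : W.Point, P ≠ 0 ∧ 5 • P = 0 := by
  have h5 : ((5 : ℕ) : F) ≠ 0 := by norm_num
  have hdeg : 0 < (W.preΨ' 5).natDegree := W.natDegree_preΨ'_pos (by norm_num) h5
  obtain ⟨x, hx⟩ := IsAlgClosed.exists_root (W.preΨ' 5)
    (ne_of_gt (Polynomial.natDegree_pos_iff_degree_pos.mp hdeg))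
  rw [IsRoot, eval_preΨ'_five] at hx
  obtain ⟨u, hu⟩ := IsAlgClosed.exists_pow_nat_eq (gX W x) (n := 2) (by norm_num)
  have heq : W.Equation x ((u - W.a₁ * x - W.a₃) / 2) := by
    rw [W.equation_iff]
    simp only [gX, WeierstrassCurve.b₂, WeierstrassCurve.b₄, WeierstrassCurve.b₆] at hu
    field_simp
    linear_combination hu
  have hns := (W.equation_iff_nonsingular_of_Δ_ne_zero hΔ).mp heq
  refine ⟨Point.some _ _ hns, Point.some_ne_zero hns, ?_⟩
  exact five_nsmul_of_psi5X ⟨_, hns, rfl⟩ hx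

lemma card_hasX_le (x : F) : (finite_hasX (W := W) x).toFinset.card ≤ 2 := by
  by_cases hex : ∃ P : W.Point, HasX W P x
  · obtain ⟨P₀, h₀⟩ := hex
    have hsub : (finite_hasX (W := W) x).toFinset ⊆ {P₀, -P₀} := by
      intro Q hQ
      rw [Set.Finite.mem_toFinset] at hQ
      have := eq_or_eq_neg_of_hasX h₀ hQ
      simpa using this
    exact (Finset.card_le_card hsub).trans Finset.card_le_two
  · have : (finite_hasX (W := W) x).toFinset = ∅ := by
      ext Q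
      simp only [Set.Finite.mem_toFinset, Set.mem_ofPred_eq, Finset.notMem_empty, iff_false]
      exact fun hQ => hex ⟨Q, hQ⟩
    rw [this]
    simp

lemma ncard_five_torsion_le [CharZero F] :
    {P : W.Point | 5 • P = 0}.Finite ∧ {P : W.Point | 5 • P = 0}.ncard ≤ 25 := by
  classical
  have h5 : ((5 : ℕ) : F) ≠ 0 := by norm_num
  have hp : W.preΨ' 5 ≠ 0 := W.preΨ'_ne_zero h5
  have hdeg : (W.preΨ' 5).natDegree = 12 := by
    rw [W.natDegree_preΨ' h5]
    decide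
  set R : Finset F := (W.preΨ' 5).roots.toFinset with hR
  have hRcard : R.card ≤ 12 := by
    calc R.card ≤ Multiset.card (W.preΨ' 5).roots := Multiset.toFinset_card_le _
      _ ≤ (W.preΨ' 5).natDegree := Polynomial.card_roots' _
      _ = 12 := hdeg
  set S : Finset W.Point := insert 0 (R.biUnion fun x => (finite_hasX (W := W) x).toFinset) with hS
  have hsub : {P : W.Point | 5 • P = 0} ⊆ (S : Set W.Point) := by
    intro P hP
    by_cases hP0 : P = 0
    · simp [hS, hP0]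
    · obtain ⟨x, hx⟩ := exists_hasX_of_ne_zero hP0
      have hroot : x ∈ R := by
        rw [hR, Multiset.mem_toFinset, Polynomial.mem_roots hp, IsRoot, eval_preΨ'_five]
        exact psi5X_of_five_nsmul hx hP
      rw [hS, Finset.coe_insert]
      right
      rw [Finset.mem_coe, Finset.mem_biUnion]
      exact ⟨x, hroot, by rw [Set.Finite.mem_toFinset]; exact hx⟩
  have hScard : S.card ≤ 25 := by
    have h1 : (R.biUnion fun x => (finite_hasX (W := W) x).toFinset).card ≤ R.card * 2 :=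
      Finset.card_biUnion_le_card_mul _ _ _ fun x _ => card_hasX_le W x
    have h2 := Finset.card_insert_le (0 : W.Point)
      (R.biUnion fun x => (finite_hasX (W := W) x).toFinset)
    rw [hS]
    omega
  refine ⟨(Finset.finite_toSet S).subset hsub, ?_⟩
  calc {P : W.Point | 5 • P = 0}.ncard ≤ (S : Set W.Point).ncard :=
        Set.ncard_le_ncard hsub (Finset.finite_toSet S)
    _ = S.card := Set.ncard_coe_finset S
    _ ≤ 25 := hScard

end AlgClosed

section Rel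

variable {F : Type*} [Field F] [CharZero F] {W : WeierstrassCurve.Affine F}

/-- the two relations of a `5`-structure, in terms of `s = x₁ + x₂` and `n = ((x₁ - x₂)/2)²`. -/
lemma rel_of_structure {x₁ x₂ : F} (hne : x₁ ≠ x₂) (h1 : phiX W x₁ = x₂ * gX W x₁)
    (h2 : phiX W x₂ = x₁ * gX W x₂) :
    (W.b₆ / 4 + W.b₄ * (x₁ + x₂) / 4 + W.b₂ * (x₁ + x₂) ^ 2 / 16 + (x₁ + x₂) ^ 3 / 8)
        = (W.b₂ / 4 + 3 * (x₁ + x₂) / 2) * ((x₁ - x₂) ^ 2 / 4) ∧
      (W.b₄ / 2 + W.b₂ * (x₁ + x₂) / 4 + 3 * (x₁ + x₂) ^ 2 / 4) ^ 2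
        + 2 * (W.b₄ / 2 + W.b₂ * (x₁ + x₂) / 4 + 3 * (x₁ + x₂) ^ 2 / 4) * ((x₁ - x₂) ^ 2 / 4)
        + 5 * ((x₁ - x₂) ^ 2 / 4) ^ 2
        = 4 * (W.b₂ / 4 + 3 * (x₁ + x₂) / 2) ^ 2 * ((x₁ - x₂) ^ 2 / 4) := by
  have hr : x₁ - x₂ ≠ 0 := sub_ne_zero.mpr hne
  unfold phiX gX at h1 h2
  have hd : (W.b₆ / 4 + W.b₄ * (x₁ + x₂) / 4 + W.b₂ * (x₁ + x₂) ^ 2 / 16 + (x₁ + x₂) ^ 3 / 8)
        = (W.b₂ / 4 + 3 * (x₁ + x₂) / 2) * ((x₁ - x₂) ^ 2 / 4) := by
    apply mul_left_cancel₀ hr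
    linear_combination (-1 / 4 : F) * h1 + (1 / 4 : F) * h2
  refine ⟨hd, ?_⟩
  have hrel := W.b_relation
  have hs2 : (W.b₄ / 2 + W.b₂ * (x₁ + x₂) / 4 + 3 * (x₁ + x₂) ^ 2 / 4) ^ 2
        + 2 * (W.b₄ / 2 + W.b₂ * (x₁ + x₂) / 4 + 3 * (x₁ + x₂) ^ 2 / 4) * ((x₁ - x₂) ^ 2 / 4)
        + 5 * ((x₁ - x₂) ^ 2 / 4) ^ 2
        = 4 * (W.b₂ / 4 + 3 * (x₁ + x₂) / 2)
          * (W.b₆ / 4 + W.b₄ * (x₁ + x₂) / 4 + W.b₂ * (x₁ + x₂) ^ 2 / 16 + (x₁ + x₂) ^ 3 / 8) := by
    linear_combination (1 / 2 : F) * h1 + (1 / 2 : F) * h2 + (1 / 4 : F) * hrel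
  rw [hs2, hd]
  ring

end Rel

section Galois

open scoped WeierstrassCurve.Affine

local notation "Qbar" => AlgebraicClosure ℚ

variable (E : WeierstrassCurve ℚ)

lemma hasX_smul {P : (E⁄Qbar).Point} {x : Qbar} (σ : Qbar ≃ₐ[ℚ] Qbar)
    (h : HasX (E⁄Qbar) P x) : HasX (E⁄Qbar) (σ • P) (σ x) := by
  obtain ⟨y, hy, rfl⟩ := h
  rw [Point.algEquiv_smul_def, Point.map_some]
  exact ⟨_, _, rfl⟩

lemma baseChange_Δ_ne_zero (hΔ : E.Δ ≠ 0) : (E⁄Qbar).Δ ≠ 0 := by
  have : (E⁄Qbar).Δ = algebraMap ℚ Qbar E.Δ := E.map_Δ _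
  rw [this]
  exact (_root_.map_ne_zero _).mpr hΔ

theorem five_nontrivial (hΔ : E.Δ ≠ 0) :
    Nontrivial (Submodule.torsionBy ℤ (E⁄Qbar).Point ((5 : ℕ) : ℤ)) := by
  obtain ⟨P, hP0, hP5⟩ := exists_five_torsion (E⁄Qbar) (baseChange_Δ_ne_zero E hΔ)
  refine ⟨⟨⟨P, ?_⟩, 0, ?_⟩⟩
  · rw [Submodule.mem_torsionBy_iff, natCast_zsmul]
    exact hP5
  · intro h
    exact hP0 (congrArg Subtype.val h)

lemma isGalois_rat_algClosure : IsGalois ℚ Qbar := by
  have h : @IsGalois ℚ _ Qbar _ (AlgebraicClosure.instAlgebra ℚ) := inferInstance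
  have e : (AlgebraicClosure.instAlgebra ℚ : Algebra ℚ (AlgebraicClosure ℚ)) =
      DivisionRing.toRatAlgebra := Subsingleton.elim _ _
  rw [e] at h
  exact h

lemma mem_range_of_fixed (x : Qbar) (h : ∀ σ : Qbar ≃ₐ[ℚ] Qbar, σ x = x) :
    ∃ q : ℚ, x = algebraMap ℚ Qbar q := by
  have := isGalois_rat_algClosure
  obtain ⟨q, hq⟩ := (InfiniteGalois.mem_range_algebraMap_iff_fixed (k := ℚ) (K := Qbar) x).mpr h
  exact ⟨q, hq.symm⟩

instance : Fact (Nat.Prime 5) := ⟨by norm_num⟩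

/-- the `ZMod 5`-scalar action on the `5`-torsion is the natural-number action -/
lemma zmod_smul_coe (c : ZMod 5)
    (w : Submodule.torsionBy ℤ (E⁄Qbar).Point ((5 : ℕ) : ℤ)) :
    ((c • w : Submodule.torsionBy ℤ (E⁄Qbar).Point ((5 : ℕ) : ℤ)) : (E⁄Qbar).Point)
      = c.val • (w : (E⁄Qbar).Point) := by
  have h1 : c • w = (c.val : ZMod 5) • w := by rw [ZMod.natCast_zmod_val]
  rw [h1, Nat.cast_smul_eq_nsmul]
  rfl

theorem five_structure (hΔ : E.Δ ≠ 0)
    (h : ¬ Point.GaloisRepIsIrreducible (K := Qbar) ℚ E 5) :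
    ∃ (x₁ x₂ : Qbar) (e₁ e₂ : ℚ), x₁ ≠ x₂ ∧ x₁ + x₂ = algebraMap ℚ Qbar e₁ ∧
      x₁ * x₂ = algebraMap ℚ Qbar e₂ ∧ gX (E⁄Qbar) x₁ ≠ 0 ∧ gX (E⁄Qbar) x₂ ≠ 0 ∧
      phiX (E⁄Qbar) x₁ = x₂ * gX (E⁄Qbar) x₁ ∧ phiX (E⁄Qbar) x₂ = x₁ * gX (E⁄Qbar) x₂ := by
  unfold Point.GaloisRepIsIrreducible at h
  rw [not_and_or] at h
  rcases h with h | h
  · exact absurd (five_nontrivial E hΔ) h
  push Not at h
  obtain ⟨N, hstab, hbot, htop⟩ := h
  have hfin : Finite (Submodule.torsionBy ℤ (E⁄Qbar).Point ((5 : ℕ) : ℤ)) :=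
    finite_torsionBy_of_odd (E⁄Qbar) (n := 5) (by decide)
  have hcard : Nat.card (Submodule.torsionBy ℤ (E⁄Qbar).Point ((5 : ℕ) : ℤ)) ≤ 25 := by
    obtain ⟨hf, hc⟩ := ncard_five_torsion_le (E⁄Qbar)
    have hset : ((Submodule.torsionBy ℤ (E⁄Qbar).Point ((5 : ℕ) : ℤ) :
        Submodule ℤ (E⁄Qbar).Point) : Set (E⁄Qbar).Point) = {P | 5 • P = 0} := by
      ext P
      simp only [SetLike.mem_coe, Submodule.mem_torsionBy_iff, natCast_zsmul, Set.mem_ofPred_eq]
    rw [← Nat.card_coe_set_eq] at hc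
    rw [← hset] at hc
    exact hc
  have hfr : Module.finrank (ZMod 5) (Submodule.torsionBy ℤ (E⁄Qbar).Point ((5 : ℕ) : ℤ)) ≤ 2 := by
    have hpow := Module.natCard_eq_pow_finrank (K := ZMod 5)
      (V := Submodule.torsionBy ℤ (E⁄Qbar).Point ((5 : ℕ) : ℤ))
    rw [Nat.card_zmod] at hpow
    by_contra hlt
    push Not at hlt
    have h3 : 5 ^ 3 ≤ 5 ^ Module.finrank (ZMod 5)
        (Submodule.torsionBy ℤ (E⁄Qbar).Point ((5 : ℕ) : ℤ)) :=
      Nat.pow_le_pow_right (by norm_num) hlt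
    omega
  have hN1 : Module.finrank (ZMod 5) N = 1 := by
    have h1 : Module.finrank (ZMod 5) N <
        Module.finrank (ZMod 5) (Submodule.torsionBy ℤ (E⁄Qbar).Point ((5 : ℕ) : ℤ)) :=
      Submodule.finrank_lt htop
    have h2 : 0 < Module.finrank (ZMod 5) N := by
      rw [Nat.pos_iff_ne_zero]
      intro h0
      exact hbot (Submodule.finrank_eq_zero.mp h0)
    omega
  obtain ⟨v, hv0, hv⟩ := finrank_eq_one_iff'.mp hN1
  -- the point
  set P : (E⁄Qbar).Point := ((v : Submodule.torsionBy ℤ (E⁄Qbar).Point ((5 : ℕ) : ℤ)) :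
    (E⁄Qbar).Point) with hPdef
  have hP5 : 5 • P = 0 := by
    have := (v : Submodule.torsionBy ℤ (E⁄Qbar).Point ((5 : ℕ) : ℤ)).2
    rw [Submodule.mem_torsionBy_iff, natCast_zsmul] at this
    exact this
  have hP0 : P ≠ 0 := by
    intro hP
    apply hv0
    apply Subtype.ext
    apply Subtype.ext
    exact hP
  obtain ⟨x₁, hx₁⟩ := exists_hasX_of_ne_zero hP0
  obtain ⟨hg1, hQ, hg2, hrel, hne⟩ := five_point_structure hx₁ hP5
  set x₂ : Qbar := phiX (E⁄Qbar) x₁ / gX (E⁄Qbar) x₁ with hx₂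
  have hQQ : (P + P) + (P + P) = -P := by
    have := hP5
    rw [five_nsmul_eq] at this
    exact eq_neg_of_add_eq_zero_left this
  -- Galois action on the pair
  have key : ∀ σ : Qbar ≃ₐ[ℚ] Qbar, (σ x₁ = x₁ ∧ σ x₂ = x₂) ∨ (σ x₁ = x₂ ∧ σ x₂ = x₁) := by
    intro σ
    have hmem := hstab σ (v : Submodule.torsionBy ℤ (E⁄Qbar).Point ((5 : ℕ) : ℤ)) v.2
    obtain ⟨c, hc⟩ := hv ⟨_, hmem⟩
    have hc' : c.val • P = σ • P := by
      have := congrArg (fun w : N => ((w : Submodule.torsionBy ℤ (E⁄Qbar).Point ((5 : ℕ) : ℤ)) :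
        (E⁄Qbar).Point)) hc
      simp only [Submodule.coe_smul] at this
      rw [zmod_smul_coe] at this
      exact this
    have hσP : HasX (E⁄Qbar) (σ • P) (σ x₁) := hasX_smul E σ hx₁
    have hσQ : HasX (E⁄Qbar) (σ • P + σ • P) (σ x₂) := by
      have := hasX_smul E σ hQ
      have e : σ • (P + P) = σ • P + σ • P := smul_add σ P P
      rwa [e] at this
    have hcases : c.val = 0 ∨ c.val = 1 ∨ c.val = 2 ∨ c.val = 3 ∨ c.val = 4 := by
      have := ZMod.val_lt c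
      omega
    rcases hcases with h0 | h1 | h2 | h3 | h4
    · exfalso
      rw [h0, zero_nsmul] at hc'
      exact hP0 ((smul_eq_zero_iff_eq σ).mp hc'.symm)
    · rw [h1, one_nsmul] at hc'
      rw [← hc'] at hσP hσQ
      exact Or.inl ⟨HasX.unique hσP hx₁, HasX.unique hσQ hQ⟩
    · rw [h2, two_nsmul] at hc'
      rw [← hc'] at hσP hσQ
      rw [hQQ] at hσQ
      exact Or.inr ⟨HasX.unique hσP hQ, HasX.unique hσQ (hasX_neg hx₁)⟩
    · have e3 : 3 • P = -(P + P) := by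
        have : 3 • P + (P + P) = 0 := by
          rw [← hP5, show (5 : ℕ) = 3 + 2 from rfl, add_nsmul, two_nsmul]
        exact eq_neg_of_add_eq_zero_left this
      rw [h3, e3] at hc'
      rw [← hc'] at hσP hσQ
      have e6 : -(P + P) + -(P + P) = P := by
        rw [← neg_add, hQQ, neg_neg]
      rw [e6] at hσQ
      exact Or.inr ⟨HasX.unique hσP (hasX_neg hQ), HasX.unique hσQ hx₁⟩
    · have e4 : 4 • P = -P := by
        rw [← hQQ, show (4 : ℕ) = 2 + 2 from rfl, add_nsmul, two_nsmul]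
      rw [h4, e4] at hc'
      rw [← hc'] at hσP hσQ
      have e8 : -P + -P = -(P + P) := by rw [neg_add]
      rw [e8] at hσQ
      exact Or.inl ⟨HasX.unique hσP (hasX_neg hx₁), HasX.unique hσQ (hasX_neg hQ)⟩
  obtain ⟨e₁, he₁⟩ := mem_range_of_fixed (x₁ + x₂) (by
    intro σ
    rcases key σ with ⟨h1, h2⟩ | ⟨h1, h2⟩
    · rw [map_add, h1, h2]
    · rw [map_add, h1, h2, add_comm])
  obtain ⟨e₂, he₂⟩ := mem_range_of_fixed (x₁ * x₂) (by
    intro σ
    rcases key σ with ⟨h1, h2⟩ | ⟨h1, h2⟩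
    · rw [map_mul, h1, h2]
    · rw [map_mul, h1, h2, mul_comm])
  refine ⟨x₁, x₂, e₁, e₂, hne, he₁, he₂, hg1, hg2, ?_, hrel⟩
  rw [hx₂, div_mul_cancel₀ _ hg1]

/-- rational form of the `5`-structure: with `a₂ = b₂/4 + 3s/2`, `a₄ = b₄/2 + b₂s/4 + 3s²/4`,
`a₆ = b₆/4 + b₄s/4 + b₂s²/16 + s³/8` (the curve `y² = x³ + a₂x² + a₄x + a₆` after the shift
`x ↦ x + s/2`) one has `a₆ = a₂ n` and `a₄² + 2a₄n + 5n² = 4a₂²n` with `n ≠ 0`. -/
theorem five_rational (hΔ : E.Δ ≠ 0)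
    (h : ¬ Point.GaloisRepIsIrreducible (K := Qbar) ℚ E 5) :
    ∃ s n : ℚ, n ≠ 0 ∧
      (E.b₆ / 4 + E.b₄ * s / 4 + E.b₂ * s ^ 2 / 16 + s ^ 3 / 8) = (E.b₂ / 4 + 3 * s / 2) * n ∧
      (E.b₄ / 2 + E.b₂ * s / 4 + 3 * s ^ 2 / 4) ^ 2
        + 2 * (E.b₄ / 2 + E.b₂ * s / 4 + 3 * s ^ 2 / 4) * n + 5 * n ^ 2
        = 4 * (E.b₂ / 4 + 3 * s / 2) ^ 2 * n := by
  obtain ⟨x₁, x₂, e₁, e₂, hne, he₁, he₂, -, -, h1, h2⟩ := five_structure E hΔ h
  obtain ⟨hd, hs⟩ := rel_of_structure hne h1 h2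
  have hb2 : (E⁄Qbar).b₂ = algebraMap ℚ Qbar E.b₂ := E.map_b₂ _
  have hb4 : (E⁄Qbar).b₄ = algebraMap ℚ Qbar E.b₄ := E.map_b₄ _
  have hb6 : (E⁄Qbar).b₆ = algebraMap ℚ Qbar E.b₆ := E.map_b₆ _
  have hn : (x₁ - x₂) ^ 2 / 4 = algebraMap ℚ Qbar ((e₁ ^ 2 - 4 * e₂) / 4) := by
    rw [map_div₀, map_sub, map_pow, map_mul, ← he₁, ← he₂, map_ofNat]
    ring
  rw [hb2, hb4, hb6, he₁, hn] at hd
  rw [hb2, hb4, he₁, hn] at hs
  have hinj := (algebraMap ℚ Qbar).injective
  refine ⟨e₁, (e₁ ^ 2 - 4 * e₂) / 4, ?_, ?_, ?_⟩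
  · intro h0
    rw [h0, map_zero] at hn
    have : (x₁ - x₂) ^ 2 = 0 := by
      rcases div_eq_zero_iff.mp hn with h' | h'
      · exact h'
      · norm_num at h'
    exact hne (sub_eq_zero.mp (pow_eq_zero_iff (by norm_num) |>.mp this))
  · apply hinj
    simp only [map_add, map_sub, map_mul, map_div₀, map_pow, map_ofNat] at hd ⊢
    exact hd
  · apply hinj
    simp only [map_add, map_sub, map_mul, map_div₀, map_pow, map_ofNat] at hs ⊢
    exact hs

/-- the `5`-side in exactly the shape consumed by `Assembly.s51_of_parts`. -/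
theorem fiveShape : Assembly.FiveShape := by
  intro E hΔ h
  obtain ⟨x₁, x₂, e₁, e₂, hne, he₁, he₂, hg1, hg2, h1, h2⟩ := five_structure E hΔ h
  have hb2 : (E⁄Qbar).b₂ = (E.b₂ : Qbar) := by
    rw [show (E⁄Qbar).b₂ = algebraMap ℚ Qbar E.b₂ from E.map_b₂ _, eq_ratCast]
  have hb4 : (E⁄Qbar).b₄ = (E.b₄ : Qbar) := by
    rw [show (E⁄Qbar).b₄ = algebraMap ℚ Qbar E.b₄ from E.map_b₄ _, eq_ratCast]
  have hb6 : (E⁄Qbar).b₆ = (E.b₆ : Qbar) := by
    rw [show (E⁄Qbar).b₆ = algebraMap ℚ Qbar E.b₆ from E.map_b₆ _, eq_ratCast]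
  have hb8 : (E⁄Qbar).b₈ = (E.b₈ : Qbar) := by
    rw [show (E⁄Qbar).b₈ = algebraMap ℚ Qbar E.b₈ from E.map_b₈ _, eq_ratCast]
  rw [eq_ratCast] at he₁ he₂
  unfold gX at hg1 hg2 h1 h2
  unfold phiX at h1 h2
  rw [hb2, hb4, hb6] at hg1 hg2
  rw [hb2, hb4, hb6, hb8] at h1 h2
  exact ⟨x₁, x₂, e₁, e₂, hne, he₁, he₂, hg1, hg2, h1, h2⟩

end Galois

end Fermat.Agent.S51.Five
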