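import Mathlib

set_option autoImplicit false

namespace Fermat.Agent.S51.Descent

/-- Solutions of the concordant-form system `A² = B² + D² = C² + 81 D²`. -/
def Sol (A B C D : ℤ) : Prop := A ^ 2 = B ^ 2 + D ^ 2 ∧ A ^ 2 = C ^ 2 + 81 * D ^ 2

lemma aux8 : ∀ a b d : ZMod 8, a ^ 2 = b ^ 2 + d ^ 2 → 4 * d ≠ 0 → 2 * b = 0 := by decide

lemma aux8' : ∀ a c d : ZMod 8, a ^ 2 = c ^ 2 + 81 * d ^ 2 → 4 * d ≠ 0 → 2 * c = 0 := by decide

lemma aux3 : ∀ a b d : ZMod 3, a ^ 2 = b ^ 2 + d ^ 2 → a = 0 → d = 0 := by decide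

lemma four_dvd_of_sq (A B D : ℤ) (h : A ^ 2 = B ^ 2 + D ^ 2) (hD : ¬ (2 : ℤ) ∣ D) : (4 : ℤ) ∣ B := by
  have hcast : ((A : ZMod 8)) ^ 2 = (B : ZMod 8) ^ 2 + (D : ZMod 8) ^ 2 := by
    have := congrArg (Int.cast : ℤ → ZMod 8) h
    push_cast at this; exact this
  have hd : (4 : ZMod 8) * (D : ZMod 8) ≠ 0 := by
    intro h0
    have h' : ((4 * D : ℤ) : ZMod 8) = 0 := by push_cast; exact h0
    rw [ZMod.intCast_zmod_eq_zero_iff_dvd] at h'
    apply hD
    have h'' : (8 : ℤ) ∣ 4 * D := by exact_mod_cast h'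
    omega
  have hb := aux8 _ _ _ hcast hd
  have hb' : ((2 * B : ℤ) : ZMod 8) = 0 := by push_cast; exact hb
  rw [ZMod.intCast_zmod_eq_zero_iff_dvd] at hb'
  have hb'' : (8 : ℤ) ∣ 2 * B := by exact_mod_cast hb'
  omega

lemma four_dvd_of_sq' (A C D : ℤ) (h : A ^ 2 = C ^ 2 + 81 * D ^ 2) (hD : ¬ (2 : ℤ) ∣ D) :
    (4 : ℤ) ∣ C := by
  have hcast : ((A : ZMod 8)) ^ 2 = (C : ZMod 8) ^ 2 + 81 * (D : ZMod 8) ^ 2 := by
    have := congrArg (Int.cast : ℤ → ZMod 8) h
    push_cast at this; exact this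
  have hd : (4 : ZMod 8) * (D : ZMod 8) ≠ 0 := by
    intro h0
    have h' : ((4 * D : ℤ) : ZMod 8) = 0 := by push_cast; exact h0
    rw [ZMod.intCast_zmod_eq_zero_iff_dvd] at h'
    apply hD
    have h'' : (8 : ℤ) ∣ 4 * D := by exact_mod_cast h'
    omega
  have hb := aux8' _ _ _ hcast hd
  have hb' : ((2 * C : ℤ) : ZMod 8) = 0 := by push_cast; exact hb
  rw [ZMod.intCast_zmod_eq_zero_iff_dvd] at hb'
  have hb'' : (8 : ℤ) ∣ 2 * C := by exact_mod_cast hb'
  omega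

lemma not_three_dvd (A B D : ℤ) (h : A ^ 2 = B ^ 2 + D ^ 2) (hc : IsCoprime A D) :
    ¬ (3 : ℤ) ∣ A := by
  intro h3
  have hcast : ((A : ZMod 3)) ^ 2 = (B : ZMod 3) ^ 2 + (D : ZMod 3) ^ 2 := by
    have := congrArg (Int.cast : ℤ → ZMod 3) h
    push_cast at this; exact this
  have ha : (A : ZMod 3) = 0 := by
    rw [ZMod.intCast_zmod_eq_zero_iff_dvd]; exact_mod_cast h3
  have hd := aux3 _ _ _ hcast ha
  rw [ZMod.intCast_zmod_eq_zero_iff_dvd] at hd
  have hd' : (3 : ℤ) ∣ D := by exact_mod_cast hd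
  have hu := hc.isUnit_of_dvd' h3 hd'
  rw [Int.isUnit_iff] at hu
  omega


lemma coprime_facts {A B C D : ℤ} (hS : Sol A B C D) (hc : IsCoprime A D) :
    IsCoprime A B ∧ IsCoprime A C ∧ IsCoprime B D := by
  obtain ⟨h1, h2⟩ := hS
  have hAB : IsCoprime A B := by
    have h := ((hc.pow_right (n := 2)).neg_right).add_mul_left_right A
    have e : -D ^ 2 + A * A = B ^ 2 := by linear_combination h1
    rw [e] at h
    exact (IsCoprime.pow_right_iff (by norm_num)).1 h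
  have hBD : IsCoprime B D := by
    have h := ((hc.symm.pow_right (n := 2))).add_mul_left_right (-D)
    have e : A ^ 2 + D * (-D) = B ^ 2 := by linear_combination h1
    rw [e] at h
    exact ((IsCoprime.pow_right_iff (by norm_num)).1 h).symm
  have h3 : IsCoprime A 3 :=
    ((Int.prime_three).coprime_iff_not_dvd.2 (not_three_dvd A B D h1 hc)).symm
  have hAC : IsCoprime A C := by
    have h81 : IsCoprime A (81 * D ^ 2) := by
      have h4 : IsCoprime A ((3 : ℤ) ^ 4) := h3.pow_right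
      have h' := h4.mul_right (hc.pow_right (n := 2))
      norm_num at h' ⊢; exact h'
    have h := h81.neg_right.add_mul_left_right A
    have e : -(81 * D ^ 2) + A * A = C ^ 2 := by linear_combination h2
    rw [e] at h
    exact (IsCoprime.pow_right_iff (by norm_num)).1 h
  exact ⟨hAB, hAC, hBD⟩

lemma add_pos_of_sq {x y n : ℤ} (h : x ^ 2 = y ^ 2 + n ^ 2) (hx : 0 < x) (hn : n ≠ 0) :
    0 < x + y := by
  have hn2 : 0 < n ^ 2 := by positivity
  have hlt : y ^ 2 < x ^ 2 := by linarith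
  have := abs_lt_of_sq_lt_sq hlt hx.le
  have := abs_lt.1 this
  linarith [this.1]

lemma add_eq_sq_of_odd {x y n : ℤ} (hc : IsCoprime x y) (h : x ^ 2 = y ^ 2 + n ^ 2) (hx : 0 < x)
    (hn : n ≠ 0) (hodd : ¬ (2 : ℤ) ∣ n) : ∃ k : ℤ, x + y = k ^ 2 := by
  have hprod : (x + y) * (x - y) = n ^ 2 := by linear_combination h
  have hodd' : ¬ (2 : ℤ) ∣ (x + y) := by
    intro h2
    apply hodd
    have : (2 : ℤ) ∣ n ^ 2 := by rw [← hprod]; exact Dvd.dvd.mul_right h2 _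
    exact Int.prime_two.dvd_of_dvd_pow this
  have hcop : IsCoprime (x + y) (x - y) := by
    obtain ⟨u, v, huv⟩ := hc
    obtain ⟨k, hk⟩ : ∃ k, x + y = 2 * k + 1 := ⟨(x + y) / 2, by omega⟩
    refine ⟨1 - k * (u + v), -(k * (u - v)), ?_⟩
    linear_combination hk - 2 * k * huv
  have hpos := add_pos_of_sq h hx hn
  obtain ⟨k, hk | hk⟩ := Int.sq_of_isCoprime hcop hprod
  · exact ⟨k, hk⟩
  · exfalso
    have : 0 ≤ k ^ 2 := sq_nonneg k
    linarith

lemma add_eq_two_sq_of_even {x y n : ℤ} (hc : IsCoprime x y) (h : x ^ 2 = y ^ 2 + n ^ 2)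
    (hx : 0 < x) (hn : n ≠ 0) (heven : (2 : ℤ) ∣ n) : ∃ k : ℤ, x + y = 2 * k ^ 2 := by
  have hpos := add_pos_of_sq h hx hn
  obtain ⟨m, rfl⟩ := heven
  have hprod : (x + y) * (x - y) = (2 * m) ^ 2 := by linear_combination h
  have h2 : (2 : ℤ) ∣ (x + y) := by
    have h2' : (2 : ℤ) ∣ (x + y) * (x - y) := by rw [hprod]; exact Dvd.intro (2 * m ^ 2) (by ring)
    rcases Int.prime_two.dvd_or_dvd h2' with h' | h'
    · exact h'
    · omega
  obtain ⟨s, hs⟩ := h2
  obtain ⟨t, ht⟩ : (2 : ℤ) ∣ (x - y) := by omega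
  have hst : s * t = m ^ 2 := by
    have h4 : 4 * (s * t) = 4 * m ^ 2 := by rw [hs, ht] at hprod; linear_combination hprod
    linarith
  have hcop : IsCoprime s t := by
    obtain ⟨u, v, huv⟩ := hc
    refine ⟨u + v, u - v, ?_⟩
    have hx' : x = s + t := by omega
    have hy' : y = s - t := by omega
    rw [hx', hy'] at huv
    linear_combination huv
  obtain ⟨k, hk | hk⟩ := Int.sq_of_isCoprime hcop hst
  · exact ⟨k, by rw [hs, hk]⟩
  · exfalso
    have : 0 ≤ k ^ 2 := sq_nonneg k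
    linarith

lemma sq_or_of_mul_eq_five {a b n : ℤ} (hc : IsCoprime a b) (h : a * b = 5 * n ^ 2) :
    ∃ k : ℤ, a = k ^ 2 ∨ a = -k ^ 2 ∨ b = k ^ 2 ∨ b = -k ^ 2 := by
  have h5 : Prime (5 : ℤ) := Int.prime_iff_natAbs_prime.mpr (by norm_num)
  have hdvd : (5 : ℤ) ∣ a * b := ⟨n ^ 2, h⟩
  rcases h5.dvd_or_dvd hdvd with ⟨a', rfl⟩ | ⟨b', rfl⟩
  · have hc' : IsCoprime b a' := (hc.of_mul_left_right).symm
    have h' : b * a' = n ^ 2 := by
      have : 5 * (b * a') = 5 * n ^ 2 := by linear_combination h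
      linarith
    obtain ⟨k, hk⟩ := Int.sq_of_isCoprime hc' h'
    exact ⟨k, Or.inr (Or.inr hk)⟩
  · have hc' : IsCoprime a b' := hc.of_mul_right_right
    have h' : a * b' = n ^ 2 := by
      have : 5 * (a * b') = 5 * n ^ 2 := by linear_combination h
      linarith
    obtain ⟨k, hk⟩ := Int.sq_of_isCoprime hc' h'
    rcases hk with hk | hk
    · exact ⟨k, Or.inl hk⟩
    · exact ⟨k, Or.inr (Or.inl hk)⟩

lemma exists_signs_odd {A B C D : ℤ} (hS : Sol A B C D) (hc : IsCoprime A D)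
    (hD : ¬ (2 : ℤ) ∣ D) :
    ∃ B' C' r : ℤ, B' ^ 2 = B ^ 2 ∧ C' ^ 2 = C ^ 2 ∧ B' + C' = r ^ 2 := by
  obtain ⟨hAB, hAC, hBD⟩ := coprime_facts hS hc
  obtain ⟨h1, h2⟩ := hS
  obtain ⟨b, rfl⟩ := four_dvd_of_sq A B D h1 hD
  obtain ⟨c, rfl⟩ := four_dvd_of_sq' A C D h2 hD
  have hprod : (b + c) * (b - c) = 5 * D ^ 2 := by
    have : 16 * ((b + c) * (b - c)) = 16 * (5 * D ^ 2) := by linear_combination h2 - h1
    linarith
  have hodd : ¬ (2 : ℤ) ∣ (b + c) := by
    intro h'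
    apply hD
    have h10 : (2 : ℤ) ∣ 5 * D ^ 2 := by rw [← hprod]; exact Dvd.dvd.mul_right h' _
    rcases Int.prime_two.dvd_or_dvd h10 with h5 | hd
    · omega
    · exact Int.prime_two.dvd_of_dvd_pow hd
  have hcop : IsCoprime (b + c) (b - c) := by
    have key : ∀ g : ℕ, (g : ℤ) ∣ b + c → (g : ℤ) ∣ b - c → g = 1 := by
      intro g hg1 hg2
      have hgodd : IsCoprime (g : ℤ) 2 :=
        ((Int.prime_two.coprime_iff_not_dvd.2 hodd).of_isCoprime_of_dvd_right hg1).symm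
      have hgb : (g : ℤ) ∣ b := by
        have h2b : (g : ℤ) ∣ b * 2 := by
          have := dvd_add hg1 hg2
          have e : b + c + (b - c) = b * 2 := by ring
          rwa [e] at this
        exact hgodd.dvd_of_dvd_mul_right h2b
      have hgD : IsCoprime (g : ℤ) D :=
        hBD.of_isCoprime_of_dvd_left (Dvd.dvd.mul_left hgb 4)
      have hg5 : (g : ℤ) ^ 2 ∣ 5 := by
        have h' : (g : ℤ) ^ 2 ∣ 5 * D ^ 2 := by
          rw [← hprod, sq]; exact mul_dvd_mul hg1 hg2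
        exact (hgD.pow (m := 2) (n := 2)).dvd_of_dvd_mul_right h'
      have hle : (g : ℤ) ^ 2 ≤ 5 := Int.le_of_dvd (by norm_num) hg5
      have hg_lt : g < 3 := by
        by_contra hge
        have hge' : 3 ≤ g := Nat.le_of_not_lt hge
        have : (3 : ℤ) ≤ g := by exact_mod_cast hge'
        nlinarith
      interval_cases g
      · norm_num at hg5
      · rfl
      · norm_num at hg5
    rw [Int.isCoprime_iff_gcd_eq_one]
    exact key _ (Int.gcd_dvd_left _ _) (Int.gcd_dvd_right _ _)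
  obtain ⟨k, hk⟩ := sq_or_of_mul_eq_five hcop hprod
  rcases hk with hk | hk | hk | hk
  · exact ⟨4 * b, 4 * c, 2 * k, rfl, rfl, by linear_combination 4 * hk⟩
  · exact ⟨-(4 * b), -(4 * c), 2 * k, by ring, by ring, by linear_combination (-4) * hk⟩
  · exact ⟨4 * b, -(4 * c), 2 * k, rfl, by ring, by linear_combination 4 * hk⟩
  · exact ⟨-(4 * b), 4 * c, 2 * k, by ring, rfl, by linear_combination (-4) * hk⟩

lemma exists_signs_even {A B C D : ℤ} (hS : Sol A B C D) (hc : IsCoprime A D)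
    (hD : (2 : ℤ) ∣ D) :
    ∃ B' C' r : ℤ, B' ^ 2 = B ^ 2 ∧ C' ^ 2 = C ^ 2 ∧ B' + C' = 2 * r ^ 2 := by
  obtain ⟨hAB, hAC, hBD⟩ := coprime_facts hS hc
  obtain ⟨h1, h2⟩ := hS
  have hBodd : ¬ (2 : ℤ) ∣ B := fun h => by
    have := hBD.isUnit_of_dvd' h hD
    rw [Int.isUnit_iff] at this; omega
  have hAodd : ¬ (2 : ℤ) ∣ A := fun h => by
    have := hc.isUnit_of_dvd' h hD
    rw [Int.isUnit_iff] at this; omega
  have hCodd : ¬ (2 : ℤ) ∣ C := by
    intro h
    apply hAodd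
    have : (2 : ℤ) ∣ A ^ 2 := by
      rw [h2]
      exact dvd_add (Dvd.dvd.pow h two_ne_zero)
        (Dvd.dvd.mul_left (Dvd.dvd.pow hD two_ne_zero) 81)
    exact Int.prime_two.dvd_of_dvd_pow this
  obtain ⟨s, hs⟩ : (2 : ℤ) ∣ B + C := by omega
  obtain ⟨t, ht⟩ : (2 : ℤ) ∣ B - C := by omega
  have hB : B = s + t := by omega
  have hC : C = s - t := by omega
  subst hB hC
  have hprod : s * t = 5 * (2 * D) ^ 2 := by
    have : 4 * (s * t) = 4 * (5 * (2 * D) ^ 2) := by linear_combination h2 - h1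
    linarith
  have hcop : IsCoprime s t := by
    have key : ∀ g : ℕ, (g : ℤ) ∣ s → (g : ℤ) ∣ t → g = 1 := by
      intro g hg1 hg2
      have hgB : (g : ℤ) ∣ s + t := dvd_add hg1 hg2
      have hgD : IsCoprime (g : ℤ) D := hBD.of_isCoprime_of_dvd_left hgB
      have hg20 : (g : ℤ) ^ 2 ∣ 20 := by
        have h' : (g : ℤ) ^ 2 ∣ 20 * D ^ 2 := by
          have e : s * t = 20 * D ^ 2 := by rw [hprod]; ring
          rw [← e, sq]; exact mul_dvd_mul hg1 hg2
        exact (hgD.pow (m := 2) (n := 2)).dvd_of_dvd_mul_right h'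
      have hle : (g : ℤ) ^ 2 ≤ 20 := Int.le_of_dvd (by norm_num) hg20
      have hg_lt : g < 5 := by
        by_contra hge
        have hge' : 5 ≤ g := Nat.le_of_not_lt hge
        have : (5 : ℤ) ≤ g := by exact_mod_cast hge'
        nlinarith
      interval_cases g
      · norm_num at hg20
      · rfl
      · exfalso; apply hBodd; simpa using hgB
      · norm_num at hg20
      · norm_num at hg20
    rw [Int.isCoprime_iff_gcd_eq_one]
    exact key _ (Int.gcd_dvd_left _ _) (Int.gcd_dvd_right _ _)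
  obtain ⟨k, hk⟩ := sq_or_of_mul_eq_five hcop hprod
  rcases hk with hk | hk | hk | hk
  · exact ⟨s + t, s - t, k, rfl, rfl, by linear_combination 2 * hk⟩
  · exact ⟨-(s + t), -(s - t), k, by ring, by ring, by linear_combination (-2) * hk⟩
  · exact ⟨s + t, -(s - t), k, rfl, by ring, by linear_combination 2 * hk⟩
  · exact ⟨-(s + t), s - t, k, by ring, rfl, by linear_combination (-2) * hk⟩

lemma step {A B C D c p q r : ℤ} (h1 : A ^ 2 = B ^ 2 + D ^ 2) (h2 : A ^ 2 = C ^ 2 + 81 * D ^ 2)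
    (hp : A + B = c * p ^ 2) (hq : A + C = c * q ^ 2) (hr : B + C = c * r ^ 2) :
    Sol (c * p * q) (c * p * r) (c * q * r) D := by
  constructor
  · linear_combination h1 - (A + B) * (hq - hr) - (c * q ^ 2 - c * r ^ 2) * hp
  · linear_combination h2 - (A + C) * (hp - hr) - (c * p ^ 2 - c * r ^ 2) * hq


lemma key {A B C D : ℤ} (hS : Sol A B C D) (hc : IsCoprime A D) (hA : 0 < A) (hD : D ≠ 0) :
    ∃ A₁ B₁ C₁ : ℤ, Sol A₁ B₁ C₁ D ∧ ¬ IsCoprime A₁ D := by
  by_cases hpar : (2 : ℤ) ∣ D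
  · obtain ⟨B', C', r, hB', hC', hr⟩ := exists_signs_even hS hc hpar
    have h1 : A ^ 2 = B' ^ 2 + D ^ 2 := by rw [hB']; exact hS.1
    have h2 : A ^ 2 = C' ^ 2 + 81 * D ^ 2 := by rw [hC']; exact hS.2
    obtain ⟨hAB', hAC', -⟩ := coprime_facts (⟨h1, h2⟩ : Sol A B' C' D) hc
    obtain ⟨p, hp⟩ := add_eq_two_sq_of_even hAB' h1 hA hD hpar
    have h2' : A ^ 2 = C' ^ 2 + (9 * D) ^ 2 := by rw [h2]; ring
    obtain ⟨q, hq⟩ := add_eq_two_sq_of_even hAC' h2' hA (mul_ne_zero (by norm_num) hD)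
      (Dvd.dvd.mul_left hpar 9)
    refine ⟨2 * p * q, 2 * p * r, 2 * q * r, step h1 h2 hp hq hr, ?_⟩
    intro hcop
    have hu := hcop.isUnit_of_dvd' (Dvd.intro (p * q) (by ring)) hpar
    rw [Int.isUnit_iff] at hu
    omega
  · obtain ⟨B', C', r, hB', hC', hr⟩ := exists_signs_odd hS hc hpar
    have h1 : A ^ 2 = B' ^ 2 + D ^ 2 := by rw [hB']; exact hS.1
    have h2 : A ^ 2 = C' ^ 2 + 81 * D ^ 2 := by rw [hC']; exact hS.2
    obtain ⟨hAB', hAC', -⟩ := coprime_facts (⟨h1, h2⟩ : Sol A B' C' D) hc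
    obtain ⟨p, hp⟩ := add_eq_sq_of_odd hAB' h1 hA hD hpar
    have h2' : A ^ 2 = C' ^ 2 + (9 * D) ^ 2 := by rw [h2]; ring
    have hpar9 : ¬ (2 : ℤ) ∣ 9 * D := fun h => hpar (by omega)
    obtain ⟨q, hq⟩ := add_eq_sq_of_odd hAC' h2' hA (mul_ne_zero (by norm_num) hD) hpar9
    have hp1 : A + B' = 1 * p ^ 2 := by rw [one_mul]; exact hp
    have hq1 : A + C' = 1 * q ^ 2 := by rw [one_mul]; exact hq
    have hr1 : B' + C' = 1 * r ^ 2 := by rw [one_mul]; exact hr
    refine ⟨1 * p * q, 1 * p * r, 1 * q * r, step h1 h2 hp1 hq1 hr1, ?_⟩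
    intro hcop
    rw [one_mul] at hcop
    have hpD : IsCoprime p D := hcop.of_mul_left_left
    have hqD : IsCoprime q D := hcop.of_mul_left_right
    have e1 : p ^ 2 * (A - B') = D ^ 2 := by rw [← hp]; linear_combination h1
    have hpu : IsUnit p := by
      have hpd : p ∣ D ^ 2 := Dvd.intro (p * (A - B')) (by rw [← e1]; ring)
      exact (hpD.pow_right (n := 2)).isUnit_of_dvd' dvd_rfl hpd
    have hp2 : p ^ 2 = 1 := by
      rcases Int.isUnit_iff.1 hpu with h | h <;> rw [h] <;> norm_num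
    have e2 : q ^ 2 * (A - C') = 81 * D ^ 2 := by rw [← hq]; linear_combination h2
    have hq81 : q ^ 2 ∣ 81 := by
      have h' : q ^ 2 ∣ 81 * D ^ 2 := Dvd.intro _ e2
      exact (hqD.pow (m := 2) (n := 2)).dvd_of_dvd_mul_right h'
    have hq9 : q ∣ 9 := by
      have h' : q ^ 2 ∣ (9 : ℤ) ^ 2 := by norm_num; exact hq81
      exact (Int.pow_dvd_pow_iff two_ne_zero).1 h'
    have hqn : q.natAbs ∣ 9 := by
      have := Int.natAbs_dvd_natAbs.2 hq9
      simpa using this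
    have hsq : q ^ 2 = (q.natAbs : ℤ) ^ 2 := (Int.natAbs_sq q).symm
    have hq_cases : q ^ 2 = 1 ∨ q ^ 2 = 9 ∨ q ^ 2 = 81 := by
      have hmem : q.natAbs ∈ ({1, 3, 9} : Finset ℕ) := by
        have h' : q.natAbs ∈ Nat.divisors 9 := Nat.mem_divisors.2 ⟨hqn, by norm_num⟩
        have hdiv : Nat.divisors 9 = {1, 3, 9} := by decide
        rwa [hdiv] at h'
      simp only [Finset.mem_insert, Finset.mem_singleton] at hmem
      rcases hmem with h | h | h <;> rw [hsq, h] <;> norm_num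
    have hDpos : 0 < D ^ 2 := by positivity
    rw [hp2] at e1 hp
    rcases hq_cases with h | h | h
    · rw [h] at e2 hq
      linarith
    · rw [h] at e2 hq
      linarith
    · rw [h] at e2 hq
      linarith

lemma reduce_aux {A B C D : ℤ} (g : ℕ) (hS : Sol A B C D) (hD : D ≠ 0) (hg2 : 2 ≤ g)
    (hgA : (g : ℤ) ∣ A) (hgD : (g : ℤ) ∣ D) :
    ∃ A' B' C' D' : ℤ, Sol A' B' C' D' ∧ D' ≠ 0 ∧ D'.natAbs < D.natAbs := by
  obtain ⟨h1, h2⟩ := hS
  obtain ⟨a, ha⟩ := hgA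
  obtain ⟨d, hd⟩ := hgD
  have hgz : (g : ℤ) ≠ 0 := by
    have : (2 : ℤ) ≤ g := by exact_mod_cast hg2
    omega
  have hB : (g : ℤ) ∣ B := by
    have h' : (g : ℤ) ^ 2 ∣ B ^ 2 :=
      ⟨a ^ 2 - d ^ 2, by rw [ha, hd] at h1; linear_combination -h1⟩
    exact (Int.pow_dvd_pow_iff two_ne_zero).1 h'
  have hC : (g : ℤ) ∣ C := by
    have h' : (g : ℤ) ^ 2 ∣ C ^ 2 :=
      ⟨a ^ 2 - 81 * d ^ 2, by rw [ha, hd] at h2; linear_combination -h2⟩
    exact (Int.pow_dvd_pow_iff two_ne_zero).1 h'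
  obtain ⟨b, hb⟩ := hB
  obtain ⟨c, hc⟩ := hC
  have hd0 : d ≠ 0 := by
    rintro rfl
    apply hD; rw [hd]; ring
  refine ⟨a, b, c, d, ⟨?_, ?_⟩, hd0, ?_⟩
  · have h' : (g : ℤ) ^ 2 * a ^ 2 = (g : ℤ) ^ 2 * (b ^ 2 + d ^ 2) := by
      rw [ha, hb, hd] at h1; linear_combination h1
    exact mul_left_cancel₀ (pow_ne_zero 2 hgz) h'
  · have h' : (g : ℤ) ^ 2 * a ^ 2 = (g : ℤ) ^ 2 * (c ^ 2 + 81 * d ^ 2) := by
      rw [ha, hc, hd] at h2; linear_combination h2
    exact mul_left_cancel₀ (pow_ne_zero 2 hgz) h'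
  · rw [hd, Int.natAbs_mul, Int.natAbs_natCast]
    have hpos : 0 < d.natAbs := Int.natAbs_pos.2 hd0
    nlinarith

lemma reduce {A B C D : ℤ} (hS : Sol A B C D) (hD : D ≠ 0) (hnc : ¬ IsCoprime A D) :
    ∃ A' B' C' D' : ℤ, Sol A' B' C' D' ∧ D' ≠ 0 ∧ D'.natAbs < D.natAbs := by
  rw [Int.isCoprime_iff_gcd_eq_one] at hnc
  have hg0 : Int.gcd A D ≠ 0 := fun h0 => hD (Int.gcd_eq_zero_iff.1 h0).2
  exact reduce_aux (Int.gcd A D) hS hD (by omega) (Int.gcd_dvd_left _ _) (Int.gcd_dvd_right _ _)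

theorem conc_aux : ∀ (n : ℕ) (A B C D : ℤ), D.natAbs = n → Sol A B C D → D = 0 := by
  intro n
  induction n using Nat.strong_induction_on with
  | _ n ih =>
    intro A B C D hn hS
    by_contra hD
    by_cases hc : IsCoprime A D
    · have hA0 : A ≠ 0 := by
        rintro rfl
        have h1 := hS.1
        have : 0 < D ^ 2 := by positivity
        have : 0 ≤ B ^ 2 := sq_nonneg B
        linarith
      have hkey : ∃ A₁ B₁ C₁ : ℤ, Sol A₁ B₁ C₁ D ∧ ¬ IsCoprime A₁ D := by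
        rcases lt_or_gt_of_ne hA0 with hneg | hpos
        · have hS' : Sol (-A) B C D := ⟨by rw [neg_sq]; exact hS.1, by rw [neg_sq]; exact hS.2⟩
          exact key hS' hc.neg_left (by linarith) hD
        · exact key hS hc hpos hD
      obtain ⟨A₁, B₁, C₁, hS₁, hnc⟩ := hkey
      obtain ⟨A', B', C', D', hS', hD', hlt⟩ := reduce hS₁ hD hnc
      exact hD' (ih _ (hn ▸ hlt) A' B' C' D' rfl hS')
    · obtain ⟨A', B', C', D', hS', hD', hlt⟩ := reduce hS hD hc
      exact hD' (ih _ (hn ▸ hlt) A' B' C' D' rfl hS')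

/-- **Concordant forms (1, 81)**: `A² = B² + D² = C² + 81 D²` forces `D = 0`. -/
theorem conc (A B C D : ℤ) (h1 : A ^ 2 = B ^ 2 + D ^ 2) (h2 : A ^ 2 = C ^ 2 + 81 * D ^ 2) :
    D = 0 :=
  conc_aux _ A B C D rfl ⟨h1, h2⟩

/-- No rational `z₁, z₂, z₃` with `z₁² = z₂² + 1 = z₃² + 81`. -/
theorem no_rat_sol (z₁ z₂ z₃ : ℚ) (h1 : z₁ ^ 2 = z₂ ^ 2 + 1) (h2 : z₁ ^ 2 = z₃ ^ 2 + 81) :
    False := by
  have ha : z₁ * ((z₁.den : ℚ) * z₂.den * z₃.den) = (z₁.num : ℚ) * z₂.den * z₃.den := by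
    linear_combination (z₂.den : ℚ) * z₃.den * Rat.mul_den_eq_num z₁
  have hb : z₂ * ((z₁.den : ℚ) * z₂.den * z₃.den) = (z₂.num : ℚ) * z₁.den * z₃.den := by
    linear_combination (z₁.den : ℚ) * z₃.den * Rat.mul_den_eq_num z₂
  have hc : z₃ * ((z₁.den : ℚ) * z₂.den * z₃.den) = (z₃.num : ℚ) * z₁.den * z₂.den := by
    linear_combination (z₁.den : ℚ) * z₂.den * Rat.mul_den_eq_num z₃
  have e1 : (z₁.num * z₂.den * z₃.den : ℤ) ^ 2 =
      (z₂.num * z₁.den * z₃.den : ℤ) ^ 2 + ((z₁.den : ℤ) * z₂.den * z₃.den) ^ 2 := by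
    have : ((z₁.num : ℚ) * z₂.den * z₃.den) ^ 2 =
        ((z₂.num : ℚ) * z₁.den * z₃.den) ^ 2 + ((z₁.den : ℚ) * z₂.den * z₃.den) ^ 2 := by
      rw [← ha, ← hb]
      linear_combination ((z₁.den : ℚ) * z₂.den * z₃.den) ^ 2 * h1
    exact_mod_cast this
  have e2 : (z₁.num * z₂.den * z₃.den : ℤ) ^ 2 =
      (z₃.num * z₁.den * z₂.den : ℤ) ^ 2 + 81 * ((z₁.den : ℤ) * z₂.den * z₃.den) ^ 2 := by
    have : ((z₁.num : ℚ) * z₂.den * z₃.den) ^ 2 =
        ((z₃.num : ℚ) * z₁.den * z₂.den) ^ 2 + 81 * ((z₁.den : ℚ) * z₂.den * z₃.den) ^ 2 := by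
      rw [← ha, ← hc]
      linear_combination ((z₁.den : ℚ) * z₂.den * z₃.den) ^ 2 * h2
    exact_mod_cast this
  have hD := conc _ _ _ _ e1 e2
  have h1' : (z₁.den : ℤ) ≠ 0 := by exact_mod_cast z₁.den_nz
  have h2' : (z₂.den : ℤ) ≠ 0 := by exact_mod_cast z₂.den_nz
  have h3' : (z₃.den : ℤ) ≠ 0 := by exact_mod_cast z₃.den_nz
  exact mul_ne_zero (mul_ne_zero h1' h2') h3' hD

/-- The curve `y² = x (x - 1) (x - 81)` (Cremona 15a2) has only the 2-torsion rational points. -/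
theorem eq_zero_of_E2 (x y : ℚ) (h : y ^ 2 = x * (x - 1) * (x - 81)) : y = 0 := by
  by_contra hy
  apply no_rat_sol ((x ^ 2 - 81) / (2 * y)) (((x - 1) ^ 2 + 80) / (2 * y))
    (((x - 81) ^ 2 - 6480) / (2 * y))
  · field_simp
    linear_combination (-4) * h
  · field_simp
    linear_combination (-324) * h

/-- Rational points of `y² = x (x + 16) (x + 25)` (Cremona 15a1, i.e. `X₀(15)`). -/
theorem E1_points (x y : ℚ) (h : y ^ 2 = x * (x + 16) * (x + 25)) :
    y = 0 ∨ x = 20 ∨ x = -20 := by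
  by_cases hx : x = 0
  · left
    rw [hx] at h
    simpa using h
  · have key := eq_zero_of_E2 (y ^ 2 / x ^ 2) (y * (400 - x ^ 2) / x ^ 2) (by
      rw [div_pow, mul_pow, h]
      field_simp
      ring)
    have hx2 : x ^ 2 ≠ 0 := pow_ne_zero 2 hx
    rw [div_eq_zero_iff] at key
    rcases key with key | key
    · rcases mul_eq_zero.1 key with hy | hx4
      · exact Or.inl hy
      · right
        have : (x - 20) * (x + 20) = 0 := by linear_combination -hx4
        rcases mul_eq_zero.1 this with h' | h'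
        · left; linarith
        · right; linarith
    · exact absurd key hx2


/-- Arithmetic endgame: a relation `a * c4³ = b * Δ` with `5 ∤ a`, `5 ∣ b`, `125 ∤ b`
contradicts semistability at `5`. -/
lemma five_contra (c4 Δ a b : ℤ)
    (hss : ∀ p : ℕ, p.Prime → (p : ℤ) ∣ Δ → ¬ (p : ℤ) ∣ c4)
    (h : a * c4 ^ 3 = b * Δ) (ha : ¬ (5 : ℤ) ∣ a) (hb : (5 : ℤ) ∣ b) (hb' : ¬ (125 : ℤ) ∣ b) :
    False := by
  have h5 : Prime (5 : ℤ) := Int.prime_iff_natAbs_prime.mpr (by norm_num)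
  have hc4 : (5 : ℤ) ∣ c4 := by
    have h1 : (5 : ℤ) ∣ a * c4 ^ 3 := by rw [h]; exact Dvd.dvd.mul_right hb _
    rcases h5.dvd_or_dvd h1 with h' | h'
    · exact absurd h' ha
    · exact h5.dvd_of_dvd_pow h'
  have hΔ5 : (5 : ℤ) ∣ Δ := by
    by_contra hn
    have hcop : IsCoprime ((5 : ℤ) ^ 3) Δ := (h5.coprime_iff_not_dvd.2 hn).pow_left
    have h125 : (5 : ℤ) ^ 3 ∣ b * Δ := by
      rw [← h]
      exact Dvd.dvd.mul_left (pow_dvd_pow_of_dvd hc4 3) a
    have := hcop.dvd_of_dvd_mul_right h125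
    exact hb' (by norm_num at this; exact this)
  exact hss 5 (by norm_num) (by exact_mod_cast hΔ5) (by exact_mod_cast hc4)

/-- The endgame of S51: the three relations coming from a rational 3-isogeny and a rational
5-isogeny on a semistable curve are contradictory. -/
theorem final (c4 Δ : ℤ) (hΔ : Δ ≠ 0)
    (hss : ∀ p : ℕ, p.Prime → (p : ℤ) ∣ Δ → ¬ (p : ℤ) ∣ c4) (w π ζ : ℚ)
    (hj : (c4 : ℚ) ^ 3 * (w - 11) = (w ^ 2 - 12 * w + 16) ^ 3 * Δ)
    (h1 : ζ ^ 2 = (1 - 4 * π) * (w ^ 2 + 4))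
    (h2 : (1 - 3 * π) * w + (1 - π) * ζ + 6 * π ^ 2 = 0) : False := by
  -- the quadratic relation between `π` and `w`
  have hQ : π ^ 3 * w ^ 2 + 3 * π ^ 2 * (1 - 3 * π) * w + 9 * π ^ 4
      - (1 - π) ^ 2 * (1 - 4 * π) = 0 := by
    linear_combination (1 / 4) * (1 - π) ^ 2 * h1
      - (1 / 4) * ((1 - π) * ζ - (1 - 3 * π) * w - 6 * π ^ 2) * h2
  -- the five possible values of `w`
  have hw : w = 11 ∨ w = 1 ∨ w = -3 / 2 ∨ w = 63 / 8 ∨ w = -29 := by
    by_cases hπ0 : π = 0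
    · exfalso
      subst hπ0
      have hζ : ζ = -w := by linear_combination h2
      rw [hζ] at h1
      linarith
    by_cases hπ1 : π = 1
    · exfalso
      subst hπ1
      have hw3 : w = 3 := by linear_combination (-1 / 2 : ℚ) * h2
      rw [hw3] at h1
      nlinarith [sq_nonneg ζ]
    have h1π : (1 : ℚ) - π ≠ 0 := sub_ne_zero.2 (Ne.symm hπ1)
    have hsq : (2 * π ^ 3 * w + 3 * π ^ 2 * (1 - 3 * π)) ^ 2
        = π ^ 3 * (1 - π) ^ 2 * (1 - 4 * π) * (9 * π + 4) := by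
      linear_combination 4 * π ^ 3 * hQ
    have hY : (36 * ((2 * π ^ 3 * w + 3 * π ^ 2 * (1 - 3 * π)) / (π * (1 - π)))) ^ 2
        = (-36 * π - 16) * ((-36 * π - 16) + 16) * ((-36 * π - 16) + 25) := by
      rw [mul_pow, div_pow, hsq]
      field_simp
      ring
    rcases E1_points _ _ hY with hy | hx | hx
    · -- `Y = 0`
      have hnum : 2 * π ^ 3 * w + 3 * π ^ 2 * (1 - 3 * π) = 0 := by
        have h36 : (2 * π ^ 3 * w + 3 * π ^ 2 * (1 - 3 * π)) / (π * (1 - π)) = 0 := by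
          rcases mul_eq_zero.1 hy with h | h
          · norm_num at h
          · exact h
        rcases div_eq_zero_iff.1 h36 with h | h
        · exact h
        · exact absurd h (mul_ne_zero hπ0 h1π)
      rw [hnum] at hsq
      have hprod : π ^ 3 * (1 - π) ^ 2 * ((1 - 4 * π) * (9 * π + 4)) = 0 := by
        linear_combination -hsq
      have hprod' : (1 - 4 * π) * (9 * π + 4) = 0 := by
        rcases mul_eq_zero.1 hprod with h | h
        · rcases mul_eq_zero.1 h with h | h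
          · exact absurd (pow_eq_zero_iff (n := 3) (by norm_num) |>.1 h) hπ0
          · exact absurd (pow_eq_zero_iff (n := 2) (by norm_num) |>.1 h) h1π
        · exact h
      rcases mul_eq_zero.1 hprod' with h | h
      · have hπ : π = 1 / 4 := by linear_combination (-1 / 4 : ℚ) * h
        subst hπ
        have : (2 * w + 3) ^ 2 = 0 := by linear_combination 256 * hQ
        have : 2 * w + 3 = 0 := pow_eq_zero_iff (n := 2) (by norm_num) |>.1 this
        right; right; left; linarith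
      · have hπ : π = -4 / 9 := by linear_combination (1 / 9 : ℚ) * h
        subst hπ
        have : (8 * w - 63) ^ 2 = 0 := by linear_combination (-729) * hQ
        have : 8 * w - 63 = 0 := pow_eq_zero_iff (n := 2) (by norm_num) |>.1 this
        right; right; right; left; linarith
    · -- `π = -1`
      have hπ : π = -1 := by linarith
      subst hπ
      have : (w - 1) * (w - 11) = 0 := by linear_combination (-1) * hQ
      rcases mul_eq_zero.1 this with h | h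
      · right; left; linarith
      · left; linarith
    · -- `π = 1/9`
      have hπ : π = 1 / 9 := by linarith
      subst hπ
      have : (w - 11) * (w + 29) = 0 := by linear_combination 729 * hQ
      rcases mul_eq_zero.1 this with h | h
      · left; linarith
      · right; right; right; right; linarith
  rcases hw with rfl | rfl | rfl | rfl | rfl
  · -- `w = 11` forces `Δ = 0`
    apply hΔ
    have : (Δ : ℚ) = 0 := by linear_combination (-1 / 125 : ℚ) * hj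
    exact_mod_cast this
  · have e : ((-2 * c4 ^ 3 : ℤ) : ℚ) = ((25 * Δ : ℤ) : ℚ) := by
      push_cast; linear_combination (1 / 5 : ℚ) * hj
    exact five_contra c4 Δ (-2) 25 hss (by exact_mod_cast e) (by norm_num) (by norm_num)
      (by norm_num)
  · have e : ((-32 * c4 ^ 3 : ℤ) : ℚ) = ((121945 * Δ : ℤ) : ℚ) := by
      push_cast; linear_combination (64 / 25 : ℚ) * hj
    exact five_contra c4 Δ (-32) 121945 hss (by exact_mod_cast e) (by norm_num) (by norm_num)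
      (by norm_num)
  · have e : ((32768 * c4 ^ 3 : ℤ) : ℚ) = ((46969655 * Δ : ℤ) : ℚ) := by
      push_cast; linear_combination (-262144 / 25 : ℚ) * hj
    exact five_contra c4 Δ 32768 46969655 hss (by exact_mod_cast e) (by norm_num) (by norm_num)
      (by norm_num)
  · have e : ((-8 * c4 ^ 3 : ℤ) : ℚ) = ((349938025 * Δ : ℤ) : ℚ) := by
      push_cast; linear_combination (1 / 5 : ℚ) * hj
    exact five_contra c4 Δ (-8) 349938025 hss (by exact_mod_cast e) (by norm_num) (by norm_num)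
      (by norm_num)

end Fermat.Agent.S51.Descent
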