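import Mathlib

set_option autoImplicit false

namespace Fermat.Agent.S51.Ident

variable {K : Type*} [Field K]

theorem core_c4 (δ u : K) (hδ : δ ≠ 0) (hu : u ≠ 0) :
    ((δ ^ 4 - 6 * δ ^ 2 * u + u ^ 2) / (δ * u)) ^ 2 - 24 * (δ ^ 2 - u) =
      δ ^ 2 * ((δ ^ 2 / u - u / δ ^ 2) ^ 2 - 12 * (δ ^ 2 / u - u / δ ^ 2) + 16) := by
  field_simp
  ring

theorem core_disc (δ u : K) (hδ : δ ≠ 0) (hu : u ≠ 0) :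
    -((δ ^ 4 - 6 * δ ^ 2 * u + u ^ 2) / (δ * u)) ^ 2 * (-(δ ^ 2 * u)) - 8 * (δ ^ 2 - u) ^ 3
        - 27 * (δ * u) ^ 2
        + 9 * ((δ ^ 4 - 6 * δ ^ 2 * u + u ^ 2) / (δ * u)) * (δ ^ 2 - u) * (δ * u) =
      δ ^ 6 * ((δ ^ 2 / u - u / δ ^ 2) - 11) := by
  field_simp
  ring

theorem core_w (δ u : K) (hδ : δ ≠ 0) (hu : u ≠ 0) :
    (2 * (δ ^ 2 - u) + (δ ^ 4 - 6 * δ ^ 2 * u + u ^ 2) / (δ * u) * δ + 4 * δ ^ 2) / δ ^ 2 =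
      δ ^ 2 / u - u / δ ^ 2 := by
  field_simp
  ring

theorem core_i (δ u t : K) (hδ : δ ≠ 0) (hu : u ≠ 0) :
    ((2 * t - δ) * ((δ ^ 4 - 6 * δ ^ 2 * u + u ^ 2) / (δ * u) + 6 * δ) / δ ^ 2) ^ 2 =
      (1 - 4 * (-(t ^ 2 - δ * t) / δ ^ 2)) * ((δ ^ 2 / u - u / δ ^ 2) ^ 2 + 4) := by
  field_simp
  ring

theorem core_ii (δ u t : K) (hδ : δ ≠ 0) (hu : u ≠ 0) :
    (1 - 3 * (-(t ^ 2 - δ * t) / δ ^ 2)) * (δ ^ 2 / u - u / δ ^ 2)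
        + (1 - (-(t ^ 2 - δ * t) / δ ^ 2))
          * ((2 * t - δ) * ((δ ^ 4 - 6 * δ ^ 2 * u + u ^ 2) / (δ * u) + 6 * δ) / δ ^ 2)
        + 6 * (-(t ^ 2 - δ * t) / δ ^ 2) ^ 2 =
      2 / δ ^ 4 * (3 * t ^ 4 + (δ ^ 4 - 6 * δ ^ 2 * u + u ^ 2) / (δ * u) * t ^ 3
        + 3 * (δ ^ 2 - u) * t ^ 2 + 3 * (δ * u) * t + -(δ ^ 2 * u)) := by
  field_simp
  ring


/-- Part (B): a 5-torsion pair `x₁, x₂` (with rational symmetric functions `e₁, e₂`) together with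
a rational root `x₀` of `Ψ₃` produce rational `w, π, ζ` satisfying the three relations. -/
theorem ident {F : Type*} [Field F] (φ : F →+* K)
    (b₂ b₄ b₆ b₈ : F) (hb : 4 * b₈ = b₂ * b₆ - b₄ ^ 2)
    (x₁ x₂ : K) (e₁ e₂ x₀ : F)
    (hne : x₁ ≠ x₂) (he₁ : x₁ + x₂ = φ e₁) (he₂ : x₁ * x₂ = φ e₂)
    (hg₁ : 4 * x₁ ^ 3 + φ b₂ * x₁ ^ 2 + 2 * φ b₄ * x₁ + φ b₆ ≠ 0)
    (hR1 : x₁ ^ 4 - φ b₄ * x₁ ^ 2 - 2 * φ b₆ * x₁ - φ b₈ =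
      x₂ * (4 * x₁ ^ 3 + φ b₂ * x₁ ^ 2 + 2 * φ b₄ * x₁ + φ b₆))
    (hR2 : x₂ ^ 4 - φ b₄ * x₂ ^ 2 - 2 * φ b₆ * x₂ - φ b₈ =
      x₁ * (4 * x₂ ^ 3 + φ b₂ * x₂ ^ 2 + 2 * φ b₄ * x₂ + φ b₆))
    (hT : 3 * x₀ ^ 4 + b₂ * x₀ ^ 3 + 3 * b₄ * x₀ ^ 2 + 3 * b₆ * x₀ + b₈ = 0) :
    ∃ w π ζ : F,
      (b₂ ^ 2 - 24 * b₄) ^ 3 * (w - 11) =
        (w ^ 2 - 12 * w + 16) ^ 3 *
          (-b₂ ^ 2 * b₈ - 8 * b₄ ^ 3 - 27 * b₆ ^ 2 + 9 * b₂ * b₄ * b₆) ∧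
      ζ ^ 2 = (1 - 4 * π) * (w ^ 2 + 4) ∧
      (1 - 3 * π) * w + (1 - π) * ζ + 6 * π ^ 2 = 0 := by
  obtain ⟨δ, rfl⟩ : ∃ δ, x₂ = x₁ + δ := ⟨x₂ - x₁, by ring⟩
  have hδ : δ ≠ 0 := by
    rintro rfl
    exact hne (by ring)
  have hb' : 4 * φ b₈ = φ b₂ * φ b₆ - φ b₄ ^ 2 := by
    have := congrArg φ hb
    simpa only [map_mul, map_sub, map_pow, map_ofNat] using this
  have hT' : 3 * φ x₀ ^ 4 + φ b₂ * φ x₀ ^ 3 + 3 * φ b₄ * φ x₀ ^ 2 + 3 * φ b₆ * φ x₀ + φ b₈ = 0 := by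
    have := congrArg φ hT
    simpa only [map_add, map_mul, map_pow, map_ofNat, map_zero] using this
  obtain ⟨B₂, hβ₂⟩ : ∃ B₂, φ b₂ = B₂ - 12 * x₁ := ⟨φ b₂ + 12 * x₁, by ring⟩
  obtain ⟨B₄, hβ₄⟩ : ∃ B₄, φ b₄ = B₄ - B₂ * x₁ + 6 * x₁ ^ 2 :=
    ⟨φ b₄ + B₂ * x₁ - 6 * x₁ ^ 2, by ring⟩
  obtain ⟨B₆, hβ₆⟩ : ∃ B₆, φ b₆ = B₆ - 2 * B₄ * x₁ + B₂ * x₁ ^ 2 - 4 * x₁ ^ 3 :=
    ⟨φ b₆ + 2 * B₄ * x₁ - B₂ * x₁ ^ 2 + 4 * x₁ ^ 3, by ring⟩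
  obtain ⟨B₈, hβ₈⟩ : ∃ B₈, φ b₈ = B₈ - 3 * B₆ * x₁ + 3 * B₄ * x₁ ^ 2 - B₂ * x₁ ^ 3 + 3 * x₁ ^ 4 :=
    ⟨φ b₈ + 3 * B₆ * x₁ - 3 * B₄ * x₁ ^ 2 + B₂ * x₁ ^ 3 - 3 * x₁ ^ 4, by ring⟩
  obtain ⟨t, ht⟩ : ∃ t, φ x₀ = x₁ + t := ⟨φ x₀ - x₁, by ring⟩
  rw [hβ₂, hβ₄, hβ₆, hβ₈] at hb' hT' hR1 hR2
  rw [hβ₂, hβ₄, hβ₆] at hg₁
  rw [ht] at hT'
  have hB₆ : B₆ ≠ 0 := fun h => hg₁ (by rw [h]; ring)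
  have E1 : B₈ = -(δ * B₆) := by linear_combination (-1 : K) * hR1
  have E2 : δ * (B₆ - δ * (δ ^ 2 - B₄)) = 0 := by linear_combination (-1 : K) * hR2 + hR1
  have E2' : B₆ = δ * (δ ^ 2 - B₄) := by
    rcases mul_eq_zero.mp E2 with h | h
    · exact absurd h hδ
    · linear_combination h
  obtain ⟨u, rfl⟩ : ∃ u, B₄ = δ ^ 2 - u := ⟨δ ^ 2 - B₄, by ring⟩
  have hB₆' : B₆ = δ * u := by rw [E2']; ring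
  subst hB₆'
  have hu : u ≠ 0 := fun h => hB₆ (by rw [h]; ring)
  have hB₈' : B₈ = -(δ ^ 2 * u) := by rw [E1]; ring
  subst hB₈'
  have hB₂' : B₂ = (δ ^ 4 - 6 * δ ^ 2 * u + u ^ 2) / (δ * u) := by
    rw [eq_div_iff (mul_ne_zero hδ hu)]
    linear_combination (-1 : K) * hb'
  subst hB₂'
  have hD : φ (e₁ ^ 2 - 4 * e₂) = δ ^ 2 := by
    rw [map_sub, map_pow, map_mul, ← he₁, ← he₂, map_ofNat]; ring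
  have hD0 : e₁ ^ 2 - 4 * e₂ ≠ 0 := by
    intro h
    rw [h, map_zero] at hD
    exact hδ ((pow_eq_zero_iff two_ne_zero).mp hD.symm)
  have hw : φ ((2 * b₄ + b₂ * e₁ + 6 * (e₁ ^ 2 - 2 * e₂)) / (e₁ ^ 2 - 4 * e₂) - 2) =
      δ ^ 2 / u - u / δ ^ 2 := by
    rw [map_sub, map_div₀, hD, ← core_w δ u hδ hu]
    simp only [map_add, map_mul, map_sub, map_pow, map_ofNat, ← he₁, ← he₂, hβ₂, hβ₄]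
    field_simp
    ring
  have hπ : φ (-(x₀ ^ 2 - e₁ * x₀ + e₂) / (e₁ ^ 2 - 4 * e₂)) = -(t ^ 2 - δ * t) / δ ^ 2 := by
    rw [map_div₀, hD]
    simp only [map_add, map_mul, map_sub, map_pow, map_neg, ← he₁, ← he₂, ht]
    field_simp
    ring
  have hζ : φ ((2 * x₀ - e₁) * (b₂ + 6 * e₁) / (e₁ ^ 2 - 4 * e₂)) =
      (2 * t - δ) * ((δ ^ 4 - 6 * δ ^ 2 * u + u ^ 2) / (δ * u) + 6 * δ) / δ ^ 2 := by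
    rw [map_div₀, hD]
    simp only [map_add, map_mul, map_sub, map_ofNat, ← he₁, ht, hβ₂]
    field_simp
    ring
  refine ⟨(2 * b₄ + b₂ * e₁ + 6 * (e₁ ^ 2 - 2 * e₂)) / (e₁ ^ 2 - 4 * e₂) - 2,
    -(x₀ ^ 2 - e₁ * x₀ + e₂) / (e₁ ^ 2 - 4 * e₂),
    (2 * x₀ - e₁) * (b₂ + 6 * e₁) / (e₁ ^ 2 - 4 * e₂), ?_, ?_, ?_⟩
  · apply φ.injective
    have hc4 : φ (b₂ ^ 2 - 24 * b₄) =
        δ ^ 2 * ((δ ^ 2 / u - u / δ ^ 2) ^ 2 - 12 * (δ ^ 2 / u - u / δ ^ 2) + 16) := by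
      rw [← core_c4 δ u hδ hu]
      simp only [map_sub, map_mul, map_pow, map_ofNat, hβ₂, hβ₄]
      field_simp
      ring
    have hdisc : φ (-b₂ ^ 2 * b₈ - 8 * b₄ ^ 3 - 27 * b₆ ^ 2 + 9 * b₂ * b₄ * b₆) =
        δ ^ 6 * ((δ ^ 2 / u - u / δ ^ 2) - 11) := by
      rw [← core_disc δ u hδ hu]
      simp only [map_sub, map_add, map_neg, map_mul, map_pow, map_ofNat, hβ₂, hβ₄, hβ₆, hβ₈]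
      field_simp
      ring
    rw [map_mul, map_mul, map_pow, map_pow, hc4, hdisc]
    simp only [map_sub, map_add, map_mul, map_pow, map_ofNat, hw]
    ring
  · apply φ.injective
    rw [map_pow, map_mul, hζ]
    simp only [map_sub, map_add, map_mul, map_pow, map_ofNat, map_one, hw, hπ]
    exact core_i δ u t hδ hu
  · apply φ.injective
    simp only [map_sub, map_add, map_mul, map_pow, map_ofNat, map_one, map_zero, hw, hπ, hζ]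
    rw [core_ii δ u t hδ hu]
    rw [show (3 * t ^ 4 + (δ ^ 4 - 6 * δ ^ 2 * u + u ^ 2) / (δ * u) * t ^ 3
        + 3 * (δ ^ 2 - u) * t ^ 2 + 3 * (δ * u) * t + -(δ ^ 2 * u)) = 0 by
      linear_combination hT']
    ring


/-- `ident` for a Weierstrass curve over a field `F`, in terms of `E.c₄` and `E.Δ`. -/
theorem ident_curve {F : Type*} [Field F] (E : WeierstrassCurve F) (φ : F →+* K)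
    (x₁ x₂ : K) (e₁ e₂ x₀ : F)
    (hne : x₁ ≠ x₂) (he₁ : x₁ + x₂ = φ e₁) (he₂ : x₁ * x₂ = φ e₂)
    (hg₁ : 4 * x₁ ^ 3 + φ E.b₂ * x₁ ^ 2 + 2 * φ E.b₄ * x₁ + φ E.b₆ ≠ 0)
    (hR1 : x₁ ^ 4 - φ E.b₄ * x₁ ^ 2 - 2 * φ E.b₆ * x₁ - φ E.b₈ =
      x₂ * (4 * x₁ ^ 3 + φ E.b₂ * x₁ ^ 2 + 2 * φ E.b₄ * x₁ + φ E.b₆))
    (hR2 : x₂ ^ 4 - φ E.b₄ * x₂ ^ 2 - 2 * φ E.b₆ * x₂ - φ E.b₈ =
      x₁ * (4 * x₂ ^ 3 + φ E.b₂ * x₂ ^ 2 + 2 * φ E.b₄ * x₂ + φ E.b₆))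
    (hT : 3 * x₀ ^ 4 + E.b₂ * x₀ ^ 3 + 3 * E.b₄ * x₀ ^ 2 + 3 * E.b₆ * x₀ + E.b₈ = 0) :
    ∃ w π ζ : F,
      E.c₄ ^ 3 * (w - 11) = (w ^ 2 - 12 * w + 16) ^ 3 * E.Δ ∧
      ζ ^ 2 = (1 - 4 * π) * (w ^ 2 + 4) ∧
      (1 - 3 * π) * w + (1 - π) * ζ + 6 * π ^ 2 = 0 :=
  ident φ E.b₂ E.b₄ E.b₆ E.b₈ E.b_relation x₁ x₂ e₁ e₂ x₀ hne he₁ he₂ hg₁ hR1 hR2 hT

/-- `ident` for an integral Weierstrass curve `W`, with the `b`-invariants of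
`W.map (Int.castRingHom ℚ)` and the output relation in terms of the integers `W.c₄`, `W.Δ`. -/
theorem ident_int (W : WeierstrassCurve ℤ) (φ : ℚ →+* K)
    (x₁ x₂ : K) (e₁ e₂ x₀ : ℚ)
    (hne : x₁ ≠ x₂) (he₁ : x₁ + x₂ = φ e₁) (he₂ : x₁ * x₂ = φ e₂)
    (hg₁ : 4 * x₁ ^ 3 + φ (W.map (Int.castRingHom ℚ)).b₂ * x₁ ^ 2
      + 2 * φ (W.map (Int.castRingHom ℚ)).b₄ * x₁ + φ (W.map (Int.castRingHom ℚ)).b₆ ≠ 0)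
    (hR1 : x₁ ^ 4 - φ (W.map (Int.castRingHom ℚ)).b₄ * x₁ ^ 2
        - 2 * φ (W.map (Int.castRingHom ℚ)).b₆ * x₁ - φ (W.map (Int.castRingHom ℚ)).b₈ =
      x₂ * (4 * x₁ ^ 3 + φ (W.map (Int.castRingHom ℚ)).b₂ * x₁ ^ 2
        + 2 * φ (W.map (Int.castRingHom ℚ)).b₄ * x₁ + φ (W.map (Int.castRingHom ℚ)).b₆))
    (hR2 : x₂ ^ 4 - φ (W.map (Int.castRingHom ℚ)).b₄ * x₂ ^ 2
        - 2 * φ (W.map (Int.castRingHom ℚ)).b₆ * x₂ - φ (W.map (Int.castRingHom ℚ)).b₈ =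
      x₁ * (4 * x₂ ^ 3 + φ (W.map (Int.castRingHom ℚ)).b₂ * x₂ ^ 2
        + 2 * φ (W.map (Int.castRingHom ℚ)).b₄ * x₂ + φ (W.map (Int.castRingHom ℚ)).b₆))
    (hT : 3 * x₀ ^ 4 + (W.map (Int.castRingHom ℚ)).b₂ * x₀ ^ 3
      + 3 * (W.map (Int.castRingHom ℚ)).b₄ * x₀ ^ 2
      + 3 * (W.map (Int.castRingHom ℚ)).b₆ * x₀ + (W.map (Int.castRingHom ℚ)).b₈ = 0) :
    ∃ w π ζ : ℚ,
      (W.c₄ : ℚ) ^ 3 * (w - 11) = (w ^ 2 - 12 * w + 16) ^ 3 * (W.Δ : ℚ) ∧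
      ζ ^ 2 = (1 - 4 * π) * (w ^ 2 + 4) ∧
      (1 - 3 * π) * w + (1 - π) * ζ + 6 * π ^ 2 = 0 := by
  have h := ident_curve (W.map (Int.castRingHom ℚ)) φ x₁ x₂ e₁ e₂ x₀ hne he₁ he₂ hg₁ hR1 hR2 hT
  rw [WeierstrassCurve.map_c₄, WeierstrassCurve.map_Δ] at h
  simpa using h


/-- `ident` with rationals entering `K` through the plain cast `Rat.cast` (the shape of
`Fermat.Agent.S51.Assembly.IdentShape`, for any field `K` of characteristic zero). -/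
theorem ident_ratCast [CharZero K] (b₂ b₄ b₆ b₈ : ℚ) (hb : 4 * b₈ = b₂ * b₆ - b₄ ^ 2)
    (x₁ x₂ : K) (e₁ e₂ x₀ : ℚ) (hne : x₁ ≠ x₂)
    (he₁ : x₁ + x₂ = (e₁ : K)) (he₂ : x₁ * x₂ = (e₂ : K))
    (hg₁ : 4 * x₁ ^ 3 + (b₂ : K) * x₁ ^ 2 + 2 * (b₄ : K) * x₁ + (b₆ : K) ≠ 0)
    (hR1 : x₁ ^ 4 - (b₄ : K) * x₁ ^ 2 - 2 * (b₆ : K) * x₁ - (b₈ : K) =
      x₂ * (4 * x₁ ^ 3 + (b₂ : K) * x₁ ^ 2 + 2 * (b₄ : K) * x₁ + (b₆ : K)))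
    (hR2 : x₂ ^ 4 - (b₄ : K) * x₂ ^ 2 - 2 * (b₆ : K) * x₂ - (b₈ : K) =
      x₁ * (4 * x₂ ^ 3 + (b₂ : K) * x₂ ^ 2 + 2 * (b₄ : K) * x₂ + (b₆ : K)))
    (hT : 3 * x₀ ^ 4 + b₂ * x₀ ^ 3 + 3 * b₄ * x₀ ^ 2 + 3 * b₆ * x₀ + b₈ = 0) :
    ∃ w π ζ : ℚ,
      (b₂ ^ 2 - 24 * b₄) ^ 3 * (w - 11) =
        (w ^ 2 - 12 * w + 16) ^ 3 *
          (-b₂ ^ 2 * b₈ - 8 * b₄ ^ 3 - 27 * b₆ ^ 2 + 9 * b₂ * b₄ * b₆) ∧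
      ζ ^ 2 = (1 - 4 * π) * (w ^ 2 + 4) ∧
      (1 - 3 * π) * w + (1 - π) * ζ + 6 * π ^ 2 = 0 :=
  ident (Rat.castHom K) b₂ b₄ b₆ b₈ hb x₁ x₂ e₁ e₂ x₀ hne he₁ he₂ hg₁ hR1 hR2 hT

end Fermat.Agent.S51.Ident
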