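import Fermat.Agent.S51.Assembly
import Fermat.Agent.S51.Ident
import Fermat.Agent.S51.Descent

set_option autoImplicit false

namespace Fermat.Agent.S51.ShapeInst

theorem identShape : Fermat.Agent.S51.Assembly.IdentShape :=
  fun b₂ b₄ b₆ b₈ hb x₁ x₂ e₁ e₂ x₀ hne he₁ he₂ hg hΦ1 hΦ2 hT =>
    Fermat.Agent.S51.Ident.ident (Rat.castHom (AlgebraicClosure ℚ)) b₂ b₄ b₆ b₈ hb x₁ x₂ e₁ e₂ x₀
      hne he₁ he₂ hg hΦ1 hΦ2 hT

theorem finalShape : Fermat.Agent.S51.Assembly.FinalShape :=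
  fun c4 Δ hΔ hss w π ζ hj h1 h2 => Fermat.Agent.S51.Descent.final c4 Δ hΔ hss w π ζ hj h1 h2

theorem s51_of_three_five (three : Fermat.Agent.S51.Assembly.ThreeShape)
    (five : Fermat.Agent.S51.Assembly.FiveShape) (W : WeierstrassCurve ℤ) (hΔ : W.Δ ≠ 0)
    (hW : W.IsSemistableModel) : W.ModRepIsIrreducible 3 ∨ W.ModRepIsIrreducible 5 :=
  Fermat.Agent.S51.Assembly.s51_of_parts three five identShape finalShape W hΔ hW

end Fermat.Agent.S51.ShapeInst
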