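import Mathlib
import Fermat.Prelude.Def_FLTPrelim_GaloisRep
import Fermat.Agent.Lib.TorsionFinite

set_option autoImplicit false

namespace Fermat.Agent.S51.Three

open Polynomial WeierstrassCurve WeierstrassCurve.Affine
open Fermat.Agent.Lib.TorsionFinite

section Field

variable {F : Type*} [Field F] [DecidableEq F] {W : WeierstrassCurve.Affine F}

omit [DecidableEq F] in
lemma eval_Ψ₃ (W : WeierstrassCurve.Affine F) (x : F) :
    W.Ψ₃.eval x = 3 * x ^ 4 + W.b₂ * x ^ 3 + 3 * W.b₄ * x ^ 2 + 3 * W.b₆ * x + W.b₈ := by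
  simp [WeierstrassCurve.Ψ₃]

lemma three_nsmul_eq (P : W.Point) : 3 • P = P + P + P := by
  rw [succ_nsmul, two_nsmul]

/-- A nonzero `3`-torsion point has `x`-coordinate a root of `Ψ₃`. -/
lemma eval_Ψ₃_eq_zero_of_three_smul {P : W.Point} {x : F} (hx : HasX W P x) (h3 : 3 • P = 0) :
    W.Ψ₃.eval x = 0 := by
  have h2 : P + P = -P := by
    rw [three_nsmul_eq] at h3
    exact eq_neg_of_add_eq_zero_left h3
  have hne : P + P ≠ 0 := by
    rw [h2]
    exact neg_ne_zero.mpr hx.ne_zero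
  obtain ⟨hB, hX2⟩ := hasX_double hx hne
  have hX' : HasX W (-P) x := by
    obtain ⟨y, hy, rfl⟩ := hx
    exact ⟨_, _, Point.neg_some hy⟩
  rw [h2] at hX2
  have e := hX'.unique hX2
  rw [eq_div_iff hB] at e
  rw [eval_Ψ₃]
  linear_combination e

/-- A point whose `x`-coordinate is a root of `Ψ₃` is `3`-torsion. -/
lemma three_smul_eq_zero_of_eval_Ψ₃ [CharZero F] {x y : F} (h : W.Nonsingular x y)
    (hx : W.Ψ₃.eval x = 0) : 3 • (Point.some x y h) = 0 := by
  have heq := (W.equation_iff x y).mp h.1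
  rw [eval_Ψ₃] at hx
  have hne : y ≠ W.negY x y := by
    intro hEq
    have hns := (W.nonsingular_iff x y).mp h
    rcases hns.2 with h1 | h1
    · apply h1
      have h16 : 16 * (W.a₁ * y - (3 * x ^ 2 + 2 * W.a₂ * x + W.a₄)) ^ 2 = 0 := by
        simp only [negY] at hEq
        simp only [WeierstrassCurve.b₂, WeierstrassCurve.b₄, WeierstrassCurve.b₆,
          WeierstrassCurve.b₈] at hx
        linear_combination (-16 : F) * hx
          + (2 * (2 * y + W.a₁ * x + W.a₃) * (24 * x + 2 * (W.a₁ ^ 2 + 4 * W.a₂))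
              - 4 * W.a₁ ^ 2 * (2 * y + W.a₁ * x + W.a₃)
              + 16 * W.a₁ * (W.a₁ * y - (3 * x ^ 2 + 2 * W.a₂ * x + W.a₄))) * hEq
          - 8 * (24 * x + 2 * (W.a₁ ^ 2 + 4 * W.a₂)) * heq
      have h0 : (W.a₁ * y - (3 * x ^ 2 + 2 * W.a₂ * x + W.a₄)) ^ 2 = 0 := by
        rcases mul_eq_zero.mp h16 with h | h
        · norm_num at h
        · exact h
      exact sub_eq_zero.mp ((pow_eq_zero_iff two_ne_zero).mp h0)
    · exact h1 (by simpa [negY] using hEq)
  have hPP : (Point.some x y h) + (Point.some x y h) ≠ 0 := by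
    rw [Point.add_self_of_Y_ne hne]
    exact Point.some_ne_zero _
  obtain ⟨hB, hX2⟩ := hasX_double (P := Point.some x y h) ⟨y, h, rfl⟩ hPP
  have e : (x ^ 4 - W.b₄ * x ^ 2 - 2 * W.b₆ * x - W.b₈) /
      (4 * x ^ 3 + W.b₂ * x ^ 2 + 2 * W.b₄ * x + W.b₆) = x := by
    rw [div_eq_iff hB]
    linear_combination (-1 : F) * hx
  rw [e] at hX2
  obtain ⟨y', h', e'⟩ := hX2
  have hcases := (Point.X_eq_iff (h₁ := h') (h₂ := h)).mp rfl
  rw [← e'] at hcases
  rcases hcases with h1 | h1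
  · exfalso
    exact Point.some_ne_zero h (add_eq_left.mp h1)
  · rw [three_nsmul_eq, h1, neg_add_cancel]

/-- Existence of a nonzero `3`-torsion point over an algebraically closed field. -/
lemma exists_three_torsion [CharZero F] [IsAlgClosed F] (hΔ : W.Δ ≠ 0) :
    ∃ P : W.Point, P ≠ 0 ∧ 3 • P = 0 := by
  have h3 : (3 : F) ≠ 0 := by norm_num
  have hdeg : W.Ψ₃.degree ≠ 0 := by
    rw [degree_eq_natDegree (ne_zero_of_natDegree_gt (n := 0) (by rw [W.natDegree_Ψ₃ h3]; norm_num)),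
      W.natDegree_Ψ₃ h3]
    norm_num
  obtain ⟨x, hx⟩ := IsAlgClosed.exists_root W.Ψ₃ hdeg
  obtain ⟨s, hs⟩ := IsAlgClosed.exists_eq_mul_self
    (4 * x ^ 3 + W.b₂ * x ^ 2 + 2 * W.b₄ * x + W.b₆)
  have hE : W.Equation x ((s - W.a₁ * x - W.a₃) / 2) := by
    rw [W.equation_iff]
    simp only [WeierstrassCurve.b₂, WeierstrassCurve.b₄, WeierstrassCurve.b₆] at hs
    linear_combination (-1 / 4 : F) * hs
  have hN : W.Nonsingular x ((s - W.a₁ * x - W.a₃) / 2) :=
    (W.equation_iff_nonsingular_of_Δ_ne_zero hΔ).mp hE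
  exact ⟨Point.some _ _ hN, Point.some_ne_zero hN, three_smul_eq_zero_of_eval_Ψ₃ hN hx⟩

/-- `x`-coordinate with junk value `0` at the zero point. -/
def xc (W : WeierstrassCurve.Affine F) : W.Point → F
  | .zero => 0
  | .some x _ _ => x

/-- At most `9` points are killed by `3`. -/
lemma card_three_torsion_le [CharZero F] (s : Finset W.Point) (hs : ∀ P ∈ s, 3 • P = 0) :
    s.card ≤ 9 := by
  classical
  have h3 : (3 : F) ≠ 0 := by norm_num
  have hΨ : W.Ψ₃ ≠ 0 :=
    ne_zero_of_natDegree_gt (n := 0) (by rw [W.natDegree_Ψ₃ h3]; norm_num)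
  have h1 : s.card ≤ (s.erase 0).card + 1 := by
    have := Finset.pred_card_le_card_erase (s := s) (a := (0 : W.Point))
    omega
  have himg : ((s.erase 0).image (xc W)) ⊆ W.Ψ₃.roots.toFinset := by
    intro a ha
    obtain ⟨P, hP, rfl⟩ := Finset.mem_image.mp ha
    have hP0 : P ≠ 0 := (Finset.mem_erase.mp hP).1
    have hP3 := hs P (Finset.mem_erase.mp hP).2
    rcases P with _ | ⟨x, y, h⟩
    · exact absurd rfl hP0
    · rw [Multiset.mem_toFinset, mem_roots hΨ, IsRoot.def]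
      exact eval_Ψ₃_eq_zero_of_three_smul ⟨y, h, rfl⟩ hP3
  have hcard_img : ((s.erase 0).image (xc W)).card ≤ 4 :=
    calc ((s.erase 0).image (xc W)).card ≤ W.Ψ₃.roots.toFinset.card := Finset.card_le_card himg
      _ ≤ Multiset.card W.Ψ₃.roots := Multiset.toFinset_card_le _
      _ ≤ W.Ψ₃.natDegree := W.Ψ₃.card_roots'
      _ ≤ 4 := W.natDegree_Ψ₃_le
  have hfib : ∀ a ∈ (s.erase 0).image (xc W),
      ((s.erase 0).filter (fun P => xc W P = a)).card ≤ 2 := by
    intro a ha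
    obtain ⟨P₀, hP₀, rfl⟩ := Finset.mem_image.mp ha
    have hsub : (s.erase 0).filter (fun P => xc W P = xc W P₀) ⊆ {P₀, -P₀} := by
      intro P hP
      rw [Finset.mem_filter] at hP
      obtain ⟨hPt, hPx⟩ := hP
      have hP0 : P ≠ 0 := (Finset.mem_erase.mp hPt).1
      have hP₀0 : P₀ ≠ 0 := (Finset.mem_erase.mp hP₀).1
      rcases P with _ | ⟨x, y, h⟩
      · exact absurd rfl hP0
      rcases P₀ with _ | ⟨x₀, y₀, h₀⟩
      · exact absurd rfl hP₀0
      have hxx : x = x₀ := hPx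
      rcases (Point.X_eq_iff (h₁ := h) (h₂ := h₀)).mp hxx with e | e
      · simp [e]
      · simp [e]
    exact (Finset.card_le_card hsub).trans Finset.card_le_two
  have h2 := Finset.card_le_mul_card_image (s.erase 0) 2 hfib
  omega

/-- The `3`-torsion has at most `9` elements. -/
lemma natCard_torsionBy_three_le [CharZero F] (W : WeierstrassCurve.Affine F) :
    Nat.card (Submodule.torsionBy ℤ W.Point ((3 : ℕ) : ℤ)) ≤ 9 := by
  classical
  have hfin : Finite (Submodule.torsionBy ℤ W.Point ((3 : ℕ) : ℤ)) :=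
    finite_torsionBy_of_odd W (by decide)
  let _ := Fintype.ofFinite (Submodule.torsionBy ℤ W.Point ((3 : ℕ) : ℤ))
  rw [Nat.card_eq_fintype_card, ← Finset.card_univ,
    ← Finset.card_map ⟨Subtype.val, Subtype.val_injective⟩]
  apply card_three_torsion_le
  intro P hP
  obtain ⟨Q, -, rfl⟩ := Finset.mem_map.mp hP
  have h : ((3 : ℕ) : ℤ) • (Q : W.Point) = 0 := (Submodule.mem_torsionBy_iff _ _).mp Q.2
  rw [natCast_zsmul] at h
  exact h

end Field

section Line

lemma zmod_three_cases : ∀ c : ZMod 3, c = 0 ∨ c = 1 ∨ c = -1 := by decide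

/-- In a `ZMod 3`-module with at most `9` elements, a proper nonzero submodule is a line. -/
lemma exists_line {V : Type*} [AddCommGroup V] [Module (ZMod 3) V] [Finite V]
    (hV : Nat.card V ≤ 9) (N : Submodule (ZMod 3) V) (hbot : N ≠ ⊥) (htop : N ≠ ⊤) :
    ∃ P ∈ N, P ≠ 0 ∧ ∀ Q ∈ N, Q = 0 ∨ Q = P ∨ Q = -P := by
  have hp3 : Fact (Nat.Prime 3) := ⟨by norm_num⟩
  have hfr : Module.finrank (ZMod 3) V ≤ 2 := by
    have h := Module.natCard_eq_pow_finrank (K := ZMod 3) (V := V)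
    rw [Nat.card_zmod] at h
    by_contra hlt
    rw [not_le] at hlt
    have h27 : 3 ^ 3 ≤ 3 ^ Module.finrank (ZMod 3) V := Nat.pow_le_pow_right (by norm_num) hlt
    omega
  have hN1 : Module.finrank (ZMod 3) N < Module.finrank (ZMod 3) V := Submodule.finrank_lt htop
  have hN0 : 0 < Module.finrank (ZMod 3) N := by
    rw [Module.finrank_pos_iff_exists_ne_zero]
    obtain ⟨x, hx, hx0⟩ := (Submodule.ne_bot_iff N).mp hbot
    exact ⟨⟨x, hx⟩, fun h => hx0 (congrArg Subtype.val h)⟩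
  have hN : Module.finrank (ZMod 3) N = 1 := by omega
  obtain ⟨v, hv0, hv⟩ := finrank_eq_one_iff'.mp hN
  refine ⟨v, v.2, fun h => hv0 (Subtype.ext h), fun Q hQ => ?_⟩
  obtain ⟨c, hc⟩ := hv ⟨Q, hQ⟩
  have hc' : c • (v : V) = Q := congrArg Subtype.val hc
  rcases zmod_three_cases c with rfl | rfl | rfl
  · left; rw [← hc', zero_smul]
  · right; left; rw [← hc', one_smul]
  · right; right; rw [← hc', neg_smul, one_smul]

end Line

section Galois

open scoped WeierstrassCurve.Affine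

lemma isGalois_rat_algClosure : IsGalois ℚ (AlgebraicClosure ℚ) := by
  have h : @IsGalois ℚ _ (AlgebraicClosure ℚ) _ (AlgebraicClosure.instAlgebra ℚ) := inferInstance
  have e : (AlgebraicClosure.instAlgebra ℚ : Algebra ℚ (AlgebraicClosure ℚ)) =
      DivisionRing.toRatAlgebra := Subsingleton.elim _ _
  rw [e] at h
  exact h

/-- An element of `AlgebraicClosure ℚ` fixed by the whole Galois group is rational. -/
lemma galois_fixed_rational (x : AlgebraicClosure ℚ)
    (hx : ∀ σ : AlgebraicClosure ℚ ≃ₐ[ℚ] AlgebraicClosure ℚ, σ x = x) :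
    ∃ q : ℚ, algebraMap ℚ (AlgebraicClosure ℚ) q = x := by
  have := isGalois_rat_algClosure
  have hmem : x ∈ (⊥ : IntermediateField ℚ (AlgebraicClosure ℚ)) :=
    (InfiniteGalois.mem_bot_iff_fixed x).mpr hx
  exact IntermediateField.mem_bot.mp hmem

/-- The Galois action on an affine point acts on the `x`-coordinate. -/
lemma hasX_smul (E : WeierstrassCurve ℚ) (σ : AlgebraicClosure ℚ ≃ₐ[ℚ] AlgebraicClosure ℚ)
    {P : (E⁄(AlgebraicClosure ℚ)).Point} {x : AlgebraicClosure ℚ}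
    (h : HasX (E⁄(AlgebraicClosure ℚ)) P x) :
    HasX (E⁄(AlgebraicClosure ℚ)) (σ • P) (σ x) := by
  obtain ⟨y, hy, rfl⟩ := h
  rw [Point.algEquiv_smul_def, Point.map_some]
  exact ⟨_, _, rfl⟩

theorem three_nontrivial (E : WeierstrassCurve ℚ) (hΔ : E.Δ ≠ 0) :
    Nontrivial (Submodule.torsionBy ℤ (E⁄(AlgebraicClosure ℚ)).Point ((3 : ℕ) : ℤ)) := by
  have hΔ' : (E⁄(AlgebraicClosure ℚ)).Δ ≠ 0 := by
    change (E.map (algebraMap ℚ (AlgebraicClosure ℚ))).Δ ≠ 0
    rw [WeierstrassCurve.map_Δ]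
    exact (_root_.map_ne_zero _).mpr hΔ
  obtain ⟨P, hP0, hP3⟩ := exists_three_torsion (W := E⁄(AlgebraicClosure ℚ)) hΔ'
  refine ⟨⟨⟨P, ?_⟩, 0, ?_⟩⟩
  · rw [Submodule.mem_torsionBy_iff, natCast_zsmul]
    exact hP3
  · intro h
    exact hP0 (congrArg Subtype.val h)

/-- If the mod-`3` representation is reducible, then `Ψ₃` has a rational root. -/
theorem three_structure (E : WeierstrassCurve ℚ) (hΔ : E.Δ ≠ 0)
    (hirr : ¬ Point.GaloisRepIsIrreducible (K := AlgebraicClosure ℚ) ℚ E 3) :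
    ∃ x₀ : ℚ, 3 * x₀ ^ 4 + E.b₂ * x₀ ^ 3 + 3 * E.b₄ * x₀ ^ 2 + 3 * E.b₆ * x₀ + E.b₈ = 0 := by
  unfold Point.GaloisRepIsIrreducible at hirr
  rw [not_and] at hirr
  have hex := hirr (three_nontrivial E hΔ)
  rw [not_forall] at hex
  obtain ⟨N, hN⟩ := hex
  rw [Classical.not_imp, not_or] at hN
  obtain ⟨hstable, hbot, htop⟩ := hN
  have hfin : Finite (Submodule.torsionBy ℤ (E⁄(AlgebraicClosure ℚ)).Point ((3 : ℕ) : ℤ)) :=
    finite_torsionBy_of_odd _ (by decide)
  obtain ⟨P, hPN, hP0, hline⟩ :=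
    exists_line (natCard_torsionBy_three_le (E⁄(AlgebraicClosure ℚ))) N hbot htop
  obtain ⟨P', hP'⟩ := P
  have hP'0 : P' ≠ 0 := fun h0 => hP0 (Subtype.ext h0)
  have hP'3 : 3 • P' = 0 := by
    have h : ((3 : ℕ) : ℤ) • P' = 0 := (Submodule.mem_torsionBy_iff _ _).mp hP'
    rw [natCast_zsmul] at h
    exact h
  rcases P' with _ | ⟨x, y, h⟩
  · exact absurd rfl hP'0
  have hX : HasX (E⁄(AlgebraicClosure ℚ)) (Point.some x y h) x := ⟨y, h, rfl⟩
  have hfix : ∀ σ : AlgebraicClosure ℚ ≃ₐ[ℚ] AlgebraicClosure ℚ, σ x = x := by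
    intro σ
    have hσ := hstable σ _ hPN
    have key := hasX_smul E σ hX
    rcases hline _ hσ with h0 | h1 | h1
    · exfalso
      have h0' : σ • (Point.some x y h : (E⁄(AlgebraicClosure ℚ)).Point) = 0 :=
        congrArg Subtype.val h0
      exact key.ne_zero h0'
    · have h1' : σ • (Point.some x y h : (E⁄(AlgebraicClosure ℚ)).Point) = Point.some x y h :=
        congrArg Subtype.val h1
      rw [h1'] at key
      exact key.unique hX
    · have h1' : σ • (Point.some x y h : (E⁄(AlgebraicClosure ℚ)).Point) = -Point.some x y h :=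
        congrArg Subtype.val h1
      rw [h1'] at key
      exact key.unique ⟨_, _, Point.neg_some h⟩
  obtain ⟨q, rfl⟩ := galois_fixed_rational x hfix
  refine ⟨q, ?_⟩
  have hroot := eval_Ψ₃_eq_zero_of_three_smul hX hP'3
  change (E.map (algebraMap ℚ (AlgebraicClosure ℚ))).Ψ₃.eval _ = 0 at hroot
  rw [WeierstrassCurve.map_Ψ₃, Polynomial.eval_map_apply, map_eq_zero, eval_Ψ₃] at hroot
  exact hroot

end Galois

end Fermat.Agent.S51.Three
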