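import Mathlib

set_option autoImplicit false

namespace Fermat.Agent.S51.Descent124

/-- If `N * D^2` is a square and `D ≠ 0` then `N` is a square. -/
theorem sq_of_mul_sq {N D M : ℤ} (hD : D ≠ 0) (h : N * D ^ 2 = M ^ 2) : ∃ k : ℤ, N = k ^ 2 := by
  have hdvd : D ∣ M := by
    have h2 : D ^ 2 ∣ M ^ 2 := ⟨N, by rw [← h]; ring⟩
    exact (Int.pow_dvd_pow_iff (by norm_num)).mp h2
  obtain ⟨k, rfl⟩ := hdvd
  refine ⟨k, ?_⟩
  have hD2 : D ^ 2 ≠ 0 := pow_ne_zero 2 hD
  have : N * D ^ 2 = k ^ 2 * D ^ 2 := by rw [h]; ring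
  exact mul_right_cancel₀ hD2 this

/-- No square is `-(nonzero square)` modulo 3. -/
theorem zmod3_aux : ∀ x y : ZMod 3, y ≠ 0 → x ^ 2 ≠ -(y ^ 2) := by decide

/-- Coprime case: `a > 0`, coprime to `b` and to `e`, and `a (c a - b)(a - e b)` a square
implies `a` is a square. -/
theorem sq_of_coprime_case {a b n c e : ℤ} (ha : 0 < a) (hab : IsCoprime a b) (hae : IsCoprime a e)
    (h : n ^ 2 = a * (c * a - b) * (a - e * b)) : ∃ u : ℤ, a = u ^ 2 := by
  have h1 : IsCoprime a (c * a - b) := by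
    have : IsCoprime a (-b) := hab.neg_right
    have h2 : IsCoprime a (-b + c * a) := this.add_mul_right_right c
    have h3 : -b + c * a = c * a - b := by ring
    rwa [h3] at h2
  have h2 : IsCoprime a (a - e * b) := by
    have : IsCoprime a (e * b) := hae.mul_right hab
    have h3 : IsCoprime a (-(e * b)) := this.neg_right
    have h4 : IsCoprime a (-(e * b) + 1 * a) := h3.add_mul_right_right 1
    have h5 : -(e * b) + 1 * a = a - e * b := by ring
    rwa [h5] at h4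
  have h3 : IsCoprime a ((c * a - b) * (a - e * b)) := h1.mul_right h2
  have h4 : a * ((c * a - b) * (a - e * b)) = n ^ 2 := by rw [h]; ring
  obtain ⟨u, hu | hu⟩ := Int.sq_of_isCoprime h3 h4
  · exact ⟨u, hu⟩
  · exfalso
    have : 0 ≤ u ^ 2 := sq_nonneg u
    omega

/-- Bad case: contradiction modulo 3. -/
theorem false_of_three_case {a b d n c e : ℤ} (ha : ¬ (3 : ℤ) ∣ a) (hd : ¬ (3 : ℤ) ∣ d)
    (hb : b = d ^ 2) (hc : (3 : ℤ) ∣ c) (he : (3 : ℤ) ∣ e)
    (h : n ^ 2 = a * (c * a - b) * (a - e * b)) : False := by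
  have hc0 : (c : ZMod 3) = 0 := (ZMod.intCast_zmod_eq_zero_iff_dvd c 3).mpr hc
  have he0 : (e : ZMod 3) = 0 := (ZMod.intCast_zmod_eq_zero_iff_dvd e 3).mpr he
  have ha0 : (a : ZMod 3) ≠ 0 := fun h0 => ha ((ZMod.intCast_zmod_eq_zero_iff_dvd a 3).mp h0)
  have hd0 : (d : ZMod 3) ≠ 0 := fun h0 => hd ((ZMod.intCast_zmod_eq_zero_iff_dvd d 3).mp h0)
  have h' := congrArg (Int.cast : ℤ → ZMod 3) h
  push_cast at h'
  rw [hc0, he0, hb] at h'
  push_cast at h'
  have h2 : (n : ZMod 3) ^ 2 = -(((a : ZMod 3) * (d : ZMod 3)) ^ 2) := by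
    rw [h']; ring
  exact zmod3_aux _ _ (mul_ne_zero ha0 hd0) h2

theorem coprime_three_of_not_dvd {a : ℤ} (h : ¬ (3 : ℤ) ∣ a) : IsCoprime a 3 := by
  have hp : Prime (3 : ℤ) := Int.prime_three
  exact ((hp.coprime_iff_not_dvd).mpr h).symm

/-- Step 2: the first factor is a square. -/
theorem first_sq {a b d n : ℤ} (ha : 0 < a) (hab : IsCoprime a b) (hb : b = d ^ 2)
    (h : n ^ 2 = a * (a - b) * (a - 81 * b)) : ∃ u : ℤ, a = u ^ 2 := by
  by_cases h3 : (3 : ℤ) ∣ a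
  swap
  · -- 3 ∤ a
    have hc : IsCoprime a 81 := by
      have := (coprime_three_of_not_dvd h3).pow_right (n := 4)
      norm_num at this
      exact this
    exact sq_of_coprime_case (c := 1) (e := 81) ha hab hc (by rw [h]; ring)
  -- 3 ∣ a, hence 3 ∤ d
  have hd3 : ¬ (3 : ℤ) ∣ d := by
    intro hd
    have hb3 : (3 : ℤ) ∣ b := by rw [hb]; exact dvd_pow hd (by norm_num)
    have : IsUnit (3 : ℤ) := hab.isUnit_of_dvd' h3 hb3
    rw [Int.isUnit_iff] at this
    omega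
  obtain ⟨a1, rfl⟩ := h3
  have hab1 : IsCoprime a1 b := hab.of_mul_left_right
  have ha1 : 0 < a1 := by omega
  -- n = 3 n1
  have hn3 : (3 : ℤ) ∣ n := by
    have : (3 : ℤ) ∣ n ^ 2 := ⟨a1 * (3 * a1 - b) * (3 * a1 - 81 * b), by rw [h]; ring⟩
    exact Int.prime_three.dvd_of_dvd_pow this
  obtain ⟨n1, rfl⟩ := hn3
  have h1 : n1 ^ 2 = a1 * (3 * a1 - b) * (a1 - 27 * b) := by nlinarith [h]
  by_cases h3a : (3 : ℤ) ∣ a1
  swap
  · exact (false_of_three_case (c := 3) (e := 27) h3a hd3 hb (by norm_num) (by norm_num) h1).elim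
  obtain ⟨a2, rfl⟩ := h3a
  have hab2 : IsCoprime a2 b := hab1.of_mul_left_right
  have ha2 : 0 < a2 := by omega
  have hn3 : (3 : ℤ) ∣ n1 := by
    have : (3 : ℤ) ∣ n1 ^ 2 := ⟨a2 * (9 * a2 - b) * (3 * a2 - 27 * b), by rw [h1]; ring⟩
    exact Int.prime_three.dvd_of_dvd_pow this
  obtain ⟨n2, rfl⟩ := hn3
  have h2 : n2 ^ 2 = a2 * (9 * a2 - b) * (a2 - 9 * b) := by nlinarith [h1]
  by_cases h3b : (3 : ℤ) ∣ a2
  swap
  · have hc : IsCoprime a2 9 := by
      have := (coprime_three_of_not_dvd h3b).pow_right (n := 2)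
      norm_num at this
      exact this
    obtain ⟨u, hu⟩ := sq_of_coprime_case (c := 9) (e := 9) ha2 hab2 hc h2
    exact ⟨3 * u, by rw [hu]; ring⟩
  obtain ⟨a3, rfl⟩ := h3b
  have hab3 : IsCoprime a3 b := hab2.of_mul_left_right
  have ha3 : 0 < a3 := by omega
  have hn3 : (3 : ℤ) ∣ n2 := by
    have : (3 : ℤ) ∣ n2 ^ 2 := ⟨a3 * (27 * a3 - b) * (3 * a3 - 9 * b), by rw [h2]; ring⟩
    exact Int.prime_three.dvd_of_dvd_pow this
  obtain ⟨n3, rfl⟩ := hn3
  have h3e : n3 ^ 2 = a3 * (27 * a3 - b) * (a3 - 3 * b) := by nlinarith [h2]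
  by_cases h3c : (3 : ℤ) ∣ a3
  swap
  · exact (false_of_three_case (c := 27) (e := 3) h3c hd3 hb (by norm_num) (by norm_num) h3e).elim
  obtain ⟨a4, rfl⟩ := h3c
  have hab4 : IsCoprime a4 b := hab3.of_mul_left_right
  have ha4 : 0 < a4 := by omega
  have hn3 : (3 : ℤ) ∣ n3 := by
    have : (3 : ℤ) ∣ n3 ^ 2 := ⟨a4 * (81 * a4 - b) * (3 * a4 - 3 * b), by rw [h3e]; ring⟩
    exact Int.prime_three.dvd_of_dvd_pow this
  obtain ⟨n4, rfl⟩ := hn3
  have h4 : n4 ^ 2 = a4 * (81 * a4 - b) * (a4 - 1 * b) := by nlinarith [h3e]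
  obtain ⟨u, hu⟩ := sq_of_coprime_case (c := 81) (e := 1) ha4 hab4 isCoprime_one_right h4
  exact ⟨9 * u, by rw [hu]; ring⟩

/-- Squares are `0` or `1` modulo `4`. -/
theorem sq_mod_four (x : ℤ) : x ^ 2 % 4 = 0 ∨ x ^ 2 % 4 = 1 := by
  rcases Int.even_or_odd' x with ⟨k, rfl | rfl⟩
  · left
    have : (2 * k) ^ 2 = 4 * k ^ 2 := by ring
    rw [this]; omega
  · right
    have : (2 * k + 1) ^ 2 = 4 * (k ^ 2 + k) + 1 := by ring
    rw [this]; omega

theorem two_adic_aux (D X Y s : ℤ) (hs : s = 1 ∨ s = -1 ∨ s = 5 ∨ s = -5)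
    (hX : X % 4 = 0 ∨ X % 4 = 1) (hY : Y % 4 = 0 ∨ Y % 4 = 1)
    (h : 80 * D + 10 = s * (X - Y)) : False := by
  rcases hs with rfl | rfl | rfl | rfl <;> omega

theorem par_aux1 (k2 l2 l T : ℤ) (h : 2 * (2 * k2 - 2 * l2 - 2 * l) - 1 = 2 * T) : False := by
  omega

theorem par_aux2 (k2 k l2 T : ℤ) (h : 2 * (2 * k2 + 2 * k - 2 * l2) + 1 = 2 * T) : False := by
  omega

theorem odd_aux (s K X x : ℤ) (hs : s = 1 ∨ s = -1 ∨ s = 5 ∨ s = -5)
    (h : 4 * K = s * (4 * X + 4 * x + 1)) : False := by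
  rcases hs with rfl | rfl | rfl | rfl <;> omega

/-- The classes `±2`, `±10` are impossible (2-adic obstruction). -/
theorem no_even_class {u d v w s : ℤ} (hs : s = 1 ∨ s = -1 ∨ s = 5 ∨ s = -5)
    (hud : IsCoprime u d) (h1 : u ^ 2 - d ^ 2 = 2 * (s * v ^ 2))
    (h2 : u ^ 2 - 81 * d ^ 2 = 2 * (s * w ^ 2)) : False := by
  rcases Int.even_or_odd' u with ⟨k, rfl | rfl⟩ <;> rcases Int.even_or_odd' d with ⟨l, rfl | rfl⟩
  · have : IsUnit (2 : ℤ) := hud.isUnit_of_dvd' (dvd_mul_right 2 k) (dvd_mul_right 2 l)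
    rw [Int.isUnit_iff] at this
    omega
  · exact par_aux1 (k ^ 2) (l ^ 2) l (s * v ^ 2) (by linear_combination h1)
  · exact par_aux2 (k ^ 2) k (l ^ 2) (s * v ^ 2) (by linear_combination h1)
  · obtain ⟨K, hK⟩ := Int.even_mul_succ_self k
    obtain ⟨L, hL⟩ := Int.even_mul_succ_self l
    -- v even
    rcases Int.even_or_odd' v with ⟨v2, rfl | rfl⟩
    swap
    · exact odd_aux s (K - L) (v2 ^ 2) v2 hs (by linarith [h1, hK, hL])
    rcases Int.even_or_odd' w with ⟨w2, rfl | rfl⟩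
    swap
    · exact odd_aux s (K - 81 * L - 10) (w2 ^ 2) w2 hs
        (by linarith [h2, hK, hL])
    exact two_adic_aux L (v2 ^ 2) (w2 ^ 2) s hs (sq_mod_four v2) (sq_mod_four w2)
      (by linarith [h1, h2, hK, hL])

theorem dvd_eighty (g : ℕ) (h : g ∣ 80) :
    g = 1 ∨ g = 2 ∨ g = 4 ∨ g = 5 ∨ g = 8 ∨ g = 10 ∨ g = 16 ∨ g = 20 ∨ g = 40 ∨ g = 80 := by
  have h1 : g ≤ 80 := Nat.le_of_dvd (by norm_num) h
  interval_cases g <;> simp_all

/-- Two integers with square product and difference `80 b`, the first coprime to `b`,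
are both `δ` times a square with `δ ∈ {±1, ±2, ±5, ±10}`. -/
theorem class8 {c c' b n : ℤ} (hn : n ≠ 0) (hcb : IsCoprime c b) (hdiff : c - c' = 80 * b)
    (h : c * c' = n ^ 2) :
    ∃ δ v w : ℤ, c = δ * v ^ 2 ∧ c' = δ * w ^ 2 ∧
      (δ = 1 ∨ δ = -1 ∨ δ = 2 ∨ δ = -2 ∨ δ = 5 ∨ δ = -5 ∨ δ = 10 ∨ δ = -10) := by
  have hc0 : c ≠ 0 := by
    rintro rfl
    apply hn
    have : n ^ 2 = 0 := by rw [← h]; ring
    exact pow_eq_zero_iff (by norm_num) |>.mp this
  have hgpos : 0 < Int.gcd c c' := Int.gcd_pos_of_ne_zero_left _ hc0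
  obtain ⟨c1, c1', hcop, hc, hc'⟩ := Int.exists_gcd_one hgpos
  set g : ℕ := Int.gcd c c' with hg
  have hg0 : (g : ℤ) ≠ 0 := by exact_mod_cast hgpos.ne'
  -- g ∣ 80
  have hgdvd : g ∣ 80 := by
    have h1 : (g : ℤ) ∣ c := Int.gcd_dvd_left c c'
    have h2 : (g : ℤ) ∣ c' := Int.gcd_dvd_right c c'
    have h3 : (g : ℤ) ∣ 80 * b := by rw [← hdiff]; exact dvd_sub h1 h2
    have h4 : IsCoprime (g : ℤ) b := IsCoprime.of_isCoprime_of_dvd_left hcb h1
    have h5 : (g : ℤ) ∣ 80 := h4.dvd_of_dvd_mul_right h3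
    exact_mod_cast h5
  -- c1 * c1' is a square
  have hprod : (c1 * c1') * (g : ℤ) ^ 2 = n ^ 2 := by rw [← h, hc, hc']; ring
  obtain ⟨n2, hn2⟩ := sq_of_mul_sq hg0 hprod
  have hn20 : n2 ≠ 0 := by
    rintro rfl
    apply hn
    have : n ^ 2 = 0 := by rw [← hprod, hn2]; ring
    exact pow_eq_zero_iff (by norm_num) |>.mp this
  have hcop' : Int.gcd c1' c1 = 1 := by rw [Int.gcd_comm]; exact hcop
  obtain ⟨v1, hv1⟩ := Int.sq_of_gcd_eq_one hcop hn2
  obtain ⟨w1, hw1⟩ := Int.sq_of_gcd_eq_one hcop' (by rw [mul_comm]; exact hn2)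
  have hn2pos : 0 < n2 ^ 2 := by positivity
  -- same sign
  have hsign : ∃ ε : ℤ, (ε = 1 ∨ ε = -1) ∧ c1 = ε * v1 ^ 2 ∧ c1' = ε * w1 ^ 2 := by
    rcases hv1 with hv1 | hv1 <;> rcases hw1 with hw1 | hw1
    · exact ⟨1, Or.inl rfl, by rw [hv1]; ring, by rw [hw1]; ring⟩
    · exfalso
      rw [hv1, hw1] at hn2
      nlinarith [sq_nonneg (v1 * w1)]
    · exfalso
      rw [hv1, hw1] at hn2
      nlinarith [sq_nonneg (v1 * w1)]
    · exact ⟨-1, Or.inr rfl, by rw [hv1]; ring, by rw [hw1]; ring⟩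
  obtain ⟨ε, hε, hc1, hc1'⟩ := hsign
  have key : ∀ s t : ℤ, (g : ℤ) = s * t ^ 2 →
      c = (ε * s) * (t * v1) ^ 2 ∧ c' = (ε * s) * (t * w1) ^ 2 := by
    intro s t hst
    constructor
    · rw [hc, hc1, hst]; ring
    · rw [hc', hc1', hst]; ring
  rcases dvd_eighty g hgdvd with h1 | h1 | h1 | h1 | h1 | h1 | h1 | h1 | h1 | h1
  · obtain ⟨k1, k2⟩ := key 1 1 (by rw [h1]; norm_num)
    refine ⟨ε * 1, _, _, k1, k2, ?_⟩
    rcases hε with rfl | rfl <;> simp
  · obtain ⟨k1, k2⟩ := key 2 1 (by rw [h1]; norm_num)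
    refine ⟨ε * 2, _, _, k1, k2, ?_⟩
    rcases hε with rfl | rfl <;> simp
  · obtain ⟨k1, k2⟩ := key 1 2 (by rw [h1]; norm_num)
    refine ⟨ε * 1, _, _, k1, k2, ?_⟩
    rcases hε with rfl | rfl <;> simp
  · obtain ⟨k1, k2⟩ := key 5 1 (by rw [h1]; norm_num)
    refine ⟨ε * 5, _, _, k1, k2, ?_⟩
    rcases hε with rfl | rfl <;> simp
  · obtain ⟨k1, k2⟩ := key 2 2 (by rw [h1]; norm_num)
    refine ⟨ε * 2, _, _, k1, k2, ?_⟩
    rcases hε with rfl | rfl <;> simp
  · obtain ⟨k1, k2⟩ := key 10 1 (by rw [h1]; norm_num)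
    refine ⟨ε * 10, _, _, k1, k2, ?_⟩
    rcases hε with rfl | rfl <;> simp
  · obtain ⟨k1, k2⟩ := key 1 4 (by rw [h1]; norm_num)
    refine ⟨ε * 1, _, _, k1, k2, ?_⟩
    rcases hε with rfl | rfl <;> simp
  · obtain ⟨k1, k2⟩ := key 5 2 (by rw [h1]; norm_num)
    refine ⟨ε * 5, _, _, k1, k2, ?_⟩
    rcases hε with rfl | rfl <;> simp
  · obtain ⟨k1, k2⟩ := key 10 2 (by rw [h1]; norm_num)
    refine ⟨ε * 10, _, _, k1, k2, ?_⟩
    rcases hε with rfl | rfl <;> simp
  · obtain ⟨k1, k2⟩ := key 5 4 (by rw [h1]; norm_num)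
    refine ⟨ε * 5, _, _, k1, k2, ?_⟩
    rcases hε with rfl | rfl <;> simp

/-- Lemma C (2-descent classification on `y² = x (x - 1) (x - 81)`). -/
theorem classify {a b m : ℤ} (hb : 0 < b) (hab : IsCoprime a b) (hm : m ≠ 0)
    (h : a * b * (a - b) * (a - 81 * b) = m ^ 2) :
    ∃ u d v w δ : ℤ, u ≠ 0 ∧ d ≠ 0 ∧ v ≠ 0 ∧ w ≠ 0 ∧ a = u ^ 2 ∧ b = d ^ 2 ∧
      a - b = δ * v ^ 2 ∧ a - 81 * b = δ * w ^ 2 ∧ (δ = 1 ∨ δ = -1 ∨ δ = 5 ∨ δ = -5) := by
  -- Step 1: b is a square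
  have hb1 : IsCoprime b (a - b) := by
    have h1 : IsCoprime b (a + (-1) * b) := hab.symm.add_mul_right_right (-1)
    have h2 : a + (-1) * b = a - b := by ring
    rwa [h2] at h1
  have hb2 : IsCoprime b (a - 81 * b) := by
    have h1 : IsCoprime b (a + (-81) * b) := hab.symm.add_mul_right_right (-81)
    have h2 : a + (-81) * b = a - 81 * b := by ring
    rwa [h2] at h1
  have hb3 : IsCoprime b (a * (a - b) * (a - 81 * b)) := (hab.symm.mul_right hb1).mul_right hb2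
  have hprod : b * (a * (a - b) * (a - 81 * b)) = m ^ 2 := by rw [← h]; ring
  obtain ⟨d, hd | hd⟩ := Int.sq_of_isCoprime hb3 hprod
  swap
  · exfalso
    have : 0 ≤ d ^ 2 := sq_nonneg d
    omega
  have hd0 : d ≠ 0 := by
    rintro rfl
    norm_num at hd
    omega
  have hprod2 : (a * (a - b) * (a - 81 * b)) * d ^ 2 = m ^ 2 := by rw [← hprod, hd]; ring
  obtain ⟨n, hn⟩ := sq_of_mul_sq hd0 hprod2
  have hn0 : n ≠ 0 := by
    rintro rfl
    apply hm
    have : m ^ 2 = 0 := by rw [← hprod2, hn]; ring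
    exact pow_eq_zero_iff (by norm_num) |>.mp this
  have hnpos : 0 < n ^ 2 := by positivity
  -- Step 2: a > 0
  have ha : 0 < a := by
    by_contra hcon
    have ha' : a ≤ 0 := not_lt.mp hcon
    have h1 : a - b < 0 := by omega
    have h2 : a - 81 * b < 0 := by omega
    have h3 : 0 < (a - b) * (a - 81 * b) := mul_pos_of_neg_of_neg h1 h2
    have h4 : a * ((a - b) * (a - 81 * b)) ≤ 0 := mul_nonpos_of_nonpos_of_nonneg ha' h3.le
    have h5 : a * (a - b) * (a - 81 * b) = a * ((a - b) * (a - 81 * b)) := by ring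
    rw [h5] at hn
    omega
  obtain ⟨u, hu⟩ := first_sq ha hab hd hn.symm
  have hu0 : u ≠ 0 := by
    rintro rfl
    norm_num at hu
    omega
  -- Step 3
  have hprod3 : ((a - b) * (a - 81 * b)) * u ^ 2 = n ^ 2 := by rw [← hn, hu]; ring
  obtain ⟨n1, hn1⟩ := sq_of_mul_sq hu0 hprod3
  have hn10 : n1 ≠ 0 := by
    rintro rfl
    apply hn0
    have : n ^ 2 = 0 := by rw [← hprod3, hn1]; ring
    exact pow_eq_zero_iff (by norm_num) |>.mp this
  obtain ⟨δ, v, w, hv, hw, hδ⟩ := class8 hn10 hb1.symm (by ring) hn1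
  have hv0 : v ≠ 0 := by
    rintro rfl
    apply hn10
    have : n1 ^ 2 = 0 := by rw [← hn1, hv]; ring
    exact pow_eq_zero_iff (by norm_num) |>.mp this
  have hw0 : w ≠ 0 := by
    rintro rfl
    apply hn10
    have : n1 ^ 2 = 0 := by rw [← hn1, hw]; ring
    exact pow_eq_zero_iff (by norm_num) |>.mp this
  have hud : IsCoprime u d := by
    have : IsCoprime (u ^ 2) (d ^ 2) := by rw [← hu, ← hd]; exact hab
    exact (IsCoprime.pow_iff (by norm_num) (by norm_num)).mp this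
  have hbad : ∀ s : ℤ, (s = 1 ∨ s = -1 ∨ s = 5 ∨ s = -5) → δ = 2 * s → False := by
    intro s hs hδs
    refine no_even_class (v := v) (w := w) hs hud ?_ ?_
    · rw [← hu, ← hd, hv, hδs]; ring
    · rw [← hu, ← hd, hw, hδs]; ring
  refine ⟨u, d, v, w, δ, hu0, hd0, hv0, hw0, hu, hd, hv, hw, ?_⟩
  rcases hδ with h1 | h1 | h1 | h1 | h1 | h1 | h1 | h1
  · exact Or.inl h1
  · exact Or.inr (Or.inl h1)
  · exact (hbad 1 (by norm_num) (by rw [h1]; norm_num)).elim
  · exact (hbad (-1) (by norm_num) (by rw [h1]; norm_num)).elim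
  · exact Or.inr (Or.inr (Or.inl h1))
  · exact Or.inr (Or.inr (Or.inr h1))
  · exact (hbad 5 (by norm_num) (by rw [h1]; norm_num)).elim
  · exact (hbad (-5) (by norm_num) (by rw [h1]; norm_num)).elim

/-- One descent step on the system `U² - D² = V²`, `U² - 81 D² = W²`. -/
theorem descent_step {U D V W : ℤ} (hU : 0 < U) (hD : 0 < D) (hV : 0 < V) (hW : 0 < W)
    (h1 : U ^ 2 - D ^ 2 = V ^ 2) (h2 : U ^ 2 - 81 * D ^ 2 = W ^ 2) :
    ∃ U' D' V' W' : ℤ, U' ≠ 0 ∧ D' ≠ 0 ∧ V' ≠ 0 ∧ W' ≠ 0 ∧ U' ^ 2 - D' ^ 2 = V' ^ 2 ∧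
      U' ^ 2 - 81 * D' ^ 2 = W' ^ 2 ∧ |U'| < U := by
  have hVU : V < U := by nlinarith
  have hWV : W < V := by nlinarith
  -- size facts
  have hD2 : U + V ≤ D ^ 2 := by nlinarith
  have hU9 : 9 * D < U := by nlinarith
  have hD10 : 10 ≤ D := by
    by_contra hcon
    have : D ≤ 9 := by omega
    nlinarith
  have hU91 : 91 ≤ U := by omega
  -- the new point
  obtain ⟨A, hA⟩ : ∃ A : ℤ, A = U + W := ⟨_, rfl⟩
  obtain ⟨B, hB⟩ : ∃ B : ℤ, B = U - V := ⟨_, rfl⟩
  have hApos : 0 < A := by omega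
  have hBpos : 0 < B := by omega
  have hAB : A - B = V + W := by rw [hA, hB]; ring
  have hid : (A - 81 * B) * (U + V) = (U + W) * (V + W) := by
    rw [hA, hB]; nlinarith
  have hA81 : 0 < A - 81 * B := by
    have h3 : 0 < (U + W) * (V + W) := by positivity
    rw [← hid] at h3
    by_contra hc
    have h4 : (A - 81 * B) * (U + V) ≤ 0 :=
      mul_nonpos_of_nonpos_of_nonneg (not_lt.mp hc) (by omega)
    omega
  have hDsq : D ^ 2 = B * (U + V) := by rw [hB]; linear_combination -h1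
  have hND : (A * B * (A - B) * (A - 81 * B)) * D ^ 2 = (B * (U + W) * (V + W)) ^ 2 := by
    have e1 : (A - 81 * B) * D ^ 2 = B * ((U + W) * (V + W)) := by rw [hDsq, ← hid]; ring
    calc (A * B * (A - B) * (A - 81 * B)) * D ^ 2
        = A * B * (A - B) * ((A - 81 * B) * D ^ 2) := by ring
      _ = A * B * (A - B) * (B * ((U + W) * (V + W))) := by rw [e1]
      _ = (B * (U + W) * (V + W)) ^ 2 := by rw [hAB, hA]; ring
  obtain ⟨k, hk⟩ := sq_of_mul_sq hD.ne' hND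
  -- lowest terms
  have hgpos : 0 < Int.gcd A B := Int.gcd_pos_of_ne_zero_left _ hApos.ne'
  obtain ⟨a, b, hcop, hAa, hBb⟩ := Int.exists_gcd_one hgpos
  obtain ⟨g, hg⟩ : ∃ g : ℤ, g = (Int.gcd A B : ℤ) := ⟨_, rfl⟩
  rw [← hg] at hAa hBb
  have hg1 : 1 ≤ g := by rw [hg]; exact_mod_cast hgpos
  have ha : 0 < a := by
    by_contra hc
    have : a * g ≤ 0 := mul_nonpos_of_nonpos_of_nonneg (not_lt.mp hc) (by omega)
    omega
  have hb : 0 < b := by
    by_contra hc
    have : b * g ≤ 0 := mul_nonpos_of_nonpos_of_nonneg (not_lt.mp hc) (by omega)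
    omega
  have hab1 : 0 < a - b := by
    by_contra hc
    have : (a - b) * g ≤ 0 := mul_nonpos_of_nonpos_of_nonneg (not_lt.mp hc) (by omega)
    have e : (a - b) * g = A - B := by rw [hAa, hBb]; ring
    omega
  have hab81 : 0 < a - 81 * b := by
    by_contra hc
    have : (a - 81 * b) * g ≤ 0 := mul_nonpos_of_nonpos_of_nonneg (not_lt.mp hc) (by omega)
    have e : (a - 81 * b) * g = A - 81 * B := by rw [hAa, hBb]; ring
    omega
  have haA : a ≤ A := by rw [hAa]; exact le_mul_of_one_le_right ha.le hg1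
  have hprod : (a * b * (a - b) * (a - 81 * b)) * (g ^ 2) ^ 2 = k ^ 2 := by
    rw [← hk, hAa, hBb]; ring
  obtain ⟨m, hm⟩ := sq_of_mul_sq (pow_ne_zero 2 (by omega : g ≠ 0)) hprod
  have hm0 : m ≠ 0 := by
    rintro rfl
    have h3 : 0 < a * b * (a - b) * (a - 81 * b) := by positivity
    rw [hm] at h3
    norm_num at h3
  have hcop' : IsCoprime a b := Int.isCoprime_iff_gcd_eq_one.mpr hcop
  obtain ⟨u, d, v, w, δ, hu0, hd0, hv0, hw0, hu, hd, hv, hw, hδ⟩ := classify hb hcop' hm0 hm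
  have hv2 : 0 < v ^ 2 := by positivity
  have hUsq : 2 * U ≤ U ^ 2 := by
    have e3 : 0 ≤ U * (U - 91) := mul_nonneg hU.le (sub_nonneg.mpr hU91)
    linarith [e3]
  rcases hδ with rfl | rfl | rfl | rfl
  · -- δ = 1
    refine ⟨u, d, v, w, hu0, hd0, hv0, hw0, by rw [← hu, ← hd, hv]; ring,
      by rw [← hu, ← hd, hw]; ring, ?_⟩
    apply abs_lt_of_sq_lt_sq _ hU.le
    rw [← hu]
    omega
  · exfalso; omega
  · -- δ = 5
    refine ⟨9 * v, w, 4 * u, 36 * d, mul_ne_zero (by norm_num) hv0, hw0,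
      mul_ne_zero (by norm_num) hu0, mul_ne_zero (by norm_num) hd0, ?_, ?_, ?_⟩
    · linarith [hu, hd, hv, hw]
    · linarith [hu, hd, hv, hw]
    · apply abs_lt_of_sq_lt_sq _ hU.le
      have e1 : 5 * (9 * v) ^ 2 = 81 * (a - b) := by rw [hv]; ring
      have e3 : 0 ≤ U * (U - 91) := mul_nonneg hU.le (sub_nonneg.mpr hU91)
      have e2 : 5 * U ^ 2 ≥ 455 * U := by linarith [e3]
      omega
  · exfalso; omega

/-- The system `U² - D² = V²`, `U² - 81 D² = W²` has no solution in nonzero integers. -/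
theorem no_quad (U D V W : ℤ) (hU : U ≠ 0) (hD : D ≠ 0) (hV : V ≠ 0) (hW : W ≠ 0)
    (h1 : U ^ 2 - D ^ 2 = V ^ 2) (h2 : U ^ 2 - 81 * D ^ 2 = W ^ 2) : False := by
  induction' hn : U.natAbs using Nat.strong_induction_on with n ih generalizing U D V W
  obtain ⟨U', D', V', W', hU', hD', hV', hW', h1', h2', hlt⟩ :=
    descent_step (abs_pos.mpr hU) (abs_pos.mpr hD) (abs_pos.mpr hV) (abs_pos.mpr hW)
      (by rw [sq_abs, sq_abs, sq_abs]; exact h1) (by rw [sq_abs, sq_abs, sq_abs]; exact h2)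
  refine ih U'.natAbs ?_ U' D' V' W' hU' hD' hV' hW' h1' h2' rfl
  rw [← hn]
  zify
  exact hlt

/-- **15a2**: the curve `y² = x (x - 1) (x - 81)` has only the points with `y = 0`. -/
theorem rat_points_15a2 (x y : ℚ) (h : y ^ 2 = x * (x - 1) * (x - 81)) : y = 0 := by
  by_contra hy
  obtain ⟨a, ha⟩ : ∃ a : ℤ, a = x.num := ⟨_, rfl⟩
  obtain ⟨b, hb⟩ : ∃ b : ℤ, b = (x.den : ℤ) := ⟨_, rfl⟩
  have hbpos : 0 < b := by rw [hb]; exact_mod_cast x.den_pos
  have hcop : IsCoprime a b := by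
    rw [ha, hb, Int.isCoprime_iff_gcd_eq_one]
    exact x.reduced
  have hb0 : (b : ℚ) ≠ 0 := by exact_mod_cast hbpos.ne'
  have hx : (a : ℚ) = x * b := by
    rw [ha, hb]
    have := Rat.num_div_den x
    push_cast
    field_simp at this ⊢
    exact this.symm ▸ rfl
  have key : ((a * b * (a - b) * (a - 81 * b) : ℤ) : ℚ) = (y * (b : ℚ) ^ 2) * (y * (b : ℚ) ^ 2) := by
    push_cast
    rw [hx]
    linear_combination (-(b : ℚ) ^ 4) * h
  obtain ⟨m, hm⟩ := Rat.isSquare_intCast_iff.mp ⟨y * (b : ℚ) ^ 2, key⟩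
  have hm0 : m ≠ 0 := by
    rintro rfl
    rw [hm] at key
    have h0 : (y * (b : ℚ) ^ 2) * (y * (b : ℚ) ^ 2) = 0 := by rw [← key]; norm_num
    have h1 : y * (b : ℚ) ^ 2 = 0 := mul_self_eq_zero.mp h0
    rcases mul_eq_zero.mp h1 with h2 | h2
    · exact hy h2
    · exact hb0 (pow_eq_zero_iff (by norm_num) |>.mp h2)
  obtain ⟨u, d, v, w, δ, hu0, hd0, hv0, hw0, hu, hd, hv, hw, hδ⟩ :=
    classify hbpos hcop hm0 (by rw [hm]; ring)
  rcases hδ with rfl | rfl | rfl | rfl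
  · exact no_quad u d v w hu0 hd0 hv0 hw0 (by linarith only [hu, hd, hv, hw])
      (by linarith only [hu, hd, hv, hw])
  · exact no_quad (9 * d) u w (9 * v) (mul_ne_zero (by norm_num) hd0) hu0 hw0
      (mul_ne_zero (by norm_num) hv0) (by linarith only [hu, hd, hv, hw])
      (by linarith only [hu, hd, hv, hw])
  · exact no_quad (9 * v) w (4 * u) (36 * d) (mul_ne_zero (by norm_num) hv0) hw0
      (mul_ne_zero (by norm_num) hu0) (mul_ne_zero (by norm_num) hd0)
      (by linarith only [hu, hd, hv, hw]) (by linarith only [hu, hd, hv, hw])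
  · exact no_quad w v (4 * d) (4 * u) hw0 hv0 (mul_ne_zero (by norm_num) hd0)
      (mul_ne_zero (by norm_num) hu0) (by linarith only [hu, hd, hv, hw])
      (by linarith only [hu, hd, hv, hw])

/-- **15a1** (`X₀(15)`): rational points of `y² = x (x + 9) (x - 16)`. -/
theorem rat_points_15a1 (x y : ℚ) (h : y ^ 2 = x * (x + 9) * (x - 16)) :
    x = 0 ∨ x = -9 ∨ x = 16 ∨ x = 36 ∨ x = -4 := by
  by_cases h16 : x = 16
  · right; right; left; exact h16
  have h16' : x - 16 ≠ 0 := sub_ne_zero.mpr h16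
  have e1 : x * (x + 9) / (x - 16) - 1 = (x + 4) ^ 2 / (x - 16) := by field_simp; ring
  have e2 : x * (x + 9) / (x - 16) - 81 = (x - 36) ^ 2 / (x - 16) := by field_simp; ring
  have e3 : (y * (x + 4) * (x - 36) / (x - 16) ^ 2) ^ 2 =
      x * (x + 9) / (x - 16) * (x * (x + 9) / (x - 16) - 1) * (x * (x + 9) / (x - 16) - 81) := by
    rw [e1, e2, div_pow, mul_pow, mul_pow, h]
    field_simp
  have key := rat_points_15a2 _ _ e3
  have key2 : y * (x + 4) * (x - 36) = 0 := by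
    rcases div_eq_zero_iff.mp key with k | k
    · exact k
    · exact absurd (pow_eq_zero_iff (by norm_num) |>.mp k) h16'
  rcases mul_eq_zero.mp key2 with k | k
  · rcases mul_eq_zero.mp k with k | k
    · rw [k] at h
      have h0 : x * (x + 9) * (x - 16) = 0 := by rw [← h]; norm_num
      rcases mul_eq_zero.mp h0 with k | k
      · rcases mul_eq_zero.mp k with k | k
        · left; exact k
        · right; left; linarith
      · exact absurd k h16'
    · right; right; right; right; linarith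
  · right; right; right; left; linarith

/-- **15a3**: rational points of `y² = x (x + 1) (x + 16)`. -/
theorem rat_points_15a3 (x y : ℚ) (h : y ^ 2 = x * (x + 1) * (x + 16)) :
    x = 0 ∨ x = -1 ∨ x = -16 ∨ x = 4 ∨ x = -4 := by
  by_cases h0 : x = 0
  · left; exact h0
  have e1 : (x + 4) ^ 2 / x + 9 = (x + 1) * (x + 16) / x := by field_simp; ring
  have e2 : (x + 4) ^ 2 / x - 16 = (x - 4) ^ 2 / x := by field_simp; ring
  have e3 : (y * (16 - x ^ 2) / x ^ 2) ^ 2 =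
      (x + 4) ^ 2 / x * ((x + 4) ^ 2 / x + 9) * ((x + 4) ^ 2 / x - 16) := by
    rw [e1, e2, div_pow, mul_pow, h]
    field_simp
    ring
  rcases rat_points_15a1 _ _ e3 with k | k | k | k | k
  · -- (x+4)^2 / x = 0
    rcases div_eq_zero_iff.mp k with k | k
    · right; right; right; right
      have := pow_eq_zero_iff (n := 2) (by norm_num) |>.mp k
      linarith
    · exact absurd k h0
  · -- (x+4)^2 / x = -9
    have k2 : (x + 1) * (x + 16) = 0 := by
      have := (div_eq_iff h0).mp k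
      linear_combination this
    rcases mul_eq_zero.mp k2 with k | k
    · right; left; linarith
    · right; right; left; linarith
  · -- (x+4)^2 / x = 16
    have k2 : (x - 4) ^ 2 = 0 := by
      have := (div_eq_iff h0).mp k
      linear_combination this
    right; right; right; left
    have := pow_eq_zero_iff (n := 2) (by norm_num) |>.mp k2
    linarith
  · -- (x+4)^2 / x = 36 : impossible
    exfalso
    have k2 : (180 : ℚ) = (x - 14) * (x - 14) := by
      have := (div_eq_iff h0).mp k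
      linear_combination -this
    have : IsSquare (180 : ℚ) := ⟨_, k2⟩
    norm_num at this
  · -- (x+4)^2 / x = -4 : impossible
    exfalso
    have k2 : (20 : ℚ) = (x + 6) * (x + 6) := by
      have := (div_eq_iff h0).mp k
      linear_combination -this
    have : IsSquare (20 : ℚ) := ⟨_, k2⟩
    norm_num at this

/-- `X₀(15)` in the shape `Y² = X (X - 16) (X + 9)`. -/
theorem rat_points_15a1' (X Y : ℚ) (h : Y ^ 2 = X * (X - 16) * (X + 9)) :
    X = 0 ∨ X = 16 ∨ X = -9 ∨ X = 36 ∨ X = -4 := by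
  rcases rat_points_15a1 X Y (by rw [h]; ring) with k | k | k | k | k
  · exact Or.inl k
  · exact Or.inr (Or.inr (Or.inl k))
  · exact Or.inr (Or.inl k)
  · exact Or.inr (Or.inr (Or.inr (Or.inl k)))
  · exact Or.inr (Or.inr (Or.inr (Or.inr k)))

/-- `X₀(15)` in the shape `π (1 - 4π) (9π + 4) = w²`  (`X = -36 π`). -/
theorem rat_points_pi (π w : ℚ) (h : π * (1 - 4 * π) * (9 * π + 4) = w ^ 2) :
    π = 0 ∨ π = 1 / 4 ∨ π = -4 / 9 ∨ π = -1 ∨ π = 1 / 9 := by
  rcases rat_points_15a1 (-36 * π) (36 * w) (by linear_combination (-1296 : ℚ) * h)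
    with k | k | k | k | k
  · left; linarith
  · right; left; linarith
  · right; right; left; linarith
  · right; right; right; left; linarith
  · right; right; right; right; linarith

/-- `X₀(15)` in the shape `w² = u (9u - 4) (4u + 1)`  (`X = 36 u`). -/
theorem rat_points_u (u w : ℚ) (h : w ^ 2 = u * (9 * u - 4) * (4 * u + 1)) :
    u = 0 ∨ u = 4 / 9 ∨ u = -1 / 4 ∨ u = 1 ∨ u = -1 / 9 := by
  rcases rat_points_15a1 (36 * u) (36 * w) (by linear_combination (1296 : ℚ) * h)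
    with k | k | k | k | k
  · left; linarith
  · right; right; left; linarith
  · right; left; linarith
  · right; right; right; left; linarith
  · right; right; right; right; linarith

/-- `X₀(15)` in the shape `y² = X (X + 16) (X + 25)`. -/
theorem rat_points_shift16 (X y : ℚ) (h : y ^ 2 = X * (X + 16) * (X + 25)) :
    X = 0 ∨ X = -16 ∨ X = -25 ∨ X = 20 ∨ X = -20 := by
  rcases rat_points_15a1 (X + 16) y (by rw [h]; ring) with k | k | k | k | k
  · right; left; linarith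
  · right; right; left; linarith
  · left; linarith
  · right; right; right; left; linarith
  · right; right; right; right; linarith

/-- `X₀(15)` in the shape `V² = X (X - 9) (X - 25)`. -/
theorem rat_points_shift9 (X V : ℚ) (h : V ^ 2 = X * (X - 9) * (X - 25)) :
    X = 0 ∨ X = 9 ∨ X = 25 ∨ X = 45 ∨ X = 5 := by
  rcases rat_points_15a1 (X - 9) V (by rw [h]; ring) with k | k | k | k | k
  · right; left; linarith
  · left; linarith
  · right; right; left; linarith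
  · right; right; right; left; linarith
  · right; right; right; right; linarith

end Fermat.Agent.S51.Descent124
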