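import Mathlib

set_option autoImplicit false

/-!
Polynomial identities between the `x`-coordinate duplication data of a Weierstrass curve,
in an arbitrary commutative ring, with `b₂ b₄ b₆ b₈` subject to `4 b₈ = b₂ b₆ - b₄²`.

Notation: `g = 4x³ + b₂x² + 2b₄x + b₆` (`Ψ₂Sq`), `Φ = x⁴ - b₄x² - 2b₆x - b₈` (`Φ₂`),
`Ψ₃ = 3x⁴ + b₂x³ + 3b₄x² + 3b₆x + b₈ = x g - Φ`, `preΨ₄`, `Ψ₅ = preΨ₄ g² - Ψ₃³`.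
-/

namespace Fermat.Agent.S51.DivPolyIdent

variable {R : Type*} [CommRing R]

/-- `Ψ₂Sq`. -/
def gP (b₂ b₄ b₆ x : R) : R := 4 * x ^ 3 + b₂ * x ^ 2 + 2 * b₄ * x + b₆

/-- `Φ₂`. -/
def phiP (b₄ b₆ b₈ x : R) : R := x ^ 4 - b₄ * x ^ 2 - 2 * b₆ * x - b₈

/-- `Ψ₃`. -/
def psi3P (b₂ b₄ b₆ b₈ x : R) : R := 3 * x ^ 4 + b₂ * x ^ 3 + 3 * b₄ * x ^ 2 + 3 * b₆ * x + b₈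

/-- `preΨ₄`. -/
def pre4P (b₂ b₄ b₆ b₈ x : R) : R :=
  2 * x ^ 6 + b₂ * x ^ 5 + 5 * b₄ * x ^ 4 + 10 * b₆ * x ^ 3 + 10 * b₈ * x ^ 2 +
    (b₂ * b₈ - b₄ * b₆) * x + (b₄ * b₈ - b₆ ^ 2)

/-- `Ψ₅ = preΨ₄ Ψ₂Sq² - Ψ₃³`. -/
def psi5P (b₂ b₄ b₆ b₈ x : R) : R :=
  pre4P b₂ b₄ b₆ b₈ x * gP b₂ b₄ b₆ x ^ 2 - psi3P b₂ b₄ b₆ b₈ x ^ 3

/-- `Δ` in terms of the `b`-invariants. -/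
def deltaP (b₂ b₄ b₆ b₈ : R) : R :=
  -b₂ ^ 2 * b₈ - 8 * b₄ ^ 3 - 27 * b₆ ^ 2 + 9 * b₂ * b₄ * b₆

theorem psi3P_eq (b₂ b₄ b₆ b₈ x : R) :
    psi3P b₂ b₄ b₆ b₈ x = x * gP b₂ b₄ b₆ x - phiP b₄ b₆ b₈ x := by
  simp only [psi3P, gP, phiP]; ring

/-- Bezout relation: a common zero of `Φ₂` and `Ψ₂Sq` forces `Δ = 0`. -/
theorem bezout_phi_g (b₂ b₄ b₆ b₈ x : R) (hb : 4 * b₈ = b₂ * b₆ - b₄ ^ 2) :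
    (-48 * x ^ 2 - 8 * x * b₂ + b₂ ^ 2 - 32 * b₄) * phiP b₄ b₆ b₈ x +
      (12 * x ^ 3 - x ^ 2 * b₂ - 10 * x * b₄ + b₂ * b₄ - 27 * b₆) * gP b₂ b₄ b₆ x =
    deltaP b₂ b₄ b₆ b₈ := by
  simp only [phiP, gP, deltaP]
  linear_combination (12 * x ^ 2 + 2 * x * b₂ + 8 * b₄) * hb

/-- `16 Ψ₃ = 2 g g'' - g'²`. -/
theorem sixteen_psi3P (b₂ b₄ b₆ b₈ x : R) (hb : 4 * b₈ = b₂ * b₆ - b₄ ^ 2) :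
    16 * psi3P b₂ b₄ b₆ b₈ x =
      2 * gP b₂ b₄ b₆ x * (24 * x + 2 * b₂) - (12 * x ^ 2 + 2 * b₂ * x + 2 * b₄) ^ 2 := by
  simp only [psi3P, gP]
  linear_combination 4 * hb

/-- Numerator of `Ψ₂Sq(Φ₂/Ψ₂Sq)`: `g(Φ/g) g³ = preΨ₄²`. -/
theorem g_dup (b₂ b₄ b₆ b₈ x : R) (hb : 4 * b₈ = b₂ * b₆ - b₄ ^ 2) :
    4 * phiP b₄ b₆ b₈ x ^ 3 + b₂ * phiP b₄ b₆ b₈ x ^ 2 * gP b₂ b₄ b₆ x +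
        2 * b₄ * phiP b₄ b₆ b₈ x * gP b₂ b₄ b₆ x ^ 2 + b₆ * gP b₂ b₄ b₆ x ^ 3 =
      pre4P b₂ b₄ b₆ b₈ x ^ 2 := by
  simp only [phiP, gP, pre4P]
  linear_combination
    (-13*x^8 - 8*x^7*b₂ - x^6*b₂^2 - 28*x^6*b₄ - 6*x^5*b₂*b₄ - 38*x^5*b₆ - 7*x^4*b₂*b₆
      - 8*x^4*b₄^2 - 22*x^4*b₈ - 4*x^3*b₂*b₈ - 16*x^3*b₄*b₆ - 8*x^2*b₄*b₈ - 7*x^2*b₆^2
      - 6*x*b₆*b₈ - b₈^2) * hb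

/-- Numerator of `Φ₂(Φ₂/Ψ₂Sq) - x Ψ₂Sq(Φ₂/Ψ₂Sq)`, i.e. of `x(4P) - x(P)`:
`Φ(Φ/g) g⁴ - x g preΨ₄² = -Ψ₅ Ψ₃`. -/
theorem phi_dup (b₂ b₄ b₆ b₈ x : R) (hb : 4 * b₈ = b₂ * b₆ - b₄ ^ 2) :
    phiP b₄ b₆ b₈ x ^ 4 - b₄ * phiP b₄ b₆ b₈ x ^ 2 * gP b₂ b₄ b₆ x ^ 2 -
        2 * b₆ * phiP b₄ b₆ b₈ x * gP b₂ b₄ b₆ x ^ 3 - b₈ * gP b₂ b₄ b₆ x ^ 4 -
        x * gP b₂ b₄ b₆ x * pre4P b₂ b₄ b₆ b₈ x ^ 2 =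
      -(psi5P b₂ b₄ b₆ b₈ x * psi3P b₂ b₄ b₆ b₈ x) := by
  simp only [phiP, gP, pre4P, psi5P, psi3P]
  linear_combination
    (-4*x^12 - 5*x^11*b₂ - x^10*b₂^2 - 42*x^10*b₄ - 16*x^9*b₂*b₄ - 93*x^9*b₆ - x^8*b₂^2*b₄
      - 36*x^8*b₂*b₆ - 28*x^8*b₄^2 - 72*x^8*b₈ - 3*x^7*b₂^2*b₆ - 4*x^7*b₂*b₄^2 - 30*x^7*b₂*b₈
      - 84*x^7*b₄*b₆ - 3*x^6*b₂^2*b₈ - 14*x^6*b₂*b₄*b₆ - 4*x^6*b₄^3 - 60*x^6*b₄*b₈ - 39*x^6*b₆^2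
      - 12*x^5*b₂*b₄*b₈ - 7*x^5*b₂*b₆^2 - 16*x^5*b₄^2*b₆ - 38*x^5*b₆*b₈ - 8*x^4*b₂*b₆*b₈
      - 12*x^4*b₄^2*b₈ - 15*x^4*b₄*b₆^2 - 4*x^4*b₈^2 - x^3*b₂*b₈^2 - 16*x^3*b₄*b₆*b₈ - 4*x^3*b₆^3
      - 2*x^2*b₄*b₈^2 - 5*x^2*b₆^2*b₈ - x*b₆*b₈^2) * hb

end Fermat.Agent.S51.DivPolyIdent
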