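import Mathlib
import Fermat.Prelude.Def_FLTPrelim_GaloisRep

set_option autoImplicit false

namespace Fermat.Agent.S51.GalLine

local notation "Qb" => AlgebraicClosure ℚ
local notation "Gq" => (AlgebraicClosure ℚ ≃ₐ[ℚ] AlgebraicClosure ℚ)

/-- An element of `Q̄` fixed by the whole Galois group is rational. -/
theorem fixed_rational (x : Qb) (hx : ∀ σ : Gq, σ x = x) :
    ∃ q : ℚ, algebraMap ℚ Qb q = x := by
  have : Algebra.IsAlgebraic ℚ Qb := AlgebraicClosure.isAlgebraic ℚ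
  have : IsAlgClosure ℚ Qb := AlgebraicClosure.instIsAlgClosure ℚ
  exact (InfiniteGalois.mem_range_algebraMap_iff_fixed (k := ℚ) (K := Qb) x).mpr hx

/-- Same with the cast `ℚ → Q̄`. -/
theorem fixed_rational_cast (x : Qb) (hx : ∀ σ : Gq, σ x = x) :
    ∃ q : ℚ, (q : Qb) = x := by
  obtain ⟨q, hq⟩ := fixed_rational x hx
  exact ⟨q, by rw [← hq]; simp⟩

/-- If every Galois automorphism permutes `{x₁, x₂}`, the symmetric functions are rational. -/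
theorem symm_rational (x₁ x₂ : Qb)
    (h : ∀ σ : Gq, (σ x₁ = x₁ ∧ σ x₂ = x₂) ∨ (σ x₁ = x₂ ∧ σ x₂ = x₁)) :
    ∃ e₁ e₂ : ℚ, (e₁ : Qb) = x₁ + x₂ ∧ (e₂ : Qb) = x₁ * x₂ := by
  obtain ⟨e₁, h₁⟩ := fixed_rational_cast (x₁ + x₂) (fun σ => by
    rcases h σ with ⟨a, b⟩ | ⟨a, b⟩
    · rw [map_add, a, b]
    · rw [map_add, a, b, add_comm])
  obtain ⟨e₂, h₂⟩ := fixed_rational_cast (x₁ * x₂) (fun σ => by
    rcases h σ with ⟨a, b⟩ | ⟨a, b⟩
    · rw [map_mul, a, b]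
    · rw [map_mul, a, b, mul_comm])
  exact ⟨e₁, e₂, h₁, h₂⟩

/-- Line lemma: in a `ZMod p`-module with fewer than `p^3` elements, a submodule which is neither
`⊥` nor `⊤` is the line spanned by any of its nonzero elements. -/
theorem line_lemma {p : ℕ} [Fact p.Prime] {V : Type*} [AddCommGroup V] [Module (ZMod p) V]
    [Finite V] (hV : Nat.card V < p ^ 3) (N : Submodule (ZMod p) V) (htop : N ≠ ⊤)
    {P : V} (hP : P ∈ N) (hP0 : P ≠ 0) {Q : V} (hQ : Q ∈ N) :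
    ∃ k : ℕ, k < p ∧ Q = k • P := by
  have hp : p.Prime := Fact.out
  have : Module.Finite (ZMod p) V := Module.Finite.of_finite
  have hcardV : Nat.card V = p ^ Module.finrank (ZMod p) V := by
    have := Module.natCard_eq_pow_finrank (K := ZMod p) (V := V)
    rwa [Nat.card_zmod] at this
  have hV2 : Module.finrank (ZMod p) V < 3 := by
    rw [hcardV] at hV
    exact (Nat.pow_lt_pow_iff_right hp.one_lt).mp hV
  have hN_lt : Module.finrank (ZMod p) N < Module.finrank (ZMod p) V :=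
    Submodule.finrank_lt htop
  have hN_pos : 0 < Module.finrank (ZMod p) N := by
    rw [Module.finrank_pos_iff]
    exact ⟨⟨⟨P, hP⟩, 0, fun h => hP0 (congrArg Subtype.val h)⟩⟩
  have hN1 : Module.finrank (ZMod p) N = 1 := by omega
  have hP' : (⟨P, hP⟩ : N) ≠ 0 := fun h => hP0 (congrArg Subtype.val h)
  obtain ⟨c, hc⟩ := (finrank_eq_one_iff_of_nonzero' (⟨P, hP⟩ : N) hP').mp hN1 ⟨Q, hQ⟩
  refine ⟨c.val, ZMod.val_lt c, ?_⟩
  have h2 : c • P = Q := congrArg Subtype.val hc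
  rw [← h2]
  conv_lhs => rw [← ZMod.natCast_zmod_val c]
  rw [Nat.cast_smul_eq_nsmul]


open WeierstrassCurve WeierstrassCurve.Affine WeierstrassCurve.Affine.Point

/-- Unpacking of reducibility: a nonzero point `P` of order `p` whose Galois conjugates are all
multiples of `P`. -/
theorem stable_line (E : WeierstrassCurve ℚ) (p : ℕ) [Fact p.Prime]
    (hnt : Nontrivial (Submodule.torsionBy ℤ (E⁄Qb).Point p))
    [Finite (Submodule.torsionBy ℤ (E⁄Qb).Point p)]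
    (hcard : Nat.card (Submodule.torsionBy ℤ (E⁄Qb).Point p) < p ^ 3)
    (h : ¬ GaloisRepIsIrreducible (K := Qb) ℚ E p) :
    ∃ P : (E⁄Qb).Point, P ≠ 0 ∧ p • P = 0 ∧ ∀ σ : Gq, ∃ k : ℕ, k < p ∧ σ • P = k • P := by
  unfold GaloisRepIsIrreducible at h
  push Not at h
  obtain ⟨N, hstab, hbot, htop⟩ := h hnt
  obtain ⟨P, hPN, hP0⟩ := (Submodule.ne_bot_iff N).mp hbot
  refine ⟨(P : (E⁄Qb).Point), fun h0 => hP0 (Subtype.ext h0), ?_, fun σ => ?_⟩
  · have h1 := P.property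
    rw [Submodule.mem_torsionBy_iff] at h1
    rw [← h1, natCast_zsmul]
  · obtain ⟨k, hk, hk2⟩ := line_lemma hcard N htop hPN hP0 (hstab σ P hPN)
    refine ⟨k, hk, ?_⟩
    have h3 := congrArg (Subtype.val) hk2
    have h4 : ((k • P : Submodule.torsionBy ℤ (E⁄Qb).Point p) : (E⁄Qb).Point)
        = k • (P : (E⁄Qb).Point) := by simp
    rw [h4] at h3
    exact h3


variable {E : WeierstrassCurve ℚ}

/-- The Galois action in coordinates. -/
theorem smul_some (σ : Gq) {x y : Qb} (h : (E⁄Qb).Nonsingular x y) :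
    ∃ h' : (E⁄Qb).Nonsingular (σ x) (σ y),
      σ • (Point.some x y h : (E⁄Qb).Point) = Point.some (σ x) (σ y) h' :=
  ⟨_, rfl⟩

theorem smul_eq_zero_iff (σ : Gq) (P : (E⁄Qb).Point) : σ • P = 0 ↔ P = 0 := by
  constructor
  · intro h
    have h2 : σ⁻¹ • (σ • P) = σ⁻¹ • (0 : (E⁄Qb).Point) := by rw [h]
    rw [inv_smul_smul] at h2
    rw [h2]
    exact smul_zero (A := (E⁄Qb).Point) σ⁻¹
  · rintro rfl
    exact smul_zero (A := (E⁄Qb).Point) σ

theorem smul_nsmul_point (σ : Gq) (k : ℕ) (P : (E⁄Qb).Point) : σ • (k • P) = k • (σ • P) :=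
  (Point.map (W' := E) σ.toAlgHom).map_nsmul k P

/-- If `σ` sends `(a, *)` to `± (b, *)` then `σ a = b`. -/
theorem x_of_smul_eq (σ : Gq) {a ya b yb : Qb} (ha : (E⁄Qb).Nonsingular a ya)
    (hb : (E⁄Qb).Nonsingular b yb)
    (h : σ • (Point.some a ya ha : (E⁄Qb).Point) = Point.some b yb hb ∨
      σ • (Point.some a ya ha : (E⁄Qb).Point) = -Point.some b yb hb) : σ a = b := by
  obtain ⟨h', e⟩ := smul_some (E := E) σ ha
  rw [e] at h
  rcases h with h | h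
  · simp only [Point.some.injEq] at h
    exact h.1
  · rw [Point.neg_some] at h
    simp only [Point.some.injEq] at h
    exact h.1

/-- `p = 3`: a reducible mod-3 representation gives a point of order 3 with rational
`x`-coordinate. -/
theorem three_rational_x (E : WeierstrassCurve ℚ)
    (hnt : Nontrivial (Submodule.torsionBy ℤ (E⁄Qb).Point (3 : ℕ)))
    [Finite (Submodule.torsionBy ℤ (E⁄Qb).Point (3 : ℕ))]
    (hcard : Nat.card (Submodule.torsionBy ℤ (E⁄Qb).Point (3 : ℕ)) < 3 ^ 3)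
    (h : ¬ GaloisRepIsIrreducible (K := Qb) ℚ E 3) :
    ∃ (x₀ : ℚ) (y : Qb) (hns : (E⁄Qb).Nonsingular (x₀ : Qb) y),
      (3 : ℕ) • (Point.some (x₀ : Qb) y hns : (E⁄Qb).Point) = 0 := by
  have : Fact (Nat.Prime 3) := ⟨Nat.prime_three⟩
  obtain ⟨P, hP0, hP3, hσ⟩ := stable_line E 3 hnt hcard h
  rcases P with _ | ⟨x, y, hns⟩
  · exact absurd rfl hP0
  have hfix : ∀ σ : Gq, σ x = x := by
    intro σ
    obtain ⟨k, hk, hk2⟩ := hσ σ
    apply x_of_smul_eq (E := E) σ hns hns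
    have hk3 : k = 0 ∨ k = 1 ∨ k = 2 := by omega
    rcases hk3 with rfl | rfl | rfl
    · rw [zero_nsmul] at hk2
      exact absurd ((smul_eq_zero_iff σ _).mp hk2) hP0
    · left; rw [hk2, one_nsmul]
    · right
      rw [hk2]
      apply eq_neg_of_add_eq_zero_left
      rw [← succ_nsmul]
      exact hP3
  obtain ⟨x₀, hx₀⟩ := fixed_rational_cast x hfix
  subst hx₀
  exact ⟨x₀, y, hns, hP3⟩

/-- `p = 5`: a reducible mod-5 representation gives a point `P` of order 5 such that the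
symmetric functions of `x(P)`, `x(2P)` are rational. -/
theorem five_rational_symm (E : WeierstrassCurve ℚ)
    (hnt : Nontrivial (Submodule.torsionBy ℤ (E⁄Qb).Point (5 : ℕ)))
    [Finite (Submodule.torsionBy ℤ (E⁄Qb).Point (5 : ℕ))]
    (hcard : Nat.card (Submodule.torsionBy ℤ (E⁄Qb).Point (5 : ℕ)) < 5 ^ 3)
    (h : ¬ GaloisRepIsIrreducible (K := Qb) ℚ E 5) :
    ∃ (x₁ y₁ x₂ y₂ : Qb) (h₁ : (E⁄Qb).Nonsingular x₁ y₁) (h₂ : (E⁄Qb).Nonsingular x₂ y₂)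
      (e₁ e₂ : ℚ),
      (5 : ℕ) • (Point.some x₁ y₁ h₁ : (E⁄Qb).Point) = 0 ∧
      (2 : ℕ) • (Point.some x₁ y₁ h₁ : (E⁄Qb).Point) = Point.some x₂ y₂ h₂ ∧
      (e₁ : Qb) = x₁ + x₂ ∧ (e₂ : Qb) = x₁ * x₂ := by
  have : Fact (Nat.Prime 5) := ⟨Nat.prime_five⟩
  obtain ⟨P, hP0, hP5, hσ⟩ := stable_line E 5 hnt hcard h
  have hQ0 : (2 : ℕ) • P ≠ 0 := by
    intro h2
    apply hP0
    have : (5 : ℕ) • P = (2 : ℕ) • ((2 : ℕ) • P) + P := by
      rw [← mul_nsmul, ← succ_nsmul]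
    rw [this, h2, nsmul_zero, zero_add] at hP5
    exact hP5
  have h4 : (4 : ℕ) • P = -P := by
    apply eq_neg_of_add_eq_zero_left
    rw [← succ_nsmul]
    exact hP5
  have h3 : (3 : ℕ) • P = -((2 : ℕ) • P) := by
    apply eq_neg_of_add_eq_zero_left
    rw [← add_nsmul]
    exact hP5
  obtain ⟨Q, hQ⟩ : ∃ Q, Q = (2 : ℕ) • P := ⟨_, rfl⟩
  rw [← hQ] at hQ0 h3
  have hQ2 : (2 : ℕ) • Q = -P := by rw [hQ, ← mul_nsmul]; exact h4
  have hQ3 : (3 : ℕ) • Q = P := by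
    rw [hQ, ← mul_nsmul]
    have : (2 * 3 : ℕ) • P = (5 : ℕ) • P + P := by rw [← succ_nsmul]
    rw [this, hP5, zero_add]
  have hQ4 : (4 : ℕ) • Q = -Q := by
    have : (4 : ℕ) • Q = (2 : ℕ) • ((2 : ℕ) • Q) := by rw [← mul_nsmul]
    rw [this, hQ2, neg_nsmul, hQ]
  rcases P with _ | ⟨x₁, y₁, h₁⟩
  · exact absurd rfl hP0
  rcases Q with _ | ⟨x₂, y₂, h₂⟩
  · exact absurd rfl hQ0
  have hperm : ∀ σ : Gq, (σ x₁ = x₁ ∧ σ x₂ = x₂) ∨ (σ x₁ = x₂ ∧ σ x₂ = x₁) := by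
    intro σ
    obtain ⟨k, hk, hk2⟩ := hσ σ
    have hσQ : σ • (Point.some x₂ y₂ h₂ : (E⁄Qb).Point) = k • Point.some x₂ y₂ h₂ := by
      rw [hQ, smul_nsmul_point, hk2, ← mul_nsmul, ← mul_nsmul, mul_comm]
    have hk5 : k = 0 ∨ k = 1 ∨ k = 2 ∨ k = 3 ∨ k = 4 := by omega
    rcases hk5 with rfl | rfl | rfl | rfl | rfl
    · rw [zero_nsmul] at hk2
      exact absurd ((smul_eq_zero_iff σ _).mp hk2) hP0
    · left
      rw [one_nsmul] at hk2 hσQ
      exact ⟨x_of_smul_eq (E := E) σ h₁ h₁ (Or.inl hk2), x_of_smul_eq (E := E) σ h₂ h₂ (Or.inl hσQ)⟩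
    · right
      rw [← hQ] at hk2
      rw [hQ2] at hσQ
      exact ⟨x_of_smul_eq (E := E) σ h₁ h₂ (Or.inl hk2), x_of_smul_eq (E := E) σ h₂ h₁ (Or.inr hσQ)⟩
    · right
      rw [h3] at hk2
      rw [hQ3] at hσQ
      exact ⟨x_of_smul_eq (E := E) σ h₁ h₂ (Or.inr hk2), x_of_smul_eq (E := E) σ h₂ h₁ (Or.inl hσQ)⟩
    · left
      rw [h4] at hk2
      rw [hQ4] at hσQ
      exact ⟨x_of_smul_eq (E := E) σ h₁ h₁ (Or.inr hk2), x_of_smul_eq (E := E) σ h₂ h₂ (Or.inr hσQ)⟩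
  obtain ⟨e₁, e₂, he₁, he₂⟩ := symm_rational x₁ x₂ hperm
  exact ⟨x₁, y₁, x₂, y₂, h₁, h₂, e₁, e₂, hP5, hQ.symm, he₁, he₂⟩

end Fermat.Agent.S51.GalLine
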