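import Mathlib
import Fermat.Agent.Lib.TorsionFinite
import Fermat.Agent.S51.GalLine
import Fermat.Agent.S51.Assembly

set_option autoImplicit false
set_option linter.unusedSectionVars false

namespace Fermat.Agent.S51.FiveAlt

open Polynomial WeierstrassCurve WeierstrassCurve.Affine
open Fermat.Agent.Lib.TorsionFinite

section Algebra

variable {F : Type*} [Field F]

/-- Core identities in translated coordinates. -/
theorem core_pair [CharZero F] (B₂ B₄ B₆ B₈ δ : F) (hδ : δ ≠ 0)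
    (hR : 4 * B₈ = B₂ * B₆ - B₄ ^ 2)
    (hE2 : B₆ = B₂ * δ ^ 2)
    (hE3 : B₂ ^ 2 * δ ^ 2 = B₄ ^ 2 + 4 * B₄ * δ ^ 2 + 20 * δ ^ 4) :
    4 * (-δ) ^ 3 + B₂ * (-δ) ^ 2 + 2 * B₄ * (-δ) + B₆ ≠ 0 ∧
    4 * δ ^ 3 + B₂ * δ ^ 2 + 2 * B₄ * δ + B₆ ≠ 0 ∧
    (-δ) ^ 4 - B₄ * (-δ) ^ 2 - 2 * B₆ * (-δ) - B₈ =
      δ * (4 * (-δ) ^ 3 + B₂ * (-δ) ^ 2 + 2 * B₄ * (-δ) + B₆) ∧
    δ ^ 4 - B₄ * δ ^ 2 - 2 * B₆ * δ - B₈ =
      (-δ) * (4 * δ ^ 3 + B₂ * δ ^ 2 + 2 * B₄ * δ + B₆) := by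
  have hprod : (4 * (-δ) ^ 3 + B₂ * (-δ) ^ 2 + 2 * B₄ * (-δ) + B₆) *
      (4 * δ ^ 3 + B₂ * δ ^ 2 + 2 * B₄ * δ + B₆) = 64 * δ ^ 6 := by
    linear_combination (B₆ + 3 * B₂ * δ ^ 2) * hE2 + 4 * δ ^ 2 * hE3
  have h64 : (64 : F) * δ ^ 6 ≠ 0 := mul_ne_zero (by norm_num) (pow_ne_zero 6 hδ)
  rw [← hprod] at h64
  refine ⟨left_ne_zero_of_mul h64, right_ne_zero_of_mul h64, ?_, ?_⟩
  · linear_combination (δ - B₂ / 4) * hE2 - (1 / 4 : F) * hE3 - (1 / 4 : F) * hR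
  · linear_combination (-δ - B₂ / 4) * hE2 - (1 / 4 : F) * hE3 - (1 / 4 : F) * hR

/-- From a root of the midpoint sextic to the half-difference `δ`. -/
theorem exists_delta [IsAlgClosed F] [CharZero F] (B₂ B₄ B₆ B₈ : F)
    (hR : 4 * B₈ = B₂ * B₆ - B₄ ^ 2)
    (hΔ : -B₂ ^ 2 * B₈ - 8 * B₄ ^ 3 - 27 * B₆ ^ 2 + 9 * B₂ * B₄ * B₆ ≠ 0)
    (hG : B₂ ^ 3 * B₆ - B₂ ^ 2 * B₄ ^ 2 - 4 * B₂ * B₄ * B₆ - 20 * B₆ ^ 2 = 0) :
    ∃ δ : F, δ ≠ 0 ∧ B₆ = B₂ * δ ^ 2 ∧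
      B₂ ^ 2 * δ ^ 2 = B₄ ^ 2 + 4 * B₄ * δ ^ 2 + 20 * δ ^ 4 := by
  obtain ⟨D, hD0, hE2, hE3⟩ : ∃ D : F, D ≠ 0 ∧ B₆ = B₂ * D ∧
      B₂ ^ 2 * D = B₄ ^ 2 + 4 * B₄ * D + 20 * D ^ 2 := by
    by_cases hB2 : B₂ = 0
    · have hB6 : B₆ = 0 := by
        have h20 : (20 : F) * B₆ ^ 2 = 0 := by
          rw [hB2] at hG
          linear_combination -hG
        have h20' : (20 : F) ≠ 0 := by norm_num
        exact pow_eq_zero_iff (two_ne_zero) |>.mp ((mul_eq_zero.mp h20).resolve_left h20')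
      have hB4 : B₄ ≠ 0 := by
        intro h4
        apply hΔ
        rw [hB2, hB6, h4]
        ring
      obtain ⟨i, hi⟩ := IsAlgClosed.exists_pow_nat_eq (-1 : F) (n := 2) (by norm_num)
      refine ⟨B₄ * ((-1 + 2 * i) / 10), ?_, ?_, ?_⟩
      · apply mul_ne_zero hB4
        intro h0
        have h1 : (-1 + 2 * i) = 0 := by
          rcases div_eq_zero_iff.mp h0 with h | h
          · exact h
          · exact absurd h (by norm_num)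
        have h2 : (5 : F) = 0 := by linear_combination -(2 * i + 1) * h1 + 4 * hi
        exact absurd h2 (by norm_num)
      · rw [hB6, hB2]; ring
      · rw [hB2]
        linear_combination (-(4 / 5 : F) * B₄ ^ 2) * hi
    · refine ⟨B₆ / B₂, ?_, ?_, ?_⟩
      · intro h0
        have hB6 : B₆ = 0 := (div_eq_zero_iff.mp h0).resolve_right hB2
        have hB4 : B₄ = 0 := by
          rw [hB6] at hG
          have h' : B₂ ^ 2 * B₄ ^ 2 = 0 := by linear_combination -hG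
          rcases mul_eq_zero.mp h' with h | h
          · exact absurd (pow_eq_zero_iff (two_ne_zero) |>.mp h) hB2
          · exact pow_eq_zero_iff (two_ne_zero) |>.mp h
        have hB8 : B₈ = 0 := by
          have h4 : (4 : F) * B₈ = 0 := by rw [hR, hB6, hB4]; ring
          exact (mul_eq_zero.mp h4).resolve_left (by norm_num)
        apply hΔ
        rw [hB6, hB4, hB8]
        ring
      · field_simp
      · field_simp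
        linear_combination hG
  obtain ⟨δ, rfl⟩ := IsAlgClosed.exists_pow_nat_eq D (n := 2) (by norm_num)
  refine ⟨δ, fun h => hD0 (by rw [h]; ring), hE2, ?_⟩
  linear_combination hE3

/-- The midpoint sextic has a root. -/
theorem exists_mid [IsAlgClosed F] [CharZero F] (b₂ b₄ b₆ : F) :
    ∃ m : F, (b₂ + 12 * m) ^ 3 * (b₆ + 2 * b₄ * m + b₂ * m ^ 2 + 4 * m ^ 3)
      - (b₂ + 12 * m) ^ 2 * (b₄ + b₂ * m + 6 * m ^ 2) ^ 2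
      - 4 * (b₂ + 12 * m) * (b₄ + b₂ * m + 6 * m ^ 2) * (b₆ + 2 * b₄ * m + b₂ * m ^ 2 + 4 * m ^ 3)
      - 20 * (b₆ + 2 * b₄ * m + b₂ * m ^ 2 + 4 * m ^ 3) ^ 2 = 0 := by
  set p : F[X] := (C b₂ + 12 * X) ^ 3 * (C b₆ + 2 * C b₄ * X + C b₂ * X ^ 2 + 4 * X ^ 3)
      - (C b₂ + 12 * X) ^ 2 * (C b₄ + C b₂ * X + 6 * X ^ 2) ^ 2
      - 4 * (C b₂ + 12 * X) * (C b₄ + C b₂ * X + 6 * X ^ 2)
          * (C b₆ + 2 * C b₄ * X + C b₂ * X ^ 2 + 4 * X ^ 3)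
      - 20 * (C b₆ + 2 * C b₄ * X + C b₂ * X ^ 2 + 4 * X ^ 3) ^ 2 with hp
  have hdeg : p.natDegree = 6 := by
    rw [hp]
    compute_degree!
  have hpos : 0 < p.degree := Polynomial.natDegree_pos_iff_degree_pos.mp (by rw [hdeg]; norm_num)
  obtain ⟨m, hm⟩ := IsAlgClosed.exists_root p hpos.ne'
  refine ⟨m, ?_⟩
  have := hm
  simp only [hp, IsRoot.def, eval_sub, eval_mul, eval_add, eval_pow, eval_C, eval_X,
    eval_ofNat] at this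
  exact this

/-- Existence of the pair `x₁ = x(P)`, `x₂ = x(2P)` for a point of order 5 (pure algebra). -/
theorem exists_pair [IsAlgClosed F] [CharZero F] (b₂ b₄ b₆ b₈ : F)
    (hrel : 4 * b₈ = b₂ * b₆ - b₄ ^ 2)
    (hΔ : -b₂ ^ 2 * b₈ - 8 * b₄ ^ 3 - 27 * b₆ ^ 2 + 9 * b₂ * b₄ * b₆ ≠ 0) :
    ∃ x₁ x₂ : F, x₁ ≠ x₂ ∧
      4 * x₁ ^ 3 + b₂ * x₁ ^ 2 + 2 * b₄ * x₁ + b₆ ≠ 0 ∧
      4 * x₂ ^ 3 + b₂ * x₂ ^ 2 + 2 * b₄ * x₂ + b₆ ≠ 0 ∧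
      x₁ ^ 4 - b₄ * x₁ ^ 2 - 2 * b₆ * x₁ - b₈ =
        x₂ * (4 * x₁ ^ 3 + b₂ * x₁ ^ 2 + 2 * b₄ * x₁ + b₆) ∧
      x₂ ^ 4 - b₄ * x₂ ^ 2 - 2 * b₆ * x₂ - b₈ =
        x₁ * (4 * x₂ ^ 3 + b₂ * x₂ ^ 2 + 2 * b₄ * x₂ + b₆) := by
  obtain ⟨m, hm⟩ := exists_mid b₂ b₄ b₆
  have hR : 4 * (b₈ + 3 * b₆ * m + 3 * b₄ * m ^ 2 + b₂ * m ^ 3 + 3 * m ^ 4) =
      (b₂ + 12 * m) * (b₆ + 2 * b₄ * m + b₂ * m ^ 2 + 4 * m ^ 3)
        - (b₄ + b₂ * m + 6 * m ^ 2) ^ 2 := by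
    linear_combination hrel
  have hΔ' : -(b₂ + 12 * m) ^ 2 * (b₈ + 3 * b₆ * m + 3 * b₄ * m ^ 2 + b₂ * m ^ 3 + 3 * m ^ 4)
      - 8 * (b₄ + b₂ * m + 6 * m ^ 2) ^ 3
      - 27 * (b₆ + 2 * b₄ * m + b₂ * m ^ 2 + 4 * m ^ 3) ^ 2
      + 9 * (b₂ + 12 * m) * (b₄ + b₂ * m + 6 * m ^ 2)
          * (b₆ + 2 * b₄ * m + b₂ * m ^ 2 + 4 * m ^ 3) ≠ 0 := by
    intro h0
    apply hΔ
    linear_combination h0 + (((b₂ + 12 * m) ^ 2 - b₂ ^ 2) / 4) * hrel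
  obtain ⟨δ, hδ, hE2, hE3⟩ := exists_delta _ _ _ _ hR hΔ' hm
  obtain ⟨hg₁, hg₂, hR1, hR2⟩ := core_pair _ _ _ _ δ hδ hR hE2 hE3
  refine ⟨m - δ, m + δ, ?_, ?_, ?_, ?_, ?_⟩
  · intro h
    apply hδ
    have h2 : (2 : F) * δ = 0 := by linear_combination -h
    exact (mul_eq_zero.mp h2).resolve_left two_ne_zero
  · intro h; apply hg₁; linear_combination h
  · intro h; apply hg₂; linear_combination h
  · linear_combination hR1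
  · linear_combination hR2

end Algebra

section Points

variable {F : Type*} [Field F] [DecidableEq F] {W : WeierstrassCurve.Affine F}

lemma g_eq_sq {x y : F} (h : W.Equation x y) :
    4 * x ^ 3 + W.b₂ * x ^ 2 + 2 * W.b₄ * x + W.b₆ = (y - W.negY x y) ^ 2 := by
  have heq := (W.equation_iff x y).mp h
  simp only [WeierstrassCurve.b₂, WeierstrassCurve.b₄, WeierstrassCurve.b₆, negY]
  linear_combination (-4 : F) * heq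

lemma add_self_ne_zero_of_g {x y : F} (h : W.Nonsingular x y)
    (hg : 4 * x ^ 3 + W.b₂ * x ^ 2 + 2 * W.b₄ * x + W.b₆ ≠ 0) :
    (Point.some x y h : W.Point) + Point.some x y h ≠ 0 := by
  have hne : y ≠ W.negY x y := by
    intro hEq
    apply hg
    rw [g_eq_sq h.1, sub_eq_zero.mpr hEq]
    ring
  rw [Point.add_self_of_Y_ne hne]
  exact Point.some_ne_zero _

lemma hasX_neg {P : W.Point} {x : F} (h : HasX W P x) : HasX W (-P) x := by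
  obtain ⟨y, hy, rfl⟩ := h
  exact ⟨W.negY x y, (nonsingular_neg ..).mpr hy, rfl⟩

lemma eq_or_eq_neg_of_hasX {P Q : W.Point} {x : F} (hP : HasX W P x) (hQ : HasX W Q x) :
    P = Q ∨ P = -Q := by
  obtain ⟨y, hy, rfl⟩ := hP
  obtain ⟨y', hy', rfl⟩ := hQ
  exact (Point.X_eq_iff (h₁ := hy) (h₂ := hy')).mp rfl

/-- The relations between `x(P)` and `x(2P)` for a point of order 5. -/
theorem relations {P Q : W.Point} {x₁ x₂ : F} (hP : HasX W P x₁) (hQ : HasX W Q x₂)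
    (h5 : (5 : ℕ) • P = 0) (h2 : (2 : ℕ) • P = Q) :
    x₁ ≠ x₂ ∧
      4 * x₁ ^ 3 + W.b₂ * x₁ ^ 2 + 2 * W.b₄ * x₁ + W.b₆ ≠ 0 ∧
      4 * x₂ ^ 3 + W.b₂ * x₂ ^ 2 + 2 * W.b₄ * x₂ + W.b₆ ≠ 0 ∧
      x₁ ^ 4 - W.b₄ * x₁ ^ 2 - 2 * W.b₆ * x₁ - W.b₈ =
        x₂ * (4 * x₁ ^ 3 + W.b₂ * x₁ ^ 2 + 2 * W.b₄ * x₁ + W.b₆) ∧
      x₂ ^ 4 - W.b₄ * x₂ ^ 2 - 2 * W.b₆ * x₂ - W.b₈ =
        x₁ * (4 * x₂ ^ 3 + W.b₂ * x₂ ^ 2 + 2 * W.b₄ * x₂ + W.b₆) := by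
  have hPP : P + P = Q := by rw [← h2, two_nsmul]
  have hQQ : Q + Q = -P := by
    apply eq_neg_of_add_eq_zero_left
    rw [← h5, ← hPP]
    abel
  have h2P : P + P ≠ 0 := by rw [hPP]; exact hQ.ne_zero
  have h2Q : Q + Q ≠ 0 := by rw [hQQ]; exact neg_ne_zero.mpr hP.ne_zero
  obtain ⟨hg₁, hX₁⟩ := hasX_double hP h2P
  obtain ⟨hg₂, hX₂⟩ := hasX_double hQ h2Q
  rw [hPP] at hX₁
  rw [hQQ] at hX₂
  have e₁ := hQ.unique hX₁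
  have e₂ := (hasX_neg hP).unique hX₂
  refine ⟨?_, hg₁, hg₂, ?_, ?_⟩
  · rintro rfl
    rcases eq_or_eq_neg_of_hasX hQ hP with h | h
    · rw [h] at hPP
      exact hP.ne_zero (by simpa using hPP)
    · rw [← h] at hQQ
      exact hQ.ne_zero (by simpa using hQQ)
  · rw [eq_div_iff hg₁] at e₁; exact e₁.symm
  · rw [eq_div_iff hg₂] at e₂; exact e₂.symm

lemma exists_equation [IsAlgClosed F] [CharZero F] (W : WeierstrassCurve.Affine F) (x : F) :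
    ∃ y, W.Equation x y := by
  obtain ⟨s, hs⟩ := IsAlgClosed.exists_pow_nat_eq
    ((W.a₁ * x + W.a₃) ^ 2 + 4 * (x ^ 3 + W.a₂ * x ^ 2 + W.a₄ * x + W.a₆)) (n := 2) (by norm_num)
  refine ⟨(s - (W.a₁ * x + W.a₃)) / 2, ?_⟩
  rw [W.equation_iff]
  linear_combination (1 / 4 : F) * hs

/-- Existence of a point of order 5. -/
theorem exists_order_five [IsAlgClosed F] [CharZero F] (W : WeierstrassCurve.Affine F)
    (hΔ : W.Δ ≠ 0) : ∃ P : W.Point, P ≠ 0 ∧ (5 : ℕ) • P = 0 := by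
  obtain ⟨x₁, x₂, hne, hg₁, hg₂, hR1, hR2⟩ :=
    exists_pair W.b₂ W.b₄ W.b₆ W.b₈ W.b_relation hΔ
  obtain ⟨y₁, hy₁⟩ := exists_equation W x₁
  have hns : W.Nonsingular x₁ y₁ := (W.equation_iff_nonsingular_of_Δ_ne_zero hΔ).mp hy₁
  obtain ⟨P, hPdef⟩ : ∃ P : W.Point, P = Point.some x₁ y₁ hns := ⟨_, rfl⟩
  have hP : HasX W P x₁ := ⟨y₁, hns, hPdef⟩
  have h2P : P + P ≠ 0 := by rw [hPdef]; exact add_self_ne_zero_of_g hns hg₁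
  obtain ⟨-, hX2⟩ := hasX_double hP h2P
  have hX2' : HasX W (P + P) x₂ := by
    have e : (x₁ ^ 4 - W.b₄ * x₁ ^ 2 - 2 * W.b₆ * x₁ - W.b₈) /
        (4 * x₁ ^ 3 + W.b₂ * x₁ ^ 2 + 2 * W.b₄ * x₁ + W.b₆) = x₂ := by
      rw [hR1, mul_div_assoc, div_self hg₁, mul_one]
    rwa [e] at hX2
  have h4P : (P + P) + (P + P) ≠ 0 := by
    obtain ⟨y₂, hy₂, e⟩ := hX2'
    rw [e]
    exact add_self_ne_zero_of_g hy₂ hg₂
  obtain ⟨-, hX4⟩ := hasX_double hX2' h4P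
  have hX4' : HasX W ((P + P) + (P + P)) x₁ := by
    have e : (x₂ ^ 4 - W.b₄ * x₂ ^ 2 - 2 * W.b₆ * x₂ - W.b₈) /
        (4 * x₂ ^ 3 + W.b₂ * x₂ ^ 2 + 2 * W.b₄ * x₂ + W.b₆) = x₁ := by
      rw [hR2, mul_div_assoc, div_self hg₂, mul_one]
    rwa [e] at hX4
  rcases eq_or_eq_neg_of_hasX hX4' hP with h | h
  · exfalso
    have h3 : P + P = -P := by
      apply eq_neg_of_add_eq_zero_left
      have e : (P + P) + (P + P) = (P + P + P) + P := by abel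
      rw [e] at h
      simpa using h
    rw [h3] at hX2'
    exact hne ((hasX_neg hP).unique hX2')
  · refine ⟨P, hP.ne_zero, ?_⟩
    have e : (5 : ℕ) • P = (P + P) + (P + P) + P := by abel
    rw [e, h, neg_add_cancel]

end Points

end Fermat.Agent.S51.FiveAlt
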