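import Mathlib
import Fermat.Agent.Lib.TorsionFinite

set_option autoImplicit false

namespace Fermat.Agent.S51.FiveExist

open Polynomial

section Alg

variable {K : Type*} [Field K]

/-- From a midpoint `m` and half-difference-square `D` satisfying the two relations, the
`x`-coordinates `m ∓ δ` (`δ² = D`) satisfy the two duplication relations. -/
theorem data_of_midpoint [CharZero K] (b₂ b₄ b₆ b₈ : K) (hb : 4 * b₈ = b₂ * b₆ - b₄ ^ 2)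
    (m D δ : K) (hδ : δ ^ 2 = D) (hD : D ≠ 0)
    (R1 : b₆ + 2 * b₄ * m + b₂ * m ^ 2 + 4 * m ^ 3 = (b₂ + 12 * m) * D)
    (R2 : (b₂ + 12 * m) ^ 2 * D = (b₄ + b₂ * m + 6 * m ^ 2) ^ 2
        + 4 * (b₄ + b₂ * m + 6 * m ^ 2) * D + 20 * D ^ 2) :
    (m - δ) ≠ (m + δ) ∧
      (4 * (m - δ) ^ 3 + b₂ * (m - δ) ^ 2 + 2 * b₄ * (m - δ) + b₆ ≠ 0) ∧
      (4 * (m + δ) ^ 3 + b₂ * (m + δ) ^ 2 + 2 * b₄ * (m + δ) + b₆ ≠ 0) ∧
      (m - δ) ^ 4 - b₄ * (m - δ) ^ 2 - 2 * b₆ * (m - δ) - b₈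
        = (m + δ) * (4 * (m - δ) ^ 3 + b₂ * (m - δ) ^ 2 + 2 * b₄ * (m - δ) + b₆) ∧
      (m + δ) ^ 4 - b₄ * (m + δ) ^ 2 - 2 * b₆ * (m + δ) - b₈
        = (m - δ) * (4 * (m + δ) ^ 3 + b₂ * (m + δ) ^ 2 + 2 * b₄ * (m + δ) + b₆) := by
  have hδ0 : δ ≠ 0 := by
    rintro rfl
    apply hD
    rw [← hδ]; ring
  obtain rfl : b₆ = (b₂ + 12 * m) * D - 2 * b₄ * m - b₂ * m ^ 2 - 4 * m ^ 3 := by
    linear_combination R1
  obtain rfl : b₈ = (b₂ * ((b₂ + 12 * m) * D - 2 * b₄ * m - b₂ * m ^ 2 - 4 * m ^ 3) - b₄ ^ 2) / 4 := by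
    field_simp
    linear_combination hb
  subst hδ
  have hprod : (4 * (m - δ) ^ 3 + b₂ * (m - δ) ^ 2 + 2 * b₄ * (m - δ)
        + ((b₂ + 12 * m) * δ ^ 2 - 2 * b₄ * m - b₂ * m ^ 2 - 4 * m ^ 3))
      * (4 * (m + δ) ^ 3 + b₂ * (m + δ) ^ 2 + 2 * b₄ * (m + δ)
        + ((b₂ + 12 * m) * δ ^ 2 - 2 * b₄ * m - b₂ * m ^ 2 - 4 * m ^ 3)) = 64 * (δ ^ 2) ^ 3 := by
    linear_combination (4 * δ ^ 2) * R2
  have h64 : (64 : K) * (δ ^ 2) ^ 3 ≠ 0 := mul_ne_zero (by norm_num) (pow_ne_zero 3 hD)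
  refine ⟨?_, ?_, ?_, ?_, ?_⟩
  · intro h
    apply hδ0
    have : (2 : K) * δ = 0 := by linear_combination -h
    simpa using this
  · intro h
    rw [h, zero_mul] at hprod
    exact h64 hprod.symm
  · intro h
    rw [h, mul_zero] at hprod
    exact h64 hprod.symm
  · linear_combination (-1 / 4 : K) * R2
  · linear_combination (-1 / 4 : K) * R2

/-- Existence of a midpoint datum over an algebraically closed field of characteristic zero. -/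
theorem exists_midpoint [IsAlgClosed K] [CharZero K] (b₂ b₄ b₆ b₈ : K)
    (hb : 4 * b₈ = b₂ * b₆ - b₄ ^ 2)
    (hΔ : -b₂ ^ 2 * b₈ - 8 * b₄ ^ 3 - 27 * b₆ ^ 2 + 9 * b₂ * b₄ * b₆ ≠ 0) :
    ∃ m D : K, D ≠ 0 ∧
      b₆ + 2 * b₄ * m + b₂ * m ^ 2 + 4 * m ^ 3 = (b₂ + 12 * m) * D ∧
      (b₂ + 12 * m) ^ 2 * D = (b₄ + b₂ * m + 6 * m ^ 2) ^ 2
        + 4 * (b₄ + b₂ * m + 6 * m ^ 2) * D + 20 * D ^ 2 := by
  obtain rfl : b₈ = (b₂ * b₆ - b₄ ^ 2) / 4 := by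
    field_simp
    linear_combination hb
  set p : K[X] := (C b₂ + 12 * X) ^ 3 * (C b₆ + C (2 * b₄) * X + C b₂ * X ^ 2 + 4 * X ^ 3)
      - (C b₂ + 12 * X) ^ 2 * (C b₄ + C b₂ * X + 6 * X ^ 2) ^ 2
      - 4 * (C b₂ + 12 * X) * (C b₄ + C b₂ * X + 6 * X ^ 2)
          * (C b₆ + C (2 * b₄) * X + C b₂ * X ^ 2 + 4 * X ^ 3)
      - 20 * (C b₆ + C (2 * b₄) * X + C b₂ * X ^ 2 + 4 * X ^ 3) ^ 2 with hp
  have hdeg : p.natDegree = 6 := by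
    rw [hp]
    compute_degree!
  have hdeg' : p.degree ≠ 0 :=
    degree_ne_of_natDegree_ne (by rw [hdeg]; norm_num)
  obtain ⟨m, hm⟩ := IsAlgClosed.exists_root p hdeg'
  have hm' : (b₂ + 12 * m) ^ 3 * (b₆ + 2 * b₄ * m + b₂ * m ^ 2 + 4 * m ^ 3)
      - (b₂ + 12 * m) ^ 2 * (b₄ + b₂ * m + 6 * m ^ 2) ^ 2
      - 4 * (b₂ + 12 * m) * (b₄ + b₂ * m + 6 * m ^ 2) * (b₆ + 2 * b₄ * m + b₂ * m ^ 2 + 4 * m ^ 3)
      - 20 * (b₆ + 2 * b₄ * m + b₂ * m ^ 2 + 4 * m ^ 3) ^ 2 = 0 := by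
    have := hm
    simp only [hp, IsRoot.def, eval_sub, eval_mul, eval_pow, eval_add, eval_C, eval_X,
      eval_ofNat] at this
    linear_combination this
  by_cases hB2 : b₂ + 12 * m = 0
  · -- degenerate case
    have hB6 : b₆ + 2 * b₄ * m + b₂ * m ^ 2 + 4 * m ^ 3 = 0 := by
      have h20 : (20 : K) * (b₆ + 2 * b₄ * m + b₂ * m ^ 2 + 4 * m ^ 3) ^ 2 = 0 := by
        rw [hB2] at hm'
        linear_combination -hm'
      have := (mul_eq_zero.mp h20).resolve_left (by norm_num)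
      exact pow_eq_zero_iff (two_ne_zero) |>.mp this
    have hB4 : b₄ + b₂ * m + 6 * m ^ 2 ≠ 0 := by
      intro hB4
      apply hΔ
      linear_combination
        (-(b₂ + 12 * m) ^ 3 / 4 - 27 * (b₆ + 2 * b₄ * m + b₂ * m ^ 2 + 4 * m ^ 3)
          + 9 * (b₂ + 12 * m) * (b₄ + b₂ * m + 6 * m ^ 2)) * hB6
        + ((b₂ + 12 * m) ^ 2 * (b₄ + b₂ * m + 6 * m ^ 2) / 4
          - 8 * (b₄ + b₂ * m + 6 * m ^ 2) ^ 2) * hB4
    obtain ⟨i, hi⟩ := IsAlgClosed.exists_eq_mul_self (-1 : K)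
    have hρ0 : (-1 + 2 * i) / 10 ≠ (0 : K) := by
      intro h
      have h1 : (-1 : K) + 2 * i = 0 := by
        have := div_eq_zero_iff.mp h
        rcases this with h | h
        · exact h
        · norm_num at h
      have h2 : (5 : K) = 0 := by linear_combination -(2 * i + 1) * h1 - 4 * hi
      norm_num at h2
    refine ⟨m, (b₄ + b₂ * m + 6 * m ^ 2) * ((-1 + 2 * i) / 10), mul_ne_zero hB4 hρ0, ?_, ?_⟩
    · rw [hB6, hB2, zero_mul]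
    · rw [hB2]
      field_simp
      linear_combination (80 * (b₄ + b₂ * m + 6 * m ^ 2) ^ 2) * hi
  · have hB6 : b₆ + 2 * b₄ * m + b₂ * m ^ 2 + 4 * m ^ 3 ≠ 0 := by
      intro hB6
      have hB4 : b₄ + b₂ * m + 6 * m ^ 2 = 0 := by
        have h1 : (b₂ + 12 * m) ^ 2 * (b₄ + b₂ * m + 6 * m ^ 2) ^ 2 = 0 := by
          rw [hB6] at hm'
          linear_combination -hm'
        have h2 := (mul_eq_zero.mp h1).resolve_left (pow_ne_zero 2 hB2)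
        exact pow_eq_zero_iff (two_ne_zero) |>.mp h2
      apply hΔ
      linear_combination
        (-(b₂ + 12 * m) ^ 3 / 4 - 27 * (b₆ + 2 * b₄ * m + b₂ * m ^ 2 + 4 * m ^ 3)
          + 9 * (b₂ + 12 * m) * (b₄ + b₂ * m + 6 * m ^ 2)) * hB6
        + ((b₂ + 12 * m) ^ 2 * (b₄ + b₂ * m + 6 * m ^ 2) / 4
          - 8 * (b₄ + b₂ * m + 6 * m ^ 2) ^ 2) * hB4
    refine ⟨m, (b₆ + 2 * b₄ * m + b₂ * m ^ 2 + 4 * m ^ 3) / (b₂ + 12 * m),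
      div_ne_zero hB6 hB2, ?_, ?_⟩
    · rw [mul_div_cancel₀ _ hB2]
    · field_simp
      linear_combination hm'

/-- Over an algebraically closed field of characteristic zero, a Weierstrass equation with
nonzero discriminant admits `x₁ ≠ x₂` satisfying the two duplication relations of a point of
order five. -/
theorem exists_five_data [IsAlgClosed K] [CharZero K] (b₂ b₄ b₆ b₈ : K)
    (hb : 4 * b₈ = b₂ * b₆ - b₄ ^ 2)
    (hΔ : -b₂ ^ 2 * b₈ - 8 * b₄ ^ 3 - 27 * b₆ ^ 2 + 9 * b₂ * b₄ * b₆ ≠ 0) :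
    ∃ x₁ x₂ : K, x₁ ≠ x₂ ∧
      (4 * x₁ ^ 3 + b₂ * x₁ ^ 2 + 2 * b₄ * x₁ + b₆ ≠ 0) ∧
      (4 * x₂ ^ 3 + b₂ * x₂ ^ 2 + 2 * b₄ * x₂ + b₆ ≠ 0) ∧
      x₁ ^ 4 - b₄ * x₁ ^ 2 - 2 * b₆ * x₁ - b₈
        = x₂ * (4 * x₁ ^ 3 + b₂ * x₁ ^ 2 + 2 * b₄ * x₁ + b₆) ∧
      x₂ ^ 4 - b₄ * x₂ ^ 2 - 2 * b₆ * x₂ - b₈
        = x₁ * (4 * x₂ ^ 3 + b₂ * x₂ ^ 2 + 2 * b₄ * x₂ + b₆) := by
  obtain ⟨m, D, hD, R1, R2⟩ := exists_midpoint b₂ b₄ b₆ b₈ hb hΔ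
  obtain ⟨δ, hδ⟩ := IsAlgClosed.exists_eq_mul_self D
  exact ⟨m - δ, m + δ, data_of_midpoint b₂ b₄ b₆ b₈ hb m D δ (by rw [hδ]; ring) hD R1 R2⟩

end Alg

section Point

open WeierstrassCurve WeierstrassCurve.Affine Fermat.Agent.Lib.TorsionFinite

variable {K : Type*} [Field K] (V : WeierstrassCurve.Affine K)

lemma g_eq_sq {x y : K} (h : V.Equation x y) :
    4 * x ^ 3 + V.b₂ * x ^ 2 + 2 * V.b₄ * x + V.b₆ = (y - V.negY x y) ^ 2 := by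
  have heq := (V.equation_iff x y).mp h
  simp only [WeierstrassCurve.b₂, WeierstrassCurve.b₄, WeierstrassCurve.b₆, negY]
  linear_combination (-4 : K) * heq

variable {V}

lemma add_self_ne_zero_of_g_ne [DecidableEq K] {P : V.Point} {x : K} (h : HasX V P x)
    (hg : 4 * x ^ 3 + V.b₂ * x ^ 2 + 2 * V.b₄ * x + V.b₆ ≠ 0) : P + P ≠ 0 := by
  obtain ⟨y, hy, rfl⟩ := h
  have hne : y ≠ V.negY x y := by
    intro hEq
    apply hg
    rw [g_eq_sq V hy.1, sub_eq_zero.mpr hEq]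
    ring
  rw [Point.add_self_of_Y_ne hne]
  exact Point.some_ne_zero _

lemma hasX_neg {P : V.Point} {x : K} (h : HasX V P x) : HasX V (-P) x := by
  obtain ⟨y, hy, rfl⟩ := h
  exact ⟨_, _, Point.neg_some hy⟩

/-- Duplication in the form used here. -/
lemma hasX_double' [DecidableEq K] {P : V.Point} {x x' : K} (h : HasX V P x)
    (hg : 4 * x ^ 3 + V.b₂ * x ^ 2 + 2 * V.b₄ * x + V.b₆ ≠ 0)
    (hR : x ^ 4 - V.b₄ * x ^ 2 - 2 * V.b₆ * x - V.b₈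
      = x' * (4 * x ^ 3 + V.b₂ * x ^ 2 + 2 * V.b₄ * x + V.b₆)) : HasX V (P + P) x' := by
  obtain ⟨-, hX⟩ := hasX_double h (add_self_ne_zero_of_g_ne h hg)
  rwa [hR, mul_div_cancel_right₀ _ hg] at hX

/-- If `x₁ ≠ x₂` satisfy the two duplication relations, any point above `x₁` has order five. -/
theorem five_smul_eq_zero_of_data [DecidableEq K] {P : V.Point} {x₁ x₂ : K} (hP : HasX V P x₁)
    (hne : x₁ ≠ x₂)
    (hg₁ : 4 * x₁ ^ 3 + V.b₂ * x₁ ^ 2 + 2 * V.b₄ * x₁ + V.b₆ ≠ 0)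
    (hg₂ : 4 * x₂ ^ 3 + V.b₂ * x₂ ^ 2 + 2 * V.b₄ * x₂ + V.b₆ ≠ 0)
    (hR1 : x₁ ^ 4 - V.b₄ * x₁ ^ 2 - 2 * V.b₆ * x₁ - V.b₈
      = x₂ * (4 * x₁ ^ 3 + V.b₂ * x₁ ^ 2 + 2 * V.b₄ * x₁ + V.b₆))
    (hR2 : x₂ ^ 4 - V.b₄ * x₂ ^ 2 - 2 * V.b₆ * x₂ - V.b₈
      = x₁ * (4 * x₂ ^ 3 + V.b₂ * x₂ ^ 2 + 2 * V.b₄ * x₂ + V.b₆)) :
    (5 : ℕ) • P = 0 := by
  have h2 : HasX V (P + P) x₂ := hasX_double' hP hg₁ hR1
  have h4 : HasX V (P + P + (P + P)) x₁ := hasX_double' h2 hg₂ hR2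
  obtain ⟨y, hy, hPe⟩ := hP
  obtain ⟨y', hy', h4e⟩ := h4
  have hcases := (Point.X_eq_iff (h₁ := hy') (h₂ := hy)).mp rfl
  rw [← h4e, ← hPe] at hcases
  rcases hcases with h | h
  · exfalso
    apply hne
    have h3 : P + P = -P := by
      have : P + P + P = 0 := by
        have h' : P + P + (P + P) - P = P - P := by rw [h]
        have e : P + P + (P + P) - P = P + P + P := by abel
        rw [e, sub_self] at h'
        exact h'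
      exact eq_neg_of_add_eq_zero_left this
    have hx : HasX V (-P) x₁ := hasX_neg ⟨y, hy, hPe⟩
    rw [← h3] at hx
    exact hx.unique h2
  · have e : (5 : ℕ) • P = P + P + (P + P) + P := by abel
    rw [e, h, neg_add_cancel]

/-- Existence of a point of order five over an algebraically closed field of characteristic
zero. -/
theorem exists_order_five [IsAlgClosed K] [CharZero K] [DecidableEq K]
    (V : WeierstrassCurve.Affine K) (hΔ : V.Δ ≠ 0) :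
    ∃ P : V.Point, P ≠ 0 ∧ (5 : ℕ) • P = 0 := by
  obtain ⟨x₁, x₂, hne, hg₁, hg₂, hR1, hR2⟩ :=
    exists_five_data V.b₂ V.b₄ V.b₆ V.b₈ V.b_relation hΔ
  obtain ⟨s, hs⟩ := IsAlgClosed.exists_eq_mul_self
    (4 * x₁ ^ 3 + V.b₂ * x₁ ^ 2 + 2 * V.b₄ * x₁ + V.b₆)
  have heq : V.Equation x₁ ((s - V.a₁ * x₁ - V.a₃) / 2) := by
    rw [Affine.equation_iff]
    simp only [WeierstrassCurve.b₂, WeierstrassCurve.b₄, WeierstrassCurve.b₆] at hs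
    field_simp
    linear_combination (-1 : K) * hs
  have hns := (V.equation_iff_nonsingular_of_Δ_ne_zero hΔ).mp heq
  refine ⟨Point.some _ _ hns, Point.some_ne_zero hns, ?_⟩
  exact five_smul_eq_zero_of_data ⟨_, hns, rfl⟩ hne hg₁ hg₂ hR1 hR2

end Point

end Fermat.Agent.S51.FiveExist
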