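import Fermat.Agent.S51.Assembly
import Fermat.Agent.S51.GalLine
import Fermat.Agent.Lib.TorsionFinite

set_option autoImplicit false

namespace Fermat.Agent.S51.Shapes

open WeierstrassCurve WeierstrassCurve.Affine WeierstrassCurve.Affine.Point
open Fermat.Agent.S51.GalLine Fermat.Agent.Lib.TorsionFinite

local notation "Qb" => AlgebraicClosure ℚ

/-- The two torsion inputs for a prime `p`: `E[p]` is nontrivial and has fewer than `p^3`
elements. -/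
def TorsionOK (p : ℕ) : Prop :=
  ∀ E : WeierstrassCurve ℚ, E.Δ ≠ 0 →
    Nontrivial (Submodule.torsionBy ℤ (E⁄Qb).Point (p : ℕ)) ∧
    Nat.card (Submodule.torsionBy ℤ (E⁄Qb).Point (p : ℕ)) < p ^ 3

theorem bc_b₂ (E : WeierstrassCurve ℚ) : (E⁄Qb).b₂ = (E.b₂ : Qb) := by
  show (E.map (algebraMap ℚ Qb)).b₂ = _
  rw [WeierstrassCurve.map_b₂, eq_ratCast]

theorem bc_b₄ (E : WeierstrassCurve ℚ) : (E⁄Qb).b₄ = (E.b₄ : Qb) := by
  show (E.map (algebraMap ℚ Qb)).b₄ = _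
  rw [WeierstrassCurve.map_b₄, eq_ratCast]

theorem bc_b₆ (E : WeierstrassCurve ℚ) : (E⁄Qb).b₆ = (E.b₆ : Qb) := by
  show (E.map (algebraMap ℚ Qb)).b₆ = _
  rw [WeierstrassCurve.map_b₆, eq_ratCast]

theorem bc_b₈ (E : WeierstrassCurve ℚ) : (E⁄Qb).b₈ = (E.b₈ : Qb) := by
  show (E.map (algebraMap ℚ Qb)).b₈ = _
  rw [WeierstrassCurve.map_b₈, eq_ratCast]

/-- The 3-side interface from the torsion inputs. -/
theorem three_shape (h3 : TorsionOK 3) : Assembly.ThreeShape := by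
  intro E hΔ hirr
  obtain ⟨hnt, hcard⟩ := h3 E hΔ
  have := finite_torsionBy_of_odd (E⁄Qb) (n := 3) (by decide)
  obtain ⟨x₀, y, hns, h3P⟩ := three_rational_x E hnt hcard hirr
  obtain ⟨P, hP⟩ : ∃ P : (E⁄Qb).Point, P = Point.some (x₀ : Qb) y hns := ⟨_, rfl⟩
  rw [← hP] at h3P
  have hP0 : P ≠ 0 := by rw [hP]; exact Point.some_ne_zero hns
  have hPP : P + P = -P := by
    apply eq_neg_of_add_eq_zero_left
    rw [← two_nsmul, ← succ_nsmul]; exact h3P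
  have hPP0 : P + P ≠ 0 := by rw [hPP]; exact neg_ne_zero.mpr hP0
  obtain ⟨hg, hX⟩ := hasX_double (W := (E⁄Qb)) (P := P) (x := (x₀ : Qb)) ⟨y, hns, hP⟩ hPP0
  have hX' : HasX (E⁄Qb) (P + P) (x₀ : Qb) := by
    rw [hPP, hP, Point.neg_some]; exact ⟨_, _, rfl⟩
  have e := hX.unique hX'
  rw [div_eq_iff hg, bc_b₂, bc_b₄, bc_b₆, bc_b₈] at e
  have : ((3 * x₀ ^ 4 + E.b₂ * x₀ ^ 3 + 3 * E.b₄ * x₀ ^ 2 + 3 * E.b₆ * x₀ + E.b₈ : ℚ) : Qb)
      = 0 := by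
    push_cast
    linear_combination (-1 : Qb) * e
  exact ⟨x₀, by exact_mod_cast this⟩

/-- The 5-side interface from the torsion inputs. -/
theorem five_shape (h5 : TorsionOK 5) : Assembly.FiveShape := by
  intro E hΔ hirr
  obtain ⟨hnt, hcard⟩ := h5 E hΔ
  have := finite_torsionBy_of_odd (E⁄Qb) (n := 5) (by decide)
  obtain ⟨x₁, y₁, x₂, y₂, h₁, h₂, e₁, e₂, h5P, h2P, he₁, he₂⟩ :=
    five_rational_symm E hnt hcard hirr
  obtain ⟨P, hP⟩ : ∃ P : (E⁄Qb).Point, P = Point.some x₁ y₁ h₁ := ⟨_, rfl⟩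
  obtain ⟨Q, hQ⟩ : ∃ Q : (E⁄Qb).Point, Q = Point.some x₂ y₂ h₂ := ⟨_, rfl⟩
  rw [← hP] at h5P h2P
  rw [← hQ] at h2P
  have hP0 : P ≠ 0 := by rw [hP]; exact Point.some_ne_zero h₁
  have hQ0 : Q ≠ 0 := by rw [hQ]; exact Point.some_ne_zero h₂
  have hPP : P + P = Q := by rw [← two_nsmul]; exact h2P
  have hQQ : Q + Q = -P := by
    apply eq_neg_of_add_eq_zero_left
    rw [← hPP]
    have : P + P + (P + P) + P = (5 : ℕ) • P := by
      simp only [succ_nsmul, zero_nsmul, zero_add]; abel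
    rw [this]; exact h5P
  have hXP : HasX (E⁄Qb) P x₁ := ⟨y₁, h₁, hP⟩
  have hXQ : HasX (E⁄Qb) Q x₂ := ⟨y₂, h₂, hQ⟩
  obtain ⟨hg₁, hX₁⟩ := hasX_double hXP (by rw [hPP]; exact hQ0)
  obtain ⟨hg₂, hX₂⟩ := hasX_double hXQ (by rw [hQQ]; exact neg_ne_zero.mpr hP0)
  rw [hPP] at hX₁
  have hXnegP : HasX (E⁄Qb) (-P) x₁ := by
    rw [hP, Point.neg_some]; exact ⟨_, _, rfl⟩
  rw [hQQ] at hX₂
  have r1 := hX₁.unique hXQ
  have r2 := hX₂.unique hXnegP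
  rw [div_eq_iff hg₁, bc_b₂, bc_b₄, bc_b₆, bc_b₈] at r1
  rw [div_eq_iff hg₂, bc_b₂, bc_b₄, bc_b₆, bc_b₈] at r2
  rw [bc_b₂, bc_b₄, bc_b₆] at hg₁ hg₂
  have hne : x₁ ≠ x₂ := by
    intro hx
    have hor : Point.some x₁ y₁ h₁ = Point.some x₂ y₂ h₂ ∨
        Point.some x₁ y₁ h₁ = -Point.some x₂ y₂ h₂ := Point.X_eq_iff.mp hx
    rw [← hP, ← hQ] at hor
    rcases hor with hor | hor
    · -- P = Q = P + P
      apply hP0
      have : P + P = P := by rw [hPP, hor]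
      simpa using this
    · -- P = -Q, so P + P + P = 0 and 5 P = 0
      apply hP0
      have h3 : P + P + P = 0 := by rw [hPP, hor]; simp
      have h5' : P + P + P + (P + P) = 0 := by
        have : P + P + P + (P + P) = (5 : ℕ) • P := by
          simp only [succ_nsmul, zero_nsmul, zero_add]; abel
        rw [this]; exact h5P
      rw [h3, zero_add] at h5'
      rw [h5', zero_add] at h3
      exact h3
  exact ⟨x₁, x₂, e₁, e₂, hne, he₁.symm, he₂.symm, hg₁, hg₂, r1, r2⟩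

end Fermat.Agent.S51.Shapes
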