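import Mathlib

set_option autoImplicit false

namespace Fermat.Agent.S51.TorsId

open WeierstrassCurve

variable {F : Type*} [CommRing F] (W : WeierstrassCurve F)

/-- `g = Ψ₂Sq` evaluated at `x`. -/
def gv (x : F) : F := 4 * x ^ 3 + W.b₂ * x ^ 2 + 2 * W.b₄ * x + W.b₆

/-- `Φ₂` evaluated at `x`. -/
def phiv (x : F) : F := x ^ 4 - W.b₄ * x ^ 2 - 2 * W.b₆ * x - W.b₈

/-- `Ψ₃` evaluated at `x`. -/
def psi3v (x : F) : F := 3 * x ^ 4 + W.b₂ * x ^ 3 + 3 * W.b₄ * x ^ 2 + 3 * W.b₆ * x + W.b₈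

/-- `preΨ₄` evaluated at `x`. -/
def pre4v (x : F) : F :=
  2 * x ^ 6 + W.b₂ * x ^ 5 + 5 * W.b₄ * x ^ 4 + 10 * W.b₆ * x ^ 3 + 10 * W.b₈ * x ^ 2 +
    (W.b₂ * W.b₈ - W.b₄ * W.b₆) * x + (W.b₄ * W.b₈ - W.b₆ ^ 2)

/-- `Ψ₅` evaluated at `x`. -/
def psi5v (x : F) : F := pre4v W x * gv W x ^ 2 - psi3v W x ^ 3

lemma psi3v_eq (x : F) : psi3v W x = x * gv W x - phiv W x := by
  simp only [psi3v, gv, phiv]; ring

/-- Bezout identity between `Φ₂` and `Ψ₂Sq`. -/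
lemma bezout (x : F) :
    (-48 * x ^ 2 - 8 * W.b₂ * x + W.b₂ ^ 2 - 32 * W.b₄) * phiv W x +
      (12 * x ^ 3 - W.b₂ * x ^ 2 - 10 * W.b₄ * x + W.b₂ * W.b₄ - 27 * W.b₆) * gv W x = W.Δ := by
  simp only [phiv, gv, WeierstrassCurve.Δ, WeierstrassCurve.b₂, WeierstrassCurve.b₄,
    WeierstrassCurve.b₆, WeierstrassCurve.b₈]
  ring

/-- `g(φ/g)·g³ = preΨ₄²`, denominator-free. -/
lemma g_dup (x : F) :
    4 * phiv W x ^ 3 + W.b₂ * phiv W x ^ 2 * gv W x + 2 * W.b₄ * phiv W x * gv W x ^ 2 +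
      W.b₆ * gv W x ^ 3 = pre4v W x ^ 2 := by
  simp only [phiv, gv, pre4v, WeierstrassCurve.b₂, WeierstrassCurve.b₄,
    WeierstrassCurve.b₆, WeierstrassCurve.b₈]
  ring

/-- `Φ₂(φ/g)·g⁴ − x·g·preΨ₄² = −Ψ₅·Ψ₃`, denominator-free. -/
lemma phi_dup (x : F) :
    phiv W x ^ 4 - W.b₄ * phiv W x ^ 2 * gv W x ^ 2 - 2 * W.b₆ * phiv W x * gv W x ^ 3 -
      W.b₈ * gv W x ^ 4 - x * gv W x * pre4v W x ^ 2 = -(psi5v W x * psi3v W x) := by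
  simp only [phiv, gv, pre4v, psi5v, psi3v, WeierstrassCurve.b₂, WeierstrassCurve.b₄,
    WeierstrassCurve.b₆, WeierstrassCurve.b₈]
  ring

end Fermat.Agent.S51.TorsId
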