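import Mathlib
import Fermat.Agent.S51.TorsId

set_option autoImplicit false

namespace Fermat.Agent.S51.Tors

open Polynomial WeierstrassCurve WeierstrassCurve.Affine Fermat.Agent.S51.TorsId

section Field

variable {F : Type*} [Field F] (W : WeierstrassCurve.Affine F)

/-- `P` is an affine point with `x`-coordinate `x`. -/
def IsX (P : W.Point) (x : F) : Prop :=
  ∃ (y : F) (h : W.Nonsingular x y), P = Point.some x y h

variable {W}

lemma IsX.ne_zero {P : W.Point} {x : F} (h : IsX W P x) : P ≠ 0 := by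
  obtain ⟨y, hy, rfl⟩ := h
  exact Point.some_ne_zero hy

lemma IsX.unique {P : W.Point} {x x' : F} (h : IsX W P x) (h' : IsX W P x') : x = x' := by
  obtain ⟨y, hy, rfl⟩ := h
  obtain ⟨y', hy', e⟩ := h'
  exact (Point.some.inj e).1

lemma IsX.neg {P : W.Point} {x : F} (h : IsX W P x) : IsX W (-P) x := by
  obtain ⟨y, hy, rfl⟩ := h
  exact ⟨_, _, Point.neg_some hy⟩

lemma IsX.eq_or_eq_neg {P Q : W.Point} {x : F} (hP : IsX W P x) (hQ : IsX W Q x) :
    P = Q ∨ P = -Q := by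
  obtain ⟨y, hy, rfl⟩ := hP
  obtain ⟨y', hy', rfl⟩ := hQ
  exact (Point.X_eq_iff (h₁ := hy) (h₂ := hy')).mp rfl

lemma exists_isX {P : W.Point} (hP : P ≠ 0) : ∃ x, IsX W P x := by
  rcases P with _ | ⟨x, y, h⟩
  · exact absurd rfl hP
  · exact ⟨x, y, h, rfl⟩

lemma gv_eq_sq {x y : F} (h : W.Equation x y) : gv W x = (y - W.negY x y) ^ 2 := by
  have heq := (W.equation_iff x y).mp h
  simp only [gv, WeierstrassCurve.b₂, WeierstrassCurve.b₄, WeierstrassCurve.b₆, negY]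
  linear_combination (-4 : F) * heq

variable [DecidableEq F]

lemma IsX.two_nsmul_eq_zero_iff {P : W.Point} {x : F} (h : IsX W P x) :
    2 • P = 0 ↔ gv W x = 0 := by
  obtain ⟨y, hy, rfl⟩ := h
  rw [gv_eq_sq hy.1, _root_.two_nsmul]
  constructor
  · intro h0
    by_contra hne
    have hyne : y ≠ W.negY x y := by
      intro e
      apply hne
      rw [← e, sub_self]
      ring
    rw [Point.add_self_of_Y_ne hyne] at h0
    exact Point.some_ne_zero _ h0
  · intro h0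
    have : y = W.negY x y := by
      have := pow_eq_zero_iff (two_ne_zero) |>.mp h0
      exact sub_eq_zero.mp this
    exact Point.add_self_of_Y_eq this

omit [DecidableEq F] in
lemma isX_some_of_eq {x₁ x₂ y : F} (h : W.Nonsingular x₁ y) (e : x₁ = x₂) :
    IsX W (Point.some x₁ y h) x₂ := by
  subst e
  exact ⟨y, h, rfl⟩

/-- The duplication formula on `x`-coordinates. -/
lemma IsX.two_nsmul {P : W.Point} {x : F} (h : IsX W P x) (h2 : 2 • P ≠ 0) :
    gv W x ≠ 0 ∧ IsX W (2 • P) (phiv W x / gv W x) := by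
  have hg : gv W x ≠ 0 := fun h0 => h2 (h.two_nsmul_eq_zero_iff.mpr h0)
  refine ⟨hg, ?_⟩
  obtain ⟨y, hy, rfl⟩ := h
  have hne : y ≠ W.negY x y := by
    intro hEq
    exact h2 (by rw [_root_.two_nsmul]; exact Point.add_self_of_Y_eq hEq)
  have heq := (W.equation_iff x y).mp hy.1
  have hD : y - W.negY x y ≠ 0 := sub_ne_zero.mpr hne
  have hB := gv_eq_sq hy.1
  rw [_root_.two_nsmul, Point.add_self_of_Y_ne hne]
  apply isX_some_of_eq
  rw [hB, slope_of_Y_ne rfl hne, addX]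
  rw [eq_div_iff (pow_ne_zero 2 hD)]
  field_simp
  simp only [phiv, WeierstrassCurve.b₄, WeierstrassCurve.b₆, WeierstrassCurve.b₈, negY]
  linear_combination (-(W.a₁ ^ 2 + 4 * W.a₂ + 8 * x)) * heq

/-! ### 3-torsion -/

/-- A nonzero 3-torsion point has `x`-coordinate a root of `Ψ₃`. -/
theorem psi3_of_three_nsmul {P : W.Point} (hP : P ≠ 0) (h3 : 3 • P = 0) :
    ∃ x, IsX W P x ∧ psi3v W x = 0 := by
  obtain ⟨x, hx⟩ := exists_isX hP
  refine ⟨x, hx, ?_⟩
  have h2 : 2 • P = -P := by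
    have : 2 • P + P = 0 := by rw [← succ_nsmul]; exact h3
    exact eq_neg_of_add_eq_zero_left this
  have h2ne : 2 • P ≠ 0 := by rw [h2]; simpa using hP
  obtain ⟨hg, hx2⟩ := hx.two_nsmul h2ne
  rw [h2] at hx2
  have e := hx.neg.unique hx2
  rw [psi3v_eq]
  rw [eq_div_iff hg] at e
  linear_combination e

/-- Conversely, an affine point whose `x`-coordinate is a root of `Ψ₃` is 3-torsion. -/
theorem three_nsmul_of_psi3 (hΔ : W.Δ ≠ 0) {P : W.Point} {x : F} (hx : IsX W P x)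
    (h : psi3v W x = 0) : 3 • P = 0 := by
  have hpsi := psi3v_eq W x
  rw [h] at hpsi
  have hg : gv W x ≠ 0 := by
    intro hg
    have hphi : phiv W x = 0 := by rw [hg] at hpsi; linear_combination hpsi
    have hb := bezout W x
    rw [hphi, hg] at hb
    simp only [mul_zero, add_zero] at hb
    exact hΔ hb.symm
  have h2ne : 2 • P ≠ 0 := fun h0 => hg (hx.two_nsmul_eq_zero_iff.mp h0)
  obtain ⟨_, hx2⟩ := hx.two_nsmul h2ne
  have hxx : phiv W x / gv W x = x := by
    rw [div_eq_iff hg]; linear_combination hpsi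
  rw [hxx] at hx2
  rcases hx2.eq_or_eq_neg hx with h2 | h2
  · exfalso
    apply hx.ne_zero
    rw [_root_.two_nsmul] at h2
    exact add_eq_left.mp h2
  · rw [show 3 • P = 2 • P + P from succ_nsmul P 2, h2, neg_add_cancel]

/-! ### 5-torsion -/

/-- A nonzero 5-torsion point `P`: the `x`-coordinates `x₁` of `±P` and `x₂` of `±2P` are distinct
and satisfy the two duplication relations; moreover `Ψ₅(x₁) = 0`. -/
theorem of_five_nsmul {P : W.Point} (hP : P ≠ 0) (h5 : 5 • P = 0) :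
    ∃ x₁ x₂, IsX W P x₁ ∧ IsX W (2 • P) x₂ ∧ x₁ ≠ x₂ ∧ gv W x₁ ≠ 0 ∧ gv W x₂ ≠ 0 ∧
      x₂ * gv W x₁ = phiv W x₁ ∧ x₁ * gv W x₂ = phiv W x₂ ∧ psi5v W x₁ = 0 := by
  obtain ⟨x₁, hx₁⟩ := exists_isX hP
  have h4 : 4 • P = -P := by
    have : 4 • P + P = 0 := by rw [← succ_nsmul]; exact h5
    exact eq_neg_of_add_eq_zero_left this
  have h4ne : 4 • P ≠ 0 := by rw [h4]; simpa using hP
  have h22 : 2 • (2 • P) = 4 • P := by rw [← mul_nsmul]
  have h2ne : 2 • P ≠ 0 := by
    intro h0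
    apply h4ne
    rw [← h22, h0, nsmul_zero]
  obtain ⟨hg₁, hx₂⟩ := hx₁.two_nsmul h2ne
  set x₂ := phiv W x₁ / gv W x₁ with hx₂def
  have h22ne : 2 • (2 • P) ≠ 0 := by rw [h22]; exact h4ne
  obtain ⟨hg₂, hx₄⟩ := hx₂.two_nsmul h22ne
  rw [h22, h4] at hx₄
  have e₄ := hx₁.neg.unique hx₄
  have r1 : x₂ * gv W x₁ = phiv W x₁ := by rw [hx₂def, div_mul_cancel₀ _ hg₁]
  have r2 : x₁ * gv W x₂ = phiv W x₂ := by rw [e₄, div_mul_cancel₀ _ hg₂]
  have hne : x₁ ≠ x₂ := by
    intro e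
    rw [← e] at hx₂
    rcases hx₂.eq_or_eq_neg hx₁ with h2 | h2
    · apply hP
      rw [_root_.two_nsmul] at h2
      exact add_eq_left.mp h2
    · apply hP
      have h3 : 3 • P = 0 := by
        rw [show 3 • P = 2 • P + P from succ_nsmul P 2, h2, neg_add_cancel]
      have : 5 • P = 3 • P + 2 • P := by rw [← add_nsmul]
      rw [h5, h3, zero_add, h2] at this
      simpa using this.symm
  refine ⟨x₁, x₂, hx₁, hx₂, hne, hg₁, hg₂, r1, r2, ?_⟩
  -- `Ψ₅(x₁) = 0`
  have hpsi3 : psi3v W x₁ ≠ 0 := by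
    rw [psi3v_eq, ← r1, ← sub_mul]
    exact mul_ne_zero (sub_ne_zero.mpr hne) hg₁
  have e1 : gv W x₁ ^ 3 * gv W x₂ = pre4v W x₁ ^ 2 := by
    rw [← g_dup W x₁, ← r1]
    generalize gv W x₁ = g₁
    simp only [gv]
    ring
  have e2 : gv W x₁ ^ 4 * phiv W x₂ =
      phiv W x₁ ^ 4 - W.b₄ * phiv W x₁ ^ 2 * gv W x₁ ^ 2 - 2 * W.b₆ * phiv W x₁ * gv W x₁ ^ 3 -
        W.b₈ * gv W x₁ ^ 4 := by
    rw [← r1]
    generalize gv W x₁ = g₁
    simp only [phiv]
    ring
  have key := phi_dup W x₁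
  rw [← e2, ← e1, ← r2] at key
  have : psi5v W x₁ * psi3v W x₁ = 0 := by linear_combination key
  exact (mul_eq_zero.mp this).resolve_right hpsi3

/-- Conversely, an affine point whose `x`-coordinate is a root of `Ψ₅` is 5-torsion. -/
theorem five_nsmul_of_psi5 (hΔ : W.Δ ≠ 0) {P : W.Point} {x₁ : F} (hx₁ : IsX W P x₁)
    (h : psi5v W x₁ = 0) : 5 • P = 0 := by
  have hpsi := psi3v_eq W x₁
  -- `g(x₁) ≠ 0`
  have hg₁ : gv W x₁ ≠ 0 := by
    intro hg
    have h3 : psi3v W x₁ = 0 := by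
      have : psi3v W x₁ ^ 3 = 0 := by
        have := h; rw [psi5v, hg] at this; linear_combination -this
      exact pow_eq_zero_iff (by norm_num) |>.mp this
    have hphi : phiv W x₁ = 0 := by rw [hg, h3] at hpsi; linear_combination hpsi
    have hb := bezout W x₁
    rw [hphi, hg] at hb
    simp only [mul_zero, add_zero] at hb
    exact hΔ hb.symm
  have h2ne : 2 • P ≠ 0 := fun h0 => hg₁ (hx₁.two_nsmul_eq_zero_iff.mp h0)
  obtain ⟨_, hx₂⟩ := hx₁.two_nsmul h2ne
  set x₂ := phiv W x₁ / gv W x₁ with hx₂def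
  have r1 : x₂ * gv W x₁ = phiv W x₁ := by rw [hx₂def, div_mul_cancel₀ _ hg₁]
  have e1 : gv W x₁ ^ 3 * gv W x₂ = pre4v W x₁ ^ 2 := by
    rw [← g_dup W x₁, ← r1]
    generalize gv W x₁ = g₁
    simp only [gv]
    ring
  have e2 : gv W x₁ ^ 4 * phiv W x₂ =
      phiv W x₁ ^ 4 - W.b₄ * phiv W x₁ ^ 2 * gv W x₁ ^ 2 - 2 * W.b₆ * phiv W x₁ * gv W x₁ ^ 3 -
        W.b₈ * gv W x₁ ^ 4 := by
    rw [← r1]
    generalize gv W x₁ = g₁
    simp only [phiv]
    ring
  -- `Ψ₃(x₁) ≠ 0`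
  have hpsi3 : psi3v W x₁ ≠ 0 := by
    intro h3
    have hx : x₂ = x₁ := by
      rw [hx₂def, div_eq_iff hg₁]; rw [h3] at hpsi; linear_combination hpsi
    have hp4 : pre4v W x₁ ^ 2 = gv W x₁ ^ 4 := by rw [← e1, hx]; ring
    have h' := h
    rw [psi5v, h3] at h'
    have hz : pre4v W x₁ * gv W x₁ ^ 2 = 0 := by linear_combination h'
    have hp0 : pre4v W x₁ = 0 := (mul_eq_zero.mp hz).resolve_right (pow_ne_zero 2 hg₁)
    rw [hp0] at hp4
    exact pow_ne_zero 4 hg₁ (by rw [← hp4]; ring)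
  have hne : x₁ ≠ x₂ := by
    intro e
    apply hpsi3
    rw [hpsi, ← r1, ← e]; ring
  -- `preΨ₄(x₁) ≠ 0`
  have hp4 : pre4v W x₁ ≠ 0 := by
    intro hp0
    have h' := h
    rw [psi5v, hp0] at h'
    apply hpsi3
    have : psi3v W x₁ ^ 3 = 0 := by linear_combination -h'
    exact pow_eq_zero_iff (by norm_num) |>.mp this
  have hg₂ : gv W x₂ ≠ 0 := by
    intro hg
    rw [hg, mul_zero] at e1
    exact hp4 (pow_eq_zero_iff (by norm_num) |>.mp e1.symm)
  have h22 : 2 • (2 • P) = 4 • P := by rw [← mul_nsmul]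
  have h22ne : 2 • (2 • P) ≠ 0 := fun h0 => hg₂ (hx₂.two_nsmul_eq_zero_iff.mp h0)
  obtain ⟨_, hx₄⟩ := hx₂.two_nsmul h22ne
  have key := phi_dup W x₁
  rw [h, zero_mul, neg_zero, ← e2, ← e1] at key
  have r2 : phiv W x₂ / gv W x₂ = x₁ := by
    rw [div_eq_iff hg₂]
    have h4 : gv W x₁ ^ 4 ≠ 0 := pow_ne_zero 4 hg₁
    apply mul_left_cancel₀ h4
    linear_combination key
  rw [r2, h22] at hx₄
  rcases hx₄.eq_or_eq_neg hx₁ with h4 | h4
  · exfalso
    -- `4P = P` gives `3P = 0`, hence `2P = -P` and `x₂ = x₁`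
    have h3 : 3 • P = 0 := by
      have : 4 • P = 3 • P + P := succ_nsmul P 3
      rw [h4] at this
      exact (add_eq_right.mp this.symm)
    have h2 : 2 • P = -P := by
      have : 2 • P + P = 0 := by rw [← succ_nsmul]; exact h3
      exact eq_neg_of_add_eq_zero_left this
    rw [h2] at hx₂
    exact hne (hx₁.neg.unique hx₂)
  · rw [show 5 • P = 4 • P + P from succ_nsmul P 4, h4, neg_add_cancel]

/-! ### Existence of torsion points over an algebraically closed field -/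

omit [DecidableEq F] in
/-- Over an algebraically closed field, every `x` is the `x`-coordinate of a point. -/
lemma exists_isX_of_isAlgClosed [IsAlgClosed F] (hΔ : W.Δ ≠ 0) (x : F) : ∃ P : W.Point, IsX W P x := by
  obtain ⟨y, hy⟩ := IsAlgClosed.exists_root
    (X ^ 2 + C (W.a₁ * x + W.a₃) * X - C (x ^ 3 + W.a₂ * x ^ 2 + W.a₄ * x + W.a₆) : F[X])
    (by
      have : (X ^ 2 + C (W.a₁ * x + W.a₃) * X - C (x ^ 3 + W.a₂ * x ^ 2 + W.a₄ * x + W.a₆) :
          F[X]).degree = 2 := by compute_degree!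
      rw [this]; norm_num)
  have heq : W.Equation x y := by
    rw [W.equation_iff]
    simp only [IsRoot, eval_sub, eval_add, eval_pow, eval_X, eval_mul, eval_C] at hy
    linear_combination hy
  have hns : W.Nonsingular x y := (W.equation_iff_nonsingular_of_Δ_ne_zero hΔ).mp heq
  exact ⟨Point.some x y hns, y, hns, rfl⟩

omit [DecidableEq F] in
lemma eval_Ψ₃ (x : F) : (WeierstrassCurve.Ψ₃ W).eval x = psi3v W x := by
  simp [WeierstrassCurve.Ψ₃, psi3v]

omit [DecidableEq F] in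
lemma eval_preΨ'_five (x : F) : (WeierstrassCurve.preΨ' W 5).eval x = psi5v W x := by
  have h := WeierstrassCurve.preΨ'_odd W 0
  simp only [zero_add, Nat.reduceMul, Nat.reduceAdd, Even.zero, ↓reduceIte,
    WeierstrassCurve.preΨ'_four, WeierstrassCurve.preΨ'_two, WeierstrassCurve.preΨ'_one,
    WeierstrassCurve.preΨ'_three, one_pow, mul_one, one_mul] at h
  rw [h]
  simp [WeierstrassCurve.Ψ₃, WeierstrassCurve.preΨ₄, WeierstrassCurve.Ψ₂Sq, psi5v, psi3v, pre4v, gv]

/-- Existence of a point of order 3. -/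
theorem exists_three_torsion [IsAlgClosed F] (hΔ : W.Δ ≠ 0) (h3 : (3 : F) ≠ 0) :
    ∃ P : W.Point, P ≠ 0 ∧ 3 • P = 0 := by
  obtain ⟨x, hx⟩ := IsAlgClosed.exists_root (WeierstrassCurve.Ψ₃ W)
    (by
      rw [Polynomial.degree_eq_natDegree (WeierstrassCurve.Ψ₃_ne_zero W h3),
        WeierstrassCurve.natDegree_Ψ₃ W h3]
      norm_num)
  obtain ⟨P, hP⟩ := exists_isX_of_isAlgClosed hΔ x
  refine ⟨P, hP.ne_zero, three_nsmul_of_psi3 hΔ hP ?_⟩
  rw [← eval_Ψ₃]; exact hx

/-- Existence of a point of order 5. -/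
theorem exists_five_torsion [IsAlgClosed F] (hΔ : W.Δ ≠ 0) (h5 : (5 : F) ≠ 0) :
    ∃ P : W.Point, P ≠ 0 ∧ 5 • P = 0 := by
  have h5' : ((5 : ℕ) : F) ≠ 0 := by exact_mod_cast h5
  obtain ⟨x, hx⟩ := IsAlgClosed.exists_root (WeierstrassCurve.preΨ' W 5)
    (by
      rw [Polynomial.degree_eq_natDegree (WeierstrassCurve.preΨ'_ne_zero W h5'),
        WeierstrassCurve.natDegree_preΨ' W h5']
      norm_num [Nat.not_even_iff_odd.mpr (by decide : Odd 5)])
  obtain ⟨P, hP⟩ := exists_isX_of_isAlgClosed hΔ x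
  refine ⟨P, hP.ne_zero, five_nsmul_of_psi5 hΔ hP ?_⟩
  rw [← eval_preΨ'_five]; exact hx

/-! ### Size bounds -/

omit [DecidableEq F] in
/-- A set of points all of whose nonzero members have `x`-coordinate a root of a fixed nonzero
polynomial `f` is finite, of cardinality at most `2 * deg f + 1`. -/
theorem ncard_le_of_roots (f : F[X]) (hf : f ≠ 0) (S : Set W.Point)
    (hS : ∀ P ∈ S, P ≠ 0 → ∃ x, IsX W P x ∧ f.eval x = 0) :
    S.Finite ∧ S.ncard ≤ 2 * f.natDegree + 1 := by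
  classical
  have hfin : (f.rootSet F).Finite := Polynomial.rootSet_finite f F
  have : Finite (f.rootSet F) := hfin.to_subtype
  let g : Option (f.rootSet F × Bool) → W.Point := fun t =>
    match t with
    | none => 0
    | some (x, b) =>
      if h : ∃ P : W.Point, IsX W P (x : F) then (if b then h.choose else -h.choose) else 0
  have hsub : S ⊆ Set.range g := by
    intro P hP
    by_cases h0 : P = 0
    · exact ⟨none, h0.symm⟩
    · obtain ⟨x, hx, hroot⟩ := hS P hP h0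
      have hxmem : x ∈ f.rootSet F := by
        rw [Polynomial.mem_rootSet]
        exact ⟨hf, by simpa using hroot⟩
      have hex : ∃ P : W.Point, IsX W P x := ⟨P, hx⟩
      rcases hex.choose_spec.eq_or_eq_neg hx with e | e
      · refine ⟨some (⟨x, hxmem⟩, true), ?_⟩
        simp only [g, dif_pos hex, if_true]
        exact e
      · refine ⟨some (⟨x, hxmem⟩, false), ?_⟩
        simp only [g, dif_pos hex]
        rw [e]; simp
  have hrfin : (Set.range g).Finite := Set.finite_range g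
  refine ⟨hrfin.subset hsub, ?_⟩
  calc S.ncard ≤ (Set.range g).ncard := Set.ncard_le_ncard hsub hrfin
    _ = Nat.card (Set.range g) := (Nat.card_coe_set_eq _).symm
    _ ≤ Nat.card (Option (f.rootSet F × Bool)) := Finite.card_range_le g
    _ = Nat.card (f.rootSet F) * 2 + 1 := by
        rw [Finite.card_option, Nat.card_prod]; simp
    _ ≤ 2 * f.natDegree + 1 := by
        have := Polynomial.ncard_rootSet_le f F
        rw [← Nat.card_coe_set_eq] at this
        omega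

/-! ### The torsion submodules `E[3]`, `E[5]` -/

lemma mem_torsionBy_natCast {n : ℕ} {P : W.Point} :
    P ∈ Submodule.torsionBy ℤ W.Point ((n : ℕ) : ℤ) ↔ n • P = 0 := by
  rw [Submodule.mem_torsionBy_iff, natCast_zsmul]

/-- `E[3]` is finite with at most `9` elements. -/
theorem torsionBy_three_card (h3 : (3 : F) ≠ 0) :
    Finite (Submodule.torsionBy ℤ W.Point ((3 : ℕ) : ℤ)) ∧
      Nat.card (Submodule.torsionBy ℤ W.Point ((3 : ℕ) : ℤ)) ≤ 9 := by
  obtain ⟨hfin, hcard⟩ := ncard_le_of_roots (WeierstrassCurve.Ψ₃ W) (WeierstrassCurve.Ψ₃_ne_zero W h3)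
    ((Submodule.torsionBy ℤ W.Point ((3 : ℕ) : ℤ) : Submodule ℤ W.Point) : Set W.Point)
    (fun P hP hP0 => by
      obtain ⟨x, hx, h⟩ := psi3_of_three_nsmul hP0 (mem_torsionBy_natCast.mp hP)
      exact ⟨x, hx, by rw [eval_Ψ₃]; exact h⟩)
  refine ⟨hfin.to_subtype, ?_⟩
  have hdeg := WeierstrassCurve.natDegree_Ψ₃_le W
  calc Nat.card (Submodule.torsionBy ℤ W.Point ((3 : ℕ) : ℤ))
      = ((Submodule.torsionBy ℤ W.Point ((3 : ℕ) : ℤ) : Submodule ℤ W.Point) : Set W.Point).ncard :=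
        Nat.card_coe_set_eq _
    _ ≤ 9 := by omega

/-- `E[5]` is finite with at most `25` elements. -/
theorem torsionBy_five_card (h5 : (5 : F) ≠ 0) :
    Finite (Submodule.torsionBy ℤ W.Point ((5 : ℕ) : ℤ)) ∧
      Nat.card (Submodule.torsionBy ℤ W.Point ((5 : ℕ) : ℤ)) ≤ 25 := by
  have h5' : ((5 : ℕ) : F) ≠ 0 := by exact_mod_cast h5
  obtain ⟨hfin, hcard⟩ := ncard_le_of_roots (WeierstrassCurve.preΨ' W 5)
    (WeierstrassCurve.preΨ'_ne_zero W h5')
    ((Submodule.torsionBy ℤ W.Point ((5 : ℕ) : ℤ) : Submodule ℤ W.Point) : Set W.Point)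
    (fun P hP hP0 => by
      obtain ⟨x₁, x₂, hx₁, -, -, -, -, -, -, h⟩ := of_five_nsmul hP0 (mem_torsionBy_natCast.mp hP)
      exact ⟨x₁, hx₁, by rw [eval_preΨ'_five]; exact h⟩)
  refine ⟨hfin.to_subtype, ?_⟩
  have hdeg := WeierstrassCurve.natDegree_preΨ'_le W 5
  have h12 : (5 ^ 2 - if Even 5 then 4 else 1) / 2 = 12 := by
    norm_num [Nat.not_even_iff_odd.mpr (by decide : Odd 5)]
  rw [h12] at hdeg
  calc Nat.card (Submodule.torsionBy ℤ W.Point ((5 : ℕ) : ℤ))
      = ((Submodule.torsionBy ℤ W.Point ((5 : ℕ) : ℤ) : Submodule ℤ W.Point) : Set W.Point).ncard :=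
        Nat.card_coe_set_eq _
    _ ≤ 25 := by omega

/-- `E[3]` is nontrivial over an algebraically closed field. -/
theorem torsionBy_three_nontrivial [IsAlgClosed F] (hΔ : W.Δ ≠ 0) (h3 : (3 : F) ≠ 0) :
    Nontrivial (Submodule.torsionBy ℤ W.Point ((3 : ℕ) : ℤ)) := by
  obtain ⟨P, hP0, hP⟩ := exists_three_torsion hΔ h3
  exact ⟨⟨⟨P, mem_torsionBy_natCast.mpr hP⟩, 0, fun h => hP0 (congrArg Subtype.val h)⟩⟩

/-- `E[5]` is nontrivial over an algebraically closed field. -/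
theorem torsionBy_five_nontrivial [IsAlgClosed F] (hΔ : W.Δ ≠ 0) (h5 : (5 : F) ≠ 0) :
    Nontrivial (Submodule.torsionBy ℤ W.Point ((5 : ℕ) : ℤ)) := by
  obtain ⟨P, hP0, hP⟩ := exists_five_torsion hΔ h5
  exact ⟨⟨⟨P, mem_torsionBy_natCast.mpr hP⟩, 0, fun h => hP0 (congrArg Subtype.val h)⟩⟩

end Field

/-! ### Lines in small `ZMod p`-modules -/

/-- In a `ZMod p`-module with at most `p ^ 2` elements, a submodule which is neither `⊥` nor `⊤`
is a line: all its elements are multiples of any of its nonzero elements. -/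
theorem exists_nsmul_of_mem {p : ℕ} [Fact p.Prime] {V : Type*} [AddCommGroup V] [Module (ZMod p) V]
    [Finite V] (hV : Nat.card V ≤ p ^ 2) (N : Submodule (ZMod p) V) (htop : N ≠ ⊤)
    {P : V} (hPN : P ∈ N) (hP : P ≠ 0) {Q : V} (hQ : Q ∈ N) : ∃ k : ℕ, Q = k • P := by
  have hp : p.Prime := Fact.out
  have : Module.Finite (ZMod p) V := Module.Finite.of_finite
  have hcard : Nat.card V = p ^ Module.finrank (ZMod p) V := by
    rw [Module.natCard_eq_pow_finrank (K := ZMod p), Nat.card_zmod]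
  have hV2 : Module.finrank (ZMod p) V ≤ 2 := by
    rw [hcard] at hV
    exact (Nat.pow_le_pow_iff_right hp.one_lt).mp hV
  have hlt : Module.finrank (ZMod p) N < Module.finrank (ZMod p) V :=
    Submodule.finrank_lt htop
  have hpos : 0 < Module.finrank (ZMod p) N := by
    rw [Module.finrank_pos_iff_exists_ne_zero]
    exact ⟨⟨P, hPN⟩, fun h => hP (congrArg Subtype.val h)⟩
  have h1 : Module.finrank (ZMod p) N = 1 := by omega
  have hne : (⟨P, hPN⟩ : N) ≠ 0 := fun h => hP (congrArg Subtype.val h)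
  obtain ⟨c, hc⟩ := (finrank_eq_one_iff_of_nonzero' (⟨P, hPN⟩ : N) hne).mp h1 ⟨Q, hQ⟩
  refine ⟨c.val, ?_⟩
  have hc' : c • P = Q := congrArg Subtype.val hc
  rw [← hc', ← Nat.cast_smul_eq_nsmul (ZMod p), ZMod.natCast_zmod_val]


end Fermat.Agent.S51.Tors
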