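import Mathlib
import Fermat.Agent.Lib.TorsionFinite

set_option autoImplicit false

namespace Fermat.Agent.S51.TorsionCard

open Polynomial WeierstrassCurve WeierstrassCurve.Affine
open Fermat.Agent.Lib.TorsionFinite

variable {F : Type*} [Field F] {W : WeierstrassCurve.Affine F}

lemma hasX_neg {P : W.Point} {x : F} (h : HasX W P x) : HasX W (-P) x := by
  obtain ⟨y, hy, rfl⟩ := h
  rw [Point.neg_some]
  exact ⟨_, _, rfl⟩

/-- Points with `2^k • P = -P` also give roots of the fixed-point polynomial. -/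
lemma fixPoly_eval_eq_zero_neg [DecidableEq F] (k : ℕ) {P : W.Point} {x : F} (hx : x ≠ 0)
    (h : HasX W P x) (hk : 2 ^ k • P = -P) : (fixPoly W k).eval x⁻¹ = 0 := by
  have hne : 2 ^ k • P ≠ 0 := by rw [hk]; exact neg_ne_zero.mpr h.ne_zero
  obtain ⟨hp, hX⟩ := hasX_two_pow_smul k hx h hne
  rw [hk] at hX
  have e := (hasX_neg h).unique hX
  simp only [fixPoly, eval_sub, eval_mul, eval_X]
  have e' : (dblIter W k).2.eval x⁻¹ = x * (dblIter W k).1.eval x⁻¹ := by
    rw [eq_div_iff hp] at e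
    exact e.symm
  rw [e', ← mul_assoc, inv_mul_cancel₀ hx, one_mul, sub_self]

lemma natDegree_dblIter (W : WeierstrassCurve.Affine F) (k : ℕ) :
    (dblIter W k).1.natDegree ≤ 4 ^ k ∧ (dblIter W k).2.natDegree ≤ 4 ^ k := by
  induction k with
  | zero => simp [dblIter]
  | succ k ih =>
    obtain ⟨h1, h2⟩ := ih
    obtain ⟨p, hp⟩ : ∃ p, p = (dblIter W k).1 := ⟨_, rfl⟩
    obtain ⟨q, hq⟩ : ∃ q, q = (dblIter W k).2 := ⟨_, rfl⟩
    have e1 : (dblIter W (k + 1)).1 = p * (4 * q ^ 3 + C W.b₂ * p * q ^ 2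
        + C (2 * W.b₄) * p ^ 2 * q + C W.b₆ * p ^ 3) := by rw [hp, hq]; rfl
    have e2 : (dblIter W (k + 1)).2 = q ^ 4 - C W.b₄ * p ^ 2 * q ^ 2
        - C (2 * W.b₆) * p ^ 3 * q - C W.b₈ * p ^ 4 := by rw [hp, hq]; rfl
    rw [← hp] at h1
    rw [← hq] at h2
    obtain ⟨d, hd⟩ : ∃ d, d = 4 ^ k := ⟨_, rfl⟩
    rw [← hd] at h1 h2
    have hd4 : 4 ^ (k + 1) = 4 * d := by rw [hd]; ring
    rw [e1, e2, hd4]
    constructor
    · compute_degree
      omega
    · compute_degree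
      omega


lemma natDegree_fixPoly (W : WeierstrassCurve.Affine F) (k : ℕ) :
    (fixPoly W k).natDegree ≤ 4 ^ k + 1 := by
  obtain ⟨h1, h2⟩ := natDegree_dblIter W k
  unfold fixPoly
  refine (natDegree_sub_le _ _).trans (max_le (h1.trans (Nat.le_succ _)) ?_)
  refine natDegree_mul_le.trans ?_
  rw [natDegree_X]
  omega

/-- At most two points have a given `x`-coordinate. -/
lemma ncard_hasX_le (x : F) : {P : W.Point | HasX W P x}.ncard ≤ 2 := by
  by_cases hex : ∃ P : W.Point, HasX W P x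
  · obtain ⟨P₀, y₀, h₀, rfl⟩ := hex
    have hsub : {P : W.Point | HasX W P x} ⊆ {Point.some x y₀ h₀, -Point.some x y₀ h₀} := by
      rintro P ⟨y, h, rfl⟩
      have := (Point.X_eq_iff (h₁ := h) (h₂ := h₀)).mp rfl
      simpa using this
    refine (Set.ncard_le_ncard hsub (Set.toFinite _)).trans ?_
    refine (Set.ncard_insert_le _ _).trans ?_
    rw [Set.ncard_singleton]
  · have : {P : W.Point | HasX W P x} = ∅ := by
      ext P
      simp only [Set.mem_ofPred_eq, Set.mem_empty_iff_false, iff_false]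
      exact fun hP => hex ⟨P, hP⟩
    rw [this]
    simp

lemma ncard_biUnion_hasX_le (T : Finset F) :
    (⋃ x ∈ T, {P : W.Point | HasX W P x}).ncard ≤ 2 * T.card := by
  classical
  induction T using Finset.induction_on with
  | empty => simp
  | insert a T ha ih =>
    rw [Finset.card_insert_of_notMem ha]
    have e : (⋃ x ∈ insert a T, {P : W.Point | HasX W P x}) =
        {P : W.Point | HasX W P a} ∪ ⋃ x ∈ T, {P : W.Point | HasX W P x} := by
      ext P; simp
    rw [e]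
    refine (Set.ncard_union_le _ _).trans ?_
    have h1 := ncard_hasX_le (W := W) a
    omega

/-- If the `x`-coordinates of the nonzero points of a set `S` all lie in a finset `T`,
then `S` has at most `2 * T.card + 1` elements. -/
lemma ncard_le_of_hasX (S : Set W.Point) (T : Finset F)
    (hT : ∀ (P : W.Point) (x : F), P ∈ S → HasX W P x → x ∈ T) :
    S.ncard ≤ 2 * T.card + 1 := by
  have hsub : S ⊆ insert 0 (⋃ x ∈ T, {P : W.Point | HasX W P x}) := by
    intro P hP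
    rcases P with _ | ⟨x, y, h⟩
    · left; rfl
    · right
      have hX : HasX W (Point.some x y h) x := ⟨y, h, rfl⟩
      exact Set.mem_biUnion (hT _ _ hP hX) hX
  have hfinU : (⋃ x ∈ T, {P : W.Point | HasX W P x}).Finite :=
    Set.Finite.biUnion T.finite_toSet fun x _ => finite_hasX x
  have hU := ncard_biUnion_hasX_le (W := W) T
  refine (Set.ncard_le_ncard hsub (hfinU.insert 0)).trans ?_
  refine (Set.ncard_insert_le _ _).trans ?_
  omega

/-- Cardinality bound for the `n`-torsion when `2^k ≡ -1 mod n`. -/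
theorem card_torsionBy_le [DecidableEq F] (W : WeierstrassCurve.Affine F) (k n : ℕ)
    (hk : (4 : F) ^ k ≠ 1) (hn : ∀ P : W.Point, n • P = 0 → 2 ^ k • P = -P) :
    Nat.card (Submodule.torsionBy ℤ W.Point (n : ℤ)) ≤ 2 * (4 ^ k + 2) + 1 := by
  classical
  obtain ⟨T, hTdef⟩ : ∃ T : Finset F,
      T = insert 0 ((fixPoly W k).roots.toFinset.image (fun t => t⁻¹)) := ⟨_, rfl⟩
  have hTcard : T.card ≤ 4 ^ k + 2 := by
    rw [hTdef]
    refine (Finset.card_insert_le _ _).trans ?_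
    have h1 : ((fixPoly W k).roots.toFinset.image (fun t => t⁻¹)).card ≤ 4 ^ k + 1 :=
      Finset.card_image_le.trans ((Multiset.toFinset_card_le _).trans
        ((card_roots' _).trans (natDegree_fixPoly W k)))
    omega
  have hS : ((Submodule.torsionBy ℤ W.Point (n : ℤ) : Submodule ℤ W.Point) : Set W.Point).ncard
      ≤ 2 * T.card + 1 := by
    apply ncard_le_of_hasX
    intro P x hP hX
    have hP' : n • P = 0 := by
      have h : (n : ℤ) • P = 0 := (Submodule.mem_torsionBy_iff _ _).mp hP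
      rwa [natCast_zsmul] at h
    rw [hTdef]
    by_cases hx : x = 0
    · rw [hx]; exact Finset.mem_insert_self _ _
    · apply Finset.mem_insert_of_mem
      rw [Finset.mem_image]
      refine ⟨x⁻¹, ?_, inv_inv x⟩
      rw [Multiset.mem_toFinset, mem_roots (fixPoly_ne_zero W k hk)]
      exact fixPoly_eval_eq_zero_neg k hx hX (hn P hP')
  have : Nat.card (Submodule.torsionBy ℤ W.Point (n : ℤ)) =
      ((Submodule.torsionBy ℤ W.Point (n : ℤ) : Submodule ℤ W.Point) : Set W.Point).ncard := rfl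
  rw [this]
  omega


/-- The discriminant vanishes if `Ψ₂Sq` has a double root. -/
lemma disc_aux [CharZero F] (x b2 b4 b6 b8 : F) (hrel : 4 * b8 = b2 * b6 - b4 ^ 2)
    (hg : 4 * x ^ 3 + b2 * x ^ 2 + 2 * b4 * x + b6 = 0)
    (hg' : 12 * x ^ 2 + 2 * b2 * x + 2 * b4 = 0) :
    -b2 ^ 2 * b8 - 8 * b4 ^ 3 - 27 * b6 ^ 2 + 9 * b2 * b4 * b6 = 0 := by
  have h4 : b4 = -6 * x ^ 2 - b2 * x := by linear_combination hg' / 2
  have h6 : b6 = 8 * x ^ 3 + b2 * x ^ 2 := by linear_combination hg - x * hg'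
  subst h4 h6
  have h : (4 : F) * (-b2 ^ 2 * b8 - 8 * (-6 * x ^ 2 - b2 * x) ^ 3 - 27 * (8 * x ^ 3 + b2 * x ^ 2) ^ 2
      + 9 * b2 * (-6 * x ^ 2 - b2 * x) * (8 * x ^ 3 + b2 * x ^ 2)) = 0 := by
    linear_combination (-b2 ^ 2) * hrel
  have h4ne : (4 : F) ≠ 0 := by norm_num
  exact (mul_eq_zero.mp h).resolve_left h4ne

/-- Over an algebraically closed field of characteristic zero, an elliptic curve has a point
of order 3. -/
theorem exists_three_torsion [DecidableEq F] [IsAlgClosed F] [CharZero F]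
    (W : WeierstrassCurve.Affine F) (hΔ : W.Δ ≠ 0) :
    ∃ P : W.Point, P ≠ 0 ∧ 3 • P = 0 := by
  obtain ⟨ψ, hψdef⟩ : ∃ ψ : F[X], ψ = C 3 * X ^ 4 + C W.b₂ * X ^ 3 + C (3 * W.b₄) * X ^ 2
      + C (3 * W.b₆) * X + C W.b₈ := ⟨_, rfl⟩
  have h3ne : (3 : F) ≠ 0 := by norm_num
  have hdeg : ψ.degree = 4 := by
    rw [hψdef]
    compute_degree!
  obtain ⟨x, hx⟩ := IsAlgClosed.exists_root ψ (by rw [hdeg]; norm_num)
  obtain ⟨φ, hφdef⟩ : ∃ φ : F[X], φ = X ^ 2 + C (W.a₁ * x + W.a₃) * X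
      - C (x ^ 3 + W.a₂ * x ^ 2 + W.a₄ * x + W.a₆) := ⟨_, rfl⟩
  have hdegφ : φ.degree = 2 := by
    rw [hφdef]
    compute_degree!
  obtain ⟨y, hy⟩ := IsAlgClosed.exists_root φ (by rw [hdegφ]; norm_num)
  have hψ : 3 * x ^ 4 + W.b₂ * x ^ 3 + 3 * W.b₄ * x ^ 2 + 3 * W.b₆ * x + W.b₈ = 0 := by
    rw [hψdef] at hx
    simpa [IsRoot] using hx
  have heq : W.Equation x y := by
    rw [W.equation_iff]
    rw [hφdef] at hy
    simp only [IsRoot, eval_sub, eval_add, eval_pow, eval_X, eval_mul, eval_C] at hy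
    linear_combination hy
  have hns : W.Nonsingular x y := (W.equation_iff_nonsingular_of_Δ_ne_zero hΔ).mp heq
  obtain ⟨P, hP⟩ : ∃ P : W.Point, P = Point.some x y hns := ⟨_, rfl⟩
  have hP0 : P ≠ 0 := by rw [hP]; exact Point.some_ne_zero hns
  have heq' := (W.equation_iff x y).mp heq
  have hB : 4 * x ^ 3 + W.b₂ * x ^ 2 + 2 * W.b₄ * x + W.b₆ = (y - W.negY x y) ^ 2 := by
    simp only [WeierstrassCurve.b₂, WeierstrassCurve.b₄, WeierstrassCurve.b₆, negY]
    linear_combination (-4 : F) * heq'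
  refine ⟨P, hP0, ?_⟩
  by_cases hyy : y = W.negY x y
  · exfalso
    have hg : 4 * x ^ 3 + W.b₂ * x ^ 2 + 2 * W.b₄ * x + W.b₆ = 0 := by
      rw [hB, ← hyy, sub_self]; ring
    have hg'2 : (12 * x ^ 2 + 2 * W.b₂ * x + 2 * W.b₄) ^ 2 = 0 := by
      linear_combination (2 * (24 * x + 2 * W.b₂)) * hg - 16 * hψ + 4 * W.b_relation
    have hg' := pow_eq_zero_iff (n := 2) (by norm_num) |>.mp hg'2
    apply hΔ
    have := disc_aux x W.b₂ W.b₄ W.b₆ W.b₈ W.b_relation hg hg'
    rw [WeierstrassCurve.Δ]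
    linear_combination this
  · have hPP0 : P + P ≠ 0 := by
      rw [hP, Point.add_self_of_Y_ne hyy]
      exact Point.some_ne_zero _
    obtain ⟨hg, hX⟩ := hasX_double (W := W) (P := P) (x := x) ⟨y, hns, hP⟩ hPP0
    have hxx : (x ^ 4 - W.b₄ * x ^ 2 - 2 * W.b₆ * x - W.b₈) /
        (4 * x ^ 3 + W.b₂ * x ^ 2 + 2 * W.b₄ * x + W.b₆) = x := by
      rw [div_eq_iff hg]
      linear_combination (-1 : F) * hψ
    rw [hxx] at hX
    obtain ⟨y', h', e⟩ := hX
    have hor : Point.some x y' h' = Point.some x y hns ∨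
        Point.some x y' h' = -Point.some x y hns := Point.X_eq_iff.mp rfl
    rw [← e, ← hP] at hor
    rcases hor with hor | hor
    · exact absurd (by simpa using hor) hP0
    · rw [show (3 : ℕ) = 2 + 1 from rfl, add_nsmul, two_nsmul, one_nsmul, hor, neg_add_cancel]


theorem card_three_lt [DecidableEq F] [CharZero F] (W : WeierstrassCurve.Affine F) :
    Nat.card (Submodule.torsionBy ℤ W.Point ((3 : ℕ) : ℤ)) < 3 ^ 3 := by
  have h := card_torsionBy_le W 1 3 (by norm_num) (fun P hP => by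
    apply eq_neg_of_add_eq_zero_left
    rw [pow_one, ← succ_nsmul]
    exact hP)
  omega

theorem card_five_lt [DecidableEq F] [CharZero F] (W : WeierstrassCurve.Affine F) :
    Nat.card (Submodule.torsionBy ℤ W.Point ((5 : ℕ) : ℤ)) < 5 ^ 3 := by
  have h := card_torsionBy_le W 2 5 (by norm_num) (fun P hP => by
    apply eq_neg_of_add_eq_zero_left
    rw [show (2 : ℕ) ^ 2 = 4 from rfl, ← succ_nsmul]
    exact hP)
  omega

/-- A nonzero `n`-torsion point makes the `n`-torsion submodule nontrivial. -/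
theorem nontrivial_torsionBy_of_exists [DecidableEq F] (W : WeierstrassCurve.Affine F) (n : ℕ)
    (h : ∃ P : W.Point, P ≠ 0 ∧ n • P = 0) :
    Nontrivial (Submodule.torsionBy ℤ W.Point ((n : ℕ) : ℤ)) := by
  obtain ⟨P, hP0, hP⟩ := h
  have hmem : P ∈ Submodule.torsionBy ℤ W.Point ((n : ℕ) : ℤ) := by
    rw [Submodule.mem_torsionBy_iff, natCast_zsmul]
    exact hP
  exact ⟨⟨⟨P, hmem⟩, 0, fun h0 => hP0 (congrArg Subtype.val h0)⟩⟩

end Fermat.Agent.S51.TorsionCard
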