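import Fermat.Agent.S51.Shapes
import Fermat.Agent.S51.TorsionCard

set_option autoImplicit false

namespace Fermat.Agent.S51.TorsionOK

open WeierstrassCurve WeierstrassCurve.Affine WeierstrassCurve.Affine.Point
open Fermat.Agent.S51

local notation "Qb" => AlgebraicClosure ℚ

theorem bc_Δ_ne_zero (E : WeierstrassCurve ℚ) (hΔ : E.Δ ≠ 0) : (E⁄Qb).Δ ≠ 0 := by
  show (E.map (algebraMap ℚ Qb)).Δ ≠ 0
  rw [WeierstrassCurve.map_Δ]
  exact (map_ne_zero (algebraMap ℚ Qb)).mpr hΔ

/-- The torsion inputs at `3` hold unconditionally. -/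
theorem torsionOK_three : Shapes.TorsionOK 3 := by
  intro E hΔ
  exact ⟨TorsionCard.nontrivial_torsionBy_of_exists (E⁄Qb) 3
    (TorsionCard.exists_three_torsion (E⁄Qb) (bc_Δ_ne_zero E hΔ)), TorsionCard.card_three_lt (E⁄Qb)⟩

/-- The torsion inputs at `5` hold as soon as every elliptic curve has a point of order 5. -/
theorem torsionOK_five_of
    (h : ∀ E : WeierstrassCurve ℚ, E.Δ ≠ 0 → ∃ P : (E⁄Qb).Point, P ≠ 0 ∧ 5 • P = 0) :
    Shapes.TorsionOK 5 := by
  intro E hΔ
  exact ⟨TorsionCard.nontrivial_torsionBy_of_exists (E⁄Qb) 5 (h E hΔ),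
    TorsionCard.card_five_lt (E⁄Qb)⟩

/-- The 3-side interface of the assembly, unconditionally. -/
theorem threeShape : Assembly.ThreeShape := Shapes.three_shape torsionOK_three

/-- The 5-side interface of the assembly, from the existence of points of order 5. -/
theorem fiveShape_of
    (h : ∀ E : WeierstrassCurve ℚ, E.Δ ≠ 0 → ∃ P : (E⁄Qb).Point, P ≠ 0 ∧ 5 • P = 0) :
    Assembly.FiveShape := Shapes.five_shape (torsionOK_five_of h)

end Fermat.Agent.S51.TorsionOK
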